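import Fermat.Agent.BAD.X0.Setup
import Fermat.Agent.RED.Full.Congruence

/-!
# The two expansions of `X_H(M q)` at a prime `q ∤ M`, trivial character at `q`

The field of level `M q` is generated over that of level `M` by `j (q z)`.  Hence the expansion at
the cusp moved by the Atkin-Lehner matrix is the expansion at `∞` of an automorphism `atkin`, with
`atkin ∘ α = β` and `atkin ∘ β = α ∘ ⟨q⟩⁻¹`.

These two expansions (`emb`) are what `Degen` reduces at a place over `q` to get the two glued
components; `Series`, `Model`, `Regular`, `Unit`, `Glue` and `Count` prove the properties needed.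
-/

set_option autoImplicit false

attribute [local instance 10000] SubalgebraClass.toAlgebra HahnSeries.powerSeriesAlgebra

noncomputable section

open ModularCurve AlgebraicCurve IntermediateField

namespace Fermat.BAD.XH

open Fermat.MC Fermat.JAC Fermat.JAC.XH Fermat.RED
open Fermat.JAC.X0 (embC)

local notation "Qb" => AlgebraicClosure ℚ

variable (M q : ℕ) [NeZero M] [NeZero q] (H : Subgroup (ZMod M)ˣ) [Lvl.NegMem H]

/-- The field of level `M`. -/
abbrev FH : IntermediateField Qb (LaurentSeries Qb) := Lvl.FL (Lvl.GammaH M H) Qb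

/-- The field of level `M q`. -/
abbrev FU : IntermediateField Qb (LaurentSeries Qb) :=
  Lvl.FL (Lvl.GammaH (M * q) (upH M H q)) Qb

/-- The forgetful map from level `M` to level `M q`, `alphaH`. -/
abbrev al : FH M H →ₐ[Qb] FU M q H := alphaH M H q Qb

/-- The map `f ↦ f (q z)`. -/
abbrev be : FH M H →ₐ[Qb] FU M q H := betaH M H q Qb

/-- `j` at level `M`. -/
abbrev jM : FH M H := Lvl.jL (Lvl.GammaH M H) Qb

/-- `j (z)`. -/
def aj : FU M q H := al M q H (jM M H)

/-- `j (q z)`. -/
def bj : FU M q H := be M q H (jM M H)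

/-- `α` keeps the expansion at `∞`. -/
theorem coe_al (x : FH M H) : (al M q H x : LaurentSeries Qb) = (x : LaurentSeries Qb) :=
  coe_inclFL Qb _ x

/-- `β` substitutes `q ^ q` in the expansion at `∞`. -/
theorem coe_be (x : FH M H) :
    (be M q H x : LaurentSeries Qb) = qExpand Qb q (x : LaurentSeries Qb) :=
  coe_scaleFL Qb _ x

/-- The expansion of `j` at level `M`. -/
theorem coe_jM : (jM M H : LaurentSeries Qb) = jqModC Qb := X0.coeffEmb_jq Qb

variable (hq : q.Prime) (hqM : ¬ q ∣ M)

/-- `q` as a unit modulo `M`. -/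
abbrev qUnit : (ZMod M)ˣ := ZMod.unitOfCoprime q (hq.coprime_iff_not_dvd.mpr hqM)

/-- `⟨q⟩⁻¹` at level `M`. -/
def dq : FH M H ≃ₐ[Qb] FH M H := Lvl.diamondHom H embC (qUnit M q hq hqM)⁻¹

omit [NeZero q] in
/-- `⟨q⟩⁻¹` fixes `j`. -/
theorem dq_jM : dq M q H hq hqM (jM M H) = jM M H := diamondHom_jL M embC H _

/-- There is an expansion of the field of level `M q` restricting to the substituted expansion on
`α` and to that of `⟨q⟩⁻¹` on `β`. -/
theorem exists_otherEmb :
    ∃ e₀ : FU M q H →+* LaurentSeries ℂ,
      (∀ f, e₀ (al M q H f) = qExpand ℂ q (coeffMap embC (f : LaurentSeries Qb))) ∧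
      ∀ f, e₀ (be M q H f) = coeffMap embC (dq M q H hq hqM f : LaurentSeries Qb) :=
  Fermat.RED.Full.exists_otherExpansion (H := H) (hq.coprime_iff_not_dvd.mpr hqM)

include hq hqM in
/-- `α` has degree `q + 1`. -/
theorem finrankAlong_al : finrankAlong Qb (al M q H) = q + 1 :=
  Fermat.RED.Full.finrankAlong_alphaH_bar hq hqM

include hq hqM in
/-- The field of level `M q` is generated by `j (q z)` over that of level `M`. -/
theorem adjoin_bj :
    letI := algebraAlong (al M q H)
    adjoin (FH M H) {bj M q H} = (⊤ : IntermediateField (FH M H) (FU M q H)) := by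
  classical
  let := algebraAlong (al M q H)
  have := isScalarTower_along (al M q H)
  have : Module.Finite (FH M H) (FU M q H) := FF.finiteAlong (al M q H)
  obtain ⟨e₀, hα₀, hβ₀⟩ := exists_otherEmb M q H hq hqM
  obtain ⟨ζ, hζ⟩ := exists_isPrimitiveRoot_unit ℂ q (Nat.cast_ne_zero.mpr hq.ne_zero)
  have hζ' : IsPrimitiveRoot (ζ : ℂ) q := IsPrimitiveRoot.coe_units_iff.mpr hζ
  -- `q + 1` embeddings extending that of level `M`, told apart by `j (q z)`.
  let σ : Option (Fin q) → (FU M q H →+* LaurentSeries ℂ) := fun o =>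
    o.elim ((qExpand ℂ q).comp ((coeffMap embC).comp (FU M q H).val.toRingHom))
      fun i => (twist (ζ ^ (i : ℕ))).comp e₀
  have hσ : ∀ o x, σ o (al M q H x) = qExpand ℂ q (coeffMap embC (x : LaurentSeries Qb)) := by
    rintro (_ | i) x
    · change qExpand ℂ q (coeffMap embC (al M q H x : LaurentSeries Qb)) = _
      rw [coe_al]
    · change twist (ζ ^ (i : ℕ)) (e₀ (al M q H x)) = _
      rw [hα₀, twist_qExpand, show (ζ ^ (i : ℕ)) ^ q = 1 from Units.ext (by
        rw [← pow_mul, mul_comm, pow_mul, Units.val_pow_eq_pow_val, Units.val_pow_eq_pow_val,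
          hζ'.pow_eq_one, one_pow, Units.val_one]), twist_one_apply]
  have hv : ∀ o, (σ o (bj M q H)).coeff (-1) = o.elim 0 fun i => ((ζ : ℂ) ^ (i : ℕ))⁻¹ := by
    rintro (_ | i)
    · change (qExpand ℂ q (coeffMap embC (bj M q H : LaurentSeries Qb))).coeff (-1) = 0
      refine qExpand_coeff_of_not_dvd q _ fun h' => ?_
      have h1 := Int.le_of_dvd one_pos (Int.dvd_neg.mp h')
      have := hq.one_lt
      omega
    · change (twist (ζ ^ (i : ℕ)) (e₀ (bj M q H))).coeff (-1) = _
      rw [bj, hβ₀, dq_jM, coe_jM, coeffMap_jqModC, twist_coeff, coeff_jqModC_neg_one, mul_one,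
        zpow_neg, zpow_one, Units.val_inv_eq_inv_val, Units.val_pow_eq_pow_val]
      rfl
  have hinj : Function.Injective fun o => σ o (bj M q H) := fun o o' h => by
    have h1 := congrArg (fun z : LaurentSeries ℂ => z.coeff (-1)) h
    simp only [hv] at h1
    rcases o with _ | i <;> rcases o' with _ | j
    · rfl
    · exact absurd h1.symm (inv_ne_zero (pow_ne_zero _ ζ.ne_zero))
    · exact absurd h1 (inv_ne_zero (pow_ne_zero _ ζ.ne_zero))
    · exact congrArg some (Fin.ext (hζ'.pow_inj i.2 j.2 (inv_injective h1)))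
  have hint : IsIntegral (FH M H) (bj M q H) := IsIntegral.of_finite _ _
  refine IntermediateField.eq_of_le_of_finrank_le le_top ?_
  rw [finrank_top', adjoin.finrank hint]
  rw [show Module.finrank (FH M H) (FU M q H) = q + 1 from finrankAlong_al M q H hq hqM]
  set b : FH M H →+* LaurentSeries ℂ :=
    (qExpand ℂ q).comp ((coeffMap embC).comp (FH M H).val.toRingHom)
  -- So the minimal polynomial of `j (q z)` has `q + 1` roots.
  by_contra hlt
  refine ((minpoly.monic hint).map b).ne_zero
    (Polynomial.eq_zero_of_natDegree_lt_card_of_eval_eq_zero _ hinj (fun o => ?_) ?_)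
  · rw [Polynomial.eval_map, show b = (σ o).comp (algebraMap (FH M H) (FU M q H)) from
      RingHom.ext fun x => (hσ o x).symm, ← Polynomial.hom_eval₂, ← Polynomial.aeval_def,
      minpoly.aeval, map_zero]
  · rw [(minpoly.monic hint).natDegree_map, Fintype.card_option, Fintype.card_fin]
    omega

include hq hqM in
/-- Maps agreeing on level `M` and at `j (q z)` are equal. -/
theorem ringHom_ext {C : Type*} [Field C] {φ ψ : FU M q H →+* C}
    (hα : ∀ x, φ (al M q H x) = ψ (al M q H x)) (hb : φ (bj M q H) = ψ (bj M q H))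
    (x : FU M q H) : φ x = ψ x := by
  let := algebraAlong (al M q H)
  refine IntermediateField.adjoin_induction (FH M H) (p := fun y _ => φ y = ψ y)
    (fun y hy => ?_) (fun c => hα c) (fun u v _ _ h h' => ?_) (fun u _ h => ?_)
    (fun u v _ _ h h' => ?_) ((adjoin_bj M q H hq hqM).ge (IntermediateField.mem_top (x := x)))
  · rw [show y = bj M q H from hy]; exact hb
  · rw [map_add, map_add, h, h']
  · rw [map_inv₀, map_inv₀, h]
  · rw [map_mul, map_mul, h, h']

/-- The other expansion, with complex coefficients. -/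
def otherEmb : FU M q H →+* LaurentSeries ℂ := (exists_otherEmb M q H hq hqM).choose

/-- The other expansion on `α` is the substituted expansion at `∞`. -/
theorem otherEmb_al (f : FH M H) :
    otherEmb M q H hq hqM (al M q H f) = qExpand ℂ q (coeffMap embC (f : LaurentSeries Qb)) :=
  (exists_otherEmb M q H hq hqM).choose_spec.1 f

/-- The other expansion on `β` is the expansion of `⟨q⟩⁻¹`. -/
theorem otherEmb_be (f : FH M H) :
    otherEmb M q H hq hqM (be M q H f) = coeffMap embC (dq M q H hq hqM f : LaurentSeries Qb) :=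
  (exists_otherEmb M q H hq hqM).choose_spec.2 f

/-- The expansion at the other cusp takes values in the field of level `M q`. -/
theorem otherEmb_mem (x : FU M q H) :
    otherEmb M q H hq hqM x ∈ ((coeffMap embC).comp (FU M q H).val.toRingHom).fieldRange := by
  let := algebraAlong (al M q H)
  set R := ((coeffMap embC).comp (FU M q H).val.toRingHom).fieldRange
  refine IntermediateField.adjoin_induction (FH M H)
    (p := fun y _ => otherEmb M q H hq hqM y ∈ R) (fun y hy => ?_) (fun c => ?_)
    (fun u v _ _ h h' => ?_) (fun u _ h => ?_)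
    (fun u v _ _ h h' => ?_) ((adjoin_bj M q H hq hqM).ge (IntermediateField.mem_top (x := x)))
  · refine ⟨al M q H (jM M H), ?_⟩
    rw [show y = bj M q H from hy, bj, otherEmb_be, dq_jM]
    exact congrArg (coeffMap embC) (coe_al M q H _)
  · refine ⟨be M q H c, ?_⟩
    change coeffMap embC (be M q H c : LaurentSeries Qb) = _
    rw [coe_be, ModularCurve.coeffMap_qExpand]
    exact (otherEmb_al M q H hq hqM c).symm
  · rw [map_add]; exact add_mem h h'
  · rw [map_inv₀]; exact inv_mem h
  · rw [map_mul]; exact mul_mem h h'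

/-- The Atkin-Lehner operator, as a function. -/
def atkinFun (x : FU M q H) : FU M q H := (otherEmb_mem M q H hq hqM x).choose

/-- `atkinFun x` has the other expansion of `x` as its expansion at `∞`. -/
theorem coeffMap_atkinFun (x : FU M q H) :
    coeffMap embC (atkinFun M q H hq hqM x : LaurentSeries Qb) = otherEmb M q H hq hqM x :=
  (otherEmb_mem M q H hq hqM x).choose_spec

/-- `atkinFun x` is the only function with that expansion. -/
theorem eq_atkinFun {x z : FU M q H}
    (h : coeffMap embC (z : LaurentSeries Qb) = otherEmb M q H hq hqM x) :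
    atkinFun M q H hq hqM x = z :=
  Subtype.ext (coeffMap_injective embC embC.injective
    ((coeffMap_atkinFun M q H hq hqM x).trans h.symm))

/-- The Atkin-Lehner operator as a ring homomorphism. -/
def atkinRing : FU M q H →+* FU M q H where
  toFun := atkinFun M q H hq hqM
  map_one' := eq_atkinFun M q H hq hqM (by simp)
  map_mul' x y := eq_atkinFun M q H hq hqM (by
    rw [MulMemClass.coe_mul, map_mul, coeffMap_atkinFun, coeffMap_atkinFun, map_mul])
  map_zero' := eq_atkinFun M q H hq hqM (by simp)
  map_add' x y := eq_atkinFun M q H hq hqM (by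
    rw [AddMemClass.coe_add, map_add, coeffMap_atkinFun, coeffMap_atkinFun, map_add])

/-- The Atkin-Lehner operator sends `α` to `β`. -/
theorem atkinRing_al (f : FH M H) : atkinRing M q H hq hqM (al M q H f) = be M q H f :=
  eq_atkinFun M q H hq hqM (by rw [coe_be, ModularCurve.coeffMap_qExpand, otherEmb_al])

/-- The Atkin-Lehner operator sends `β` to `α ∘ ⟨q⟩⁻¹`. -/
theorem atkinRing_be (f : FH M H) :
    atkinRing M q H hq hqM (be M q H f) = al M q H (dq M q H hq hqM f) :=
  eq_atkinFun M q H hq hqM (by rw [coe_al, otherEmb_be])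

/-- The Atkin-Lehner operator as an algebra homomorphism. -/
def atkinHom : FU M q H →ₐ[Qb] FU M q H :=
  { atkinRing M q H hq hqM with
    commutes' := fun c => by
      change atkinRing M q H hq hqM (algebraMap Qb _ c) = _
      rw [← (al M q H).commutes c, atkinRing_al, AlgHom.commutes, AlgHom.commutes] }

/-- The Atkin-Lehner operator is surjective. -/
theorem atkinHom_surjective : Function.Surjective (atkinHom M q H hq hqM) := fun x => by
  let := algebraAlong (al M q H)
  refine IntermediateField.adjoin_induction (FH M H)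
    (p := fun y _ => ∃ z, atkinHom M q H hq hqM z = y) (fun y hy => ?_) (fun c => ?_)
    (fun u v _ _ h h' => ?_) (fun u _ h => ?_) (fun u v _ _ h h' => ?_)
    ((adjoin_bj M q H hq hqM).ge (IntermediateField.mem_top (x := x)))
  · exact ⟨aj M q H, (atkinRing_al M q H hq hqM _).trans hy.symm⟩
  · exact ⟨be M q H ((dq M q H hq hqM).symm c), (atkinRing_be M q H hq hqM _).trans
      (by rw [AlgEquiv.apply_symm_apply]; rfl)⟩
  · obtain ⟨a, rfl⟩ := h; obtain ⟨b, rfl⟩ := h'; exact ⟨a + b, map_add _ _ _⟩
  · obtain ⟨a, rfl⟩ := h; exact ⟨a⁻¹, map_inv₀ _ _⟩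
  · obtain ⟨a, rfl⟩ := h; obtain ⟨b, rfl⟩ := h'; exact ⟨a * b, map_mul _ _ _⟩

/-- The Atkin-Lehner operator at `q`. -/
def atkin : FU M q H ≃ₐ[Qb] FU M q H :=
  AlgEquiv.ofBijective (atkinHom M q H hq hqM)
    ⟨(atkinHom M q H hq hqM).injective, atkinHom_surjective M q H hq hqM⟩

/-- `atkin ∘ α = β`. -/
theorem atkin_al (f : FH M H) : atkin M q H hq hqM (al M q H f) = be M q H f :=
  atkinRing_al M q H hq hqM f

/-- `atkin ∘ β = α ∘ ⟨q⟩⁻¹`. -/
theorem atkin_be (f : FH M H) :
    atkin M q H hq hqM (be M q H f) = al M q H (dq M q H hq hqM f) :=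
  atkinRing_be M q H hq hqM f

/-- `atkin` sends `j (z)` to `j (q z)`. -/
theorem atkin_aj : atkin M q H hq hqM (aj M q H) = bj M q H := atkin_al M q H hq hqM _

/-- `atkin` sends `j (q z)` to `j (z)`. -/
theorem atkin_bj : atkin M q H hq hqM (bj M q H) = aj M q H := by
  rw [bj, atkin_be, dq_jM]; rfl

/-- The square of the Atkin-Lehner operator. -/
def sqW : FU M q H ≃ₐ[Qb] FU M q H := (atkin M q H hq hqM).trans (atkin M q H hq hqM)

/-- `sqW` is `atkin` applied twice. -/
theorem sqW_apply (f : FU M q H) :
    sqW M q H hq hqM f = atkin M q H hq hqM (atkin M q H hq hqM f) := rfl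

/-- `sqW ∘ α = α ∘ ⟨q⟩⁻¹`. -/
theorem sqW_al (f : FH M H) :
    sqW M q H hq hqM (al M q H f) = al M q H (dq M q H hq hqM f) := by
  rw [sqW_apply, atkin_al, atkin_be]

/-- `sqW ∘ β = β ∘ ⟨q⟩⁻¹`. -/
theorem sqW_be (f : FH M H) :
    sqW M q H hq hqM (be M q H f) = be M q H (dq M q H hq hqM f) := by
  rw [sqW_apply, atkin_be, atkin_al]

/-- `sqW` fixes `j (z)`. -/
theorem sqW_aj : sqW M q H hq hqM (aj M q H) = aj M q H := by rw [sqW_apply, atkin_aj, atkin_bj]

/-- `sqW` fixes `j (q z)`. -/
theorem sqW_bj : sqW M q H hq hqM (bj M q H) = bj M q H := by rw [sqW_apply, atkin_bj, atkin_aj]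

/-- The order of the group of units. -/
abbrev ordQ : ℕ := Fintype.card (ZMod M)ˣ

/-- Powers of `sqW` act on level `M` as powers of `⟨q⟩⁻¹`. -/
theorem sqW_pow_al (n : ℕ) (x : FH M H) :
    (sqW M q H hq hqM ^ n) (al M q H x) = al M q H ((dq M q H hq hqM ^ n) x) := by
  induction n with
  | zero => simp
  | succ n ih =>
    rw [pow_succ', pow_succ', AlgEquiv.mul_apply, AlgEquiv.mul_apply, ih, sqW_al]

/-- The square of the Atkin-Lehner operator has finite order. -/
theorem sqW_pow_ordQ : sqW M q H hq hqM ^ ordQ M = 1 := by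
  have hd : dq M q H hq hqM ^ ordQ M = 1 := by
    rw [dq, ← map_pow, pow_card_eq_one, map_one]
  have hb : ∀ n : ℕ, (sqW M q H hq hqM ^ n) (bj M q H) = bj M q H := fun n => by
    induction n with
    | zero => simp
    | succ n ih => rw [pow_succ', AlgEquiv.mul_apply, ih, sqW_bj]
  refine AlgEquiv.ext fun f => ?_
  exact ringHom_ext M q H hq hqM (φ := (sqW M q H hq hqM ^ ordQ M).toAlgHom.toRingHom)
    (ψ := RingHom.id _) (fun x => by
      change (sqW M q H hq hqM ^ ordQ M) (al M q H x) = al M q H x
      rw [sqW_pow_al, hd, AlgEquiv.one_apply]) (hb _) f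

/-- The expansions at the two cusps over `∞`. -/
def emb : Bool → FU M q H →+* LaurentSeries Qb
  | true => (FU M q H).val.toRingHom
  | false => (FU M q H).val.toRingHom.comp (atkin M q H hq hqM).toAlgHom.toRingHom

/-- The expansion indexed by `true` is the one at `∞`. -/
theorem emb_true (f : FU M q H) : emb M q H hq hqM true f = (f : LaurentSeries Qb) := rfl

/-- The expansion indexed by `false` is that of the Atkin-Lehner image. -/
theorem emb_false (f : FU M q H) :
    emb M q H hq hqM false f = (atkin M q H hq hqM f : LaurentSeries Qb) := rfl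

/-- Constants have constant expansions. -/
theorem emb_algebraMap (b : Bool) (c : Qb) :
    emb M q H hq hqM b (algebraMap Qb (FU M q H) c) = algebraMap Qb (LaurentSeries Qb) c := by
  cases b
  · rw [emb_false, AlgEquiv.commutes]; rfl
  · rfl

/-- The expansion at `∞` of `atkin f` is the expansion at `0` of `f`. -/
theorem emb_true_atkin (f : FU M q H) :
    emb M q H hq hqM true (atkin M q H hq hqM f) = emb M q H hq hqM false f := rfl

/-- The expansion at `0` of `atkin f` is the expansion at `∞` of `sqW f`. -/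
theorem emb_false_atkin (f : FU M q H) :
    emb M q H hq hqM false (atkin M q H hq hqM f) =
      emb M q H hq hqM true (sqW M q H hq hqM f) := rfl

/-- `α` at `∞` keeps the expansion. -/
theorem emb_true_al (f : FH M H) :
    emb M q H hq hqM true (al M q H f) = (f : LaurentSeries Qb) := coe_al M q H f

/-- `β` at `∞` substitutes `q ^ q`. -/
theorem emb_true_be (f : FH M H) :
    emb M q H hq hqM true (be M q H f) = qExpand Qb q (f : LaurentSeries Qb) := coe_be M q H f

/-- `α` at `0` substitutes `q ^ q`. -/
theorem emb_false_al (f : FH M H) :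
    emb M q H hq hqM false (al M q H f) = qExpand Qb q (f : LaurentSeries Qb) := by
  rw [emb_false, atkin_al, coe_be]

/-- `β` at `0` has the expansion of `⟨q⟩⁻¹`. -/
theorem emb_false_be (f : FH M H) :
    emb M q H hq hqM false (be M q H f) = (dq M q H hq hqM f : LaurentSeries Qb) := by
  rw [emb_false, atkin_be, coe_al]

/-- The expansion of `j (z)` at `∞`. -/
theorem emb_true_aj : emb M q H hq hqM true (aj M q H) = jqModC Qb := by
  rw [aj, emb_true_al, coe_jM]

/-- The expansion of `j (q z)` at `∞`. -/
theorem emb_true_bj : emb M q H hq hqM true (bj M q H) = qExpand Qb q (jqModC Qb) := by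
  rw [bj, emb_true_be, coe_jM]

/-- The expansion of `j (z)` at `0`. -/
theorem emb_false_aj : emb M q H hq hqM false (aj M q H) = qExpand Qb q (jqModC Qb) := by
  rw [aj, emb_false_al, coe_jM]

/-- The expansion of `j (q z)` at `0`. -/
theorem emb_false_bj : emb M q H hq hqM false (bj M q H) = jqModC Qb := by
  rw [bj, emb_false_be, dq_jM, coe_jM]

/-- The branches of `α`, as expansions in `q ^ (1 / q)`. -/
def branch (ζ : Qbˣ) : Option (Fin q) → (FU M q H →+* LaurentSeries Qb) := fun o =>
  o.elim ((qExpand Qb q).comp (emb M q H hq hqM true))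
    fun i => (twist (ζ ^ (i : ℕ))).comp (emb M q H hq hqM false)

variable {ζ : Qbˣ} (hζ : IsPrimitiveRoot (ζ : Qb) q)
include hζ

/-- All branches agree on level `M`. -/
theorem branch_al (o : Option (Fin q)) (x : FH M H) :
    branch M q H hq hqM ζ o (al M q H x) = qExpand Qb q (x : LaurentSeries Qb) := by
  cases o with
  | none => exact congrArg (qExpand Qb q) (emb_true_al M q H hq hqM x)
  | some i =>
    change twist (ζ ^ (i : ℕ)) (emb M q H hq hqM false (al M q H x)) = _
    rw [emb_false_al, twist_qExpand, show (ζ ^ (i : ℕ)) ^ q = 1 from Units.ext (by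
      rw [← pow_mul, mul_comm, pow_mul, Units.val_pow_eq_pow_val, Units.val_pow_eq_pow_val,
        hζ.pow_eq_one, one_pow, Units.val_one]), twist_one_apply]

/-- The branches of the degeneracy map are distinct. -/
theorem branch_injective : Function.Injective (branch M q H hq hqM ζ) := fun o o' h => by
  have h1 := congrArg (fun g : FU M q H →+* LaurentSeries Qb => (g (bj M q H)).coeff (-1)) h
  have hv : ∀ o, (branch M q H hq hqM ζ o (bj M q H)).coeff (-1) =
      o.elim 0 fun i => ((ζ : Qb) ^ (i : ℕ))⁻¹ := by
    rintro (_ | i)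
    · change (qExpand Qb q (emb M q H hq hqM true (bj M q H))).coeff (-1) = 0
      refine qExpand_coeff_of_not_dvd q _ fun h' => ?_
      have h1 := Int.le_of_dvd one_pos (Int.dvd_neg.mp h')
      have := hq.one_lt
      omega
    · change (twist (ζ ^ (i : ℕ)) (emb M q H hq hqM false (bj M q H))).coeff (-1) = _
      rw [emb_false_bj, twist_coeff, coeff_jqModC_neg_one, mul_one, zpow_neg, zpow_one,
        Units.val_inv_eq_inv_val, Units.val_pow_eq_pow_val]
      rfl
  simp only [hv] at h1
  rcases o with _ | i <;> rcases o' with _ | j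
  · rfl
  · exact absurd h1.symm (inv_ne_zero (pow_ne_zero _ ζ.ne_zero))
  · exact absurd h1 (inv_ne_zero (pow_ne_zero _ ζ.ne_zero))
  · exact congrArg some (Fin.ext (hζ.pow_inj i.2 j.2 (inv_injective h1)))

omit hζ in
include hq hqM in
/-- There are as many branches as the degree of `α`. -/
theorem card_branch :
    Fintype.card (Option (Fin q)) = finrankAlong Qb (al M q H) := by
  rw [Fintype.card_option, Fintype.card_fin, finrankAlong_al M q H hq hqM]

/-- The norm along `α` is the product over the branches. -/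
theorem qExpand_norm (f : FU M q H) :
    qExpand Qb q ((normAlong (al M q H) f : FH M H) : LaurentSeries Qb) =
      qExpand Qb q (emb M q H hq hqM true f) *
        ∏ i : Fin q, twist (ζ ^ (i : ℕ)) (emb M q H hq hqM false f) := by
  have h := normAlong_eq_prod (al M q H) ((qExpand Qb q).comp (FH M H).val.toRingHom)
    (branch M q H hq hqM ζ) (branch_al M q H hq hqM hζ) (branch_injective M q H hq hqM hζ)
    (card_branch M q H hq hqM) f
  rw [Fintype.prod_option] at h
  exact h

/-- The trace along `α` is the sum over the branches. -/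
theorem qExpand_trA (f : FU M q H) :
    qExpand Qb q ((X0.trA (al M q H) f : FH M H) : LaurentSeries Qb) =
      qExpand Qb q (emb M q H hq hqM true f) +
        ∑ i : Fin q, twist (ζ ^ (i : ℕ)) (emb M q H hq hqM false f) := by
  have h := X0.trA_eq_sum (al M q H) ((qExpand Qb q).comp (FH M H).val.toRingHom)
    (branch M q H hq hqM ζ) (branch_al M q H hq hqM hζ) (branch_injective M q H hq hqM hζ)
    (card_branch M q H hq hqM) f
  rw [Fintype.sum_option] at h
  exact h

/-! ### Change of the level away from `q` -/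

section Change

variable {M q H} {M' : ℕ} [NeZero M'] {H' : Subgroup (ZMod M')ˣ} [Lvl.NegMem H']
  (hle : Lvl.GammaH (M' * q) (upH M' H' q) ≤ Lvl.GammaH (M * q) (upH M H q))
  (hle₀ : Lvl.GammaH M' H' ≤ Lvl.GammaH M H) (hqM' : ¬ q ∣ M')

local notation "π" => inclFL Qb hle

omit hζ

/-- The inclusion of levels commutes with `α`. -/
theorem incl_al (f : FH M H) : π (al M q H f) = al M' q H' (inclFL Qb hle₀ f) :=
  Subtype.ext (by rw [coe_inclFL, coe_al, coe_al, coe_inclFL])

/-- The inclusion of levels commutes with `β`. -/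
theorem incl_be (f : FH M H) : π (be M q H f) = be M' q H' (inclFL Qb hle₀ f) :=
  Subtype.ext (by rw [coe_inclFL, coe_be, coe_be, coe_inclFL])

/-- The inclusion of levels keeps `j (q z)`. -/
theorem incl_bj : π (bj M q H) = bj M' q H' :=
  Subtype.ext (by rw [coe_inclFL, bj, bj, coe_be, coe_be, coe_jM, coe_jM])

/-- The inclusion of levels keeps `j (z)`. -/
theorem incl_aj : π (aj M q H) = aj M' q H' :=
  Subtype.ext (by rw [coe_inclFL, aj, aj, coe_al, coe_al, coe_jM, coe_jM])

include hle₀ in
/-- The inclusion of levels commutes with the Atkin-Lehner operator. -/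
theorem incl_atkin (f : FU M q H) :
    atkin M' q H' hq hqM' (π f) = π (atkin M q H hq hqM f) := by
  refine ringHom_ext M q H hq hqM
    (φ := (atkin M' q H' hq hqM').toAlgHom.toRingHom.comp (inclFL Qb hle).toRingHom)
    (ψ := (inclFL Qb hle).toRingHom.comp (atkin M q H hq hqM).toAlgHom.toRingHom)
    (fun x => ?_) ?_ f
  · change atkin M' q H' hq hqM' (π (al M q H x)) = π (atkin M q H hq hqM (al M q H x))
    rw [incl_al hle hle₀, atkin_al, atkin_al, incl_be hle hle₀]
  · change atkin M' q H' hq hqM' (π (bj M q H)) = π (atkin M q H hq hqM (bj M q H))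
    rw [incl_bj hle, atkin_bj, atkin_bj, incl_aj hle]

include hle₀ in
/-- The inclusion of levels keeps both expansions. -/
theorem emb_incl (b : Bool) (f : FU M q H) :
    emb M' q H' hq hqM' b (π f) = emb M q H hq hqM b f := by
  cases b
  · rw [emb_false, emb_false, incl_atkin hq hqM hle hle₀ hqM', coe_inclFL]
  · rw [emb_true, emb_true, coe_inclFL]

include hle₀ hq hqM hqM' in
/-- The inclusion of levels commutes with the norm along `α`. -/
theorem normAlong_incl (f : FU M q H) :
    normAlong (al M' q H') (π f) = inclFL Qb hle₀ (normAlong (al M q H) f) := by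
  obtain ⟨ζ, hζ⟩ := X0.exists_zeta q
  refine Subtype.ext (qExpand_injective (R := Qb) q ?_)
  rw [coe_inclFL, qExpand_norm M' q H' hq hqM' hζ, qExpand_norm M q H hq hqM hζ]
  simp only [emb_incl hq hqM hle hle₀ hqM']

end Change

end Fermat.BAD.XH

end
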