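import Fermat.Agent.BAD.XH.Count
import Fermat.Agent.BAD.X0.Degen

/-!
# The two glued reductions of `X_H (M q)`

`degen`: for `q ∤ M`, trivial character at `q` and a level `M` without elliptic points the two
expansions of `Setup` form a `Degen`, the situation of `BAD/Engine`; the elements of the
decomposition group are symmetries of it (`galSym`), the Atkin-Lehner operator is another one
(`Sym`). So the theorems of the engine apply: `Torsion`, and `BAD/Ord` in the ordinary case.
-/

set_option autoImplicit false
set_option linter.unusedSectionVars false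

attribute [local instance 10000] SubalgebraClass.toAlgebra HahnSeries.powerSeriesAlgebra

noncomputable section

open ModularCurve AlgebraicCurve

namespace Fermat.BAD.XH

open Fermat.BAD.X0 (arch smul_poleDiv symOfSeries)
open Fermat.FF Fermat.MC Fermat.JAC Fermat.JAC.XH Fermat.RED
open Fermat.JAC.X0 (embC)

local notation "Qb" => AlgebraicClosure ℚ

variable (M q : ℕ) [NeZero M] [NeZero q] [Fact q.Prime] (H : Subgroup (ZMod M)ˣ) [Lvl.NegMem H]
variable (hq : q.Prime) (hqM : ¬ q ∣ M)

/-- `j (z)` at level `M q` is the modular invariant of that level. -/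
theorem aj_eq : aj M q H = Lvl.jL (Lvl.GammaH (M * q) (upH M H q)) Qb := inclFL_jL Qb _

/-- The Atkin-Lehner operator as a semilinear automorphism. -/
def atkinAut : SemilinearAut Qb (FU M q H) := SemilinearAut.ofAlgAut (atkin M q H hq hqM)

/-- `atkinAut` acts by the Atkin-Lehner operator. -/
theorem atkinAut_smul (f : FU M q H) : atkinAut M q H hq hqM • f = atkin M q H hq hqM f := rfl

/-- The inverse of `atkinAut` acts as the inverse of `atkin`. -/
theorem atkinAut_inv_smul (f : FU M q H) :
    (atkinAut M q H hq hqM)⁻¹ • f = (atkin M q H hq hqM).symm f := by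
  rw [inv_smul_eq_iff, atkinAut_smul, AlgEquiv.apply_symm_apply]

/-- The pushforward along `α` of the image under `W⁻¹` is the pushforward along `β`. -/
theorem pushPic_al_atkinAut_inv [FF.IsFunctionField Qb (FU M q H)]
    [FF.IsFunctionField Qb (FH M H)] (z : Pic0 Qb (FU M q H)) :
    pushPic (al M q H) ((atkinAut M q H hq hqM)⁻¹ • z) = pushPic (be M q H) z := by
  refine (pushPic_smul (φ := be M q H) (ψ := al M q H) (s := (1 : SemilinearAut Qb (FH M H)))
    (s' := (atkinAut M q H hq hqM)⁻¹) (fun f => ?_) z).trans (one_smul _ _)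
  rw [one_smul, inv_smul_eq_iff, atkinAut_smul, atkin_al]

/-- The Atkin-Lehner operator fixes the polar divisor `A0`. -/
theorem atkinAut_A0 : atkinAut M q H hq hqM • A0 M q H = A0 M q H := by
  rw [A0, smul_add, smul_poleDiv, smul_poleDiv, atkinAut_smul, atkinAut_smul, atkin_aj, atkin_bj,
    add_comm]

include hq hqM in
/-- The degree of `A0` is `2 ψ_H(M) (q + 1)`. -/
theorem degree_A0 : Divisor.degree (A0 M q H) =
    2 * ((Lvl.psiG (Lvl.GammaH M H) : ℤ) * ((q : ℤ) + 1)) := by
  have ha : Divisor.degree (poleDiv Qb (aj M q H)) =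
      (Lvl.psiG (Lvl.GammaH M H) : ℤ) * ((q : ℤ) + 1) := by
    rw [degree_poleDiv (transcendental_aj M q H), aj_eq, (Lvl.finrank_FL _ embC).1,
      psiG_up, psiG_GammaH, X0.dedekindPsi_mul_prime M q hq, if_neg hqM]
    push_cast
    ring
  have hb : poleDiv Qb (bj M q H) = atkinAut M q H hq hqM • poleDiv Qb (aj M q H) := by
    rw [smul_poleDiv, atkinAut_smul, atkin_aj]
  rw [A0, map_add, hb, SemilinearAut.degree_smul, ha]
  ring

section Galois

variable (σ : Qb ≃ₐ[ℚ] Qb)

/-- The action of `σ` on the functions of level `M q`. -/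
def galAut : SemilinearAut Qb (FU M q H) :=
  arithmeticGalois (Lvl.FQ (Lvl.GammaH (M * q) (upH M H q))) σ

/-- `σ` acts on the coefficients of the expansions. -/
theorem coe_galAut_smul (f : FU M q H) :
    ((galAut M q H σ • f : FU M q H) : LaurentSeries Qb) =
      coeffMap (σ : Qb →+* Qb) (f : LaurentSeries Qb) :=
  coe_arithmeticGalois_smul _ σ f

/-- The inclusion `α` commutes with the Galois action. -/
theorem galAut_al (x : FH M H) :
    galAut M q H σ • al M q H x =
      al M q H (arithmeticGalois (Lvl.FQ (Lvl.GammaH M H)) σ • x) :=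
  inclFL_smul Qb _ σ x

/-- The inclusion `β` commutes with the Galois action. -/
theorem galAut_be (x : FH M H) :
    galAut M q H σ • be M q H x =
      be M q H (arithmeticGalois (Lvl.FQ (Lvl.GammaH M H)) σ • x) :=
  scaleFL_smul Qb _ σ x

/-- Galois fixes `j` at level `M`. -/
theorem gal_jM : arithmeticGalois (Lvl.FQ (Lvl.GammaH M H)) σ • jM M H = jM M H := by
  refine Subtype.ext ?_
  rw [coe_arithmeticGalois_smul, coe_jM, coeffMap_jqModC]

/-- Galois fixes `j (z)`. -/
theorem galAut_aj : galAut M q H σ • aj M q H = aj M q H := by rw [aj, galAut_al, gal_jM]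

/-- Galois fixes `j (q z)`. -/
theorem galAut_bj : galAut M q H σ • bj M q H = bj M q H := by rw [bj, galAut_be, gal_jM]

/-- Galois commutes with the Atkin-Lehner operator. -/
theorem galAut_atkin (f : FU M q H) :
    atkin M q H hq hqM (galAut M q H σ • f) = galAut M q H σ • atkin M q H hq hqM f := by
  refine ringHom_ext M q H hq hqM
    (φ := (atkin M q H hq hqM).toAlgHom.toRingHom.comp
      (SemilinearAut.toRingAut (galAut M q H σ)).toRingHom)
    (ψ := (SemilinearAut.toRingAut (galAut M q H σ)).toRingHom.comp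
      (atkin M q H hq hqM).toAlgHom.toRingHom) (fun x => ?_) ?_ f
  · change atkin M q H hq hqM (galAut M q H σ • al M q H x) =
      galAut M q H σ • atkin M q H hq hqM (al M q H x)
    rw [galAut_al, atkin_al, atkin_al, galAut_be]
  · change atkin M q H hq hqM (galAut M q H σ • bj M q H) =
      galAut M q H σ • atkin M q H hq hqM (bj M q H)
    rw [galAut_bj, atkin_bj, galAut_aj]

/-- At both cusps `σ` acts on the coefficients of the expansions. -/
theorem emb_galAut (b : Bool) (f : FU M q H) :
    emb M q H hq hqM b (galAut M q H σ • f) =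
      coeffMap (σ : Qb →+* Qb) (emb M q H hq hqM b f) := by
  cases b
  · rw [emb_false, galAut_atkin, coe_galAut_smul, emb_false]
  · exact coe_galAut_smul M q H σ f

/-- Galois fixes `A0`. -/
theorem galAut_A0 : galAut M q H σ • A0 M q H = A0 M q H := by
  rw [A0, smul_add, smul_poleDiv, smul_poleDiv, galAut_aj, galAut_bj]

end Galois

variable {A : ValuationSubring (AlgebraicClosure ℚ)} (hA : A.LiesOverPrime q)
  [IsAlgClosed (IsLocalRing.ResidueField A)] [CharP (IsLocalRing.ResidueField A) q]
  [FF.IsFunctionField (IsLocalRing.ResidueField A) (KH M H A)]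

local notation "kA" => IsLocalRing.ResidueField A

/-- The polar divisor on each reduced component. -/
def Bk : Divisor kA (KH M H A) := (q + 1) • poleDiv kA (jK M H A)

include hq hqM hA in
/-- `Bk` vanishes where the reduction of `j` has no pole. -/
theorem Bk_apply_eq_zero {s : Place kA (KH M H A)} (h : OrdGE s (jK M H A) 0) :
    Bk M q H (A := A) s = 0 := by
  rw [Bk, Finsupp.smul_apply, poleDiv_apply]
  have h0 := h.le_ord (fun h0 => transcendental_jK M q H hq hqM hA (h0 ▸ isAlgebraic_zero))
  rw [max_eq_right (by omega), smul_zero]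

include hq hqM hA in
/-- The degree of `Bk` is `ψ_H(M) (q + 1)`. -/
theorem degree_Bk : Divisor.degree (Bk M q H : Divisor kA (KH M H A)) =
    (Lvl.psiG (Lvl.GammaH M H) : ℤ) * ((q : ℤ) + 1) := by
  rw [Bk, map_nsmul, degree_poleDiv (transcendental_jK M q H hq hqM hA),
    finrank_jK M q H hq hqM hA, nsmul_eq_mul]
  push_cast
  ring

variable (hν2 : Lvl.nuTwoG (Lvl.GammaH M H) = 0) (hν3 : Lvl.nuThreeG (Lvl.GammaH M H) = 0)

/-- The two glued reductions of `X_H (M q)`. -/
def degen : Degen (IsLocalRing.residue A) (emb M q H hq hqM) (KH M H A) where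
  surj := IsLocalRing.residue_surjective
  arch a ha c hc := arch hq hA a ha c hc
  ι_algebraMap := emb_algebraMap M q H hq hqM
  A0 := A0 M q H
  A0_nonneg := A0_nonneg M q H
  B := Bk M q H
  B_nonneg v := by
    change (0 : ℤ) ≤ ((q + 1) • poleDiv kA (jK M H A)) v
    rw [Finsupp.smul_apply, poleDiv_apply]
    exact nsmul_nonneg (le_max_right _ _) _
  B_ne h := by
    have h1 := degree_Bk M q H hq hqM hA
    rw [h, map_zero] at h1
    have : (0 : ℤ) < Lvl.psiG (Lvl.GammaH M H) := by exact_mod_cast Lvl.psiG_pos _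
    nlinarith
  deg_A0 := by rw [degree_A0 M q H hq hqM, degree_Bk M q H hq hqM hA]
  red_mem b f hf := redF_mem M q H hq hqM hA b f hf
  attained b f hf0 hf := attained M q H hq hqM hA b f hf0 hf
  denom b f := denom M q H hq hqM hA b f
  bdd b m f hf := bdd M q H hq hqM hA b m f hf
  pole b m f h hf := by
    rw [Bk, ← mul_smul]
    exact redF_mem_riemannRochSpace M q H hq hqM hA b m f h hf _ rfl
  S := SS M q H hq hqM hA
  Qf := Qf M q H hq hA
  Qf_inj := (Qf_injective M q H hq hA).injOn
  S_B s hs := Bk_apply_eq_zero M q H hq hqM hA ((mem_SS M q H hq hqM hA).mp hs).1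
  Qf_B s hs := Bk_apply_eq_zero M q H hq hqM hA
    (ordGE_Qf M q H hq hA ((mem_SS M q H hq hqM hA).mp hs).1)
  glue m f ht hf hL s hs := glue M q H hq hqM hA f (mem_intClosure_of_mem_A0 M q H hq hqM hL)
    (fun b => by cases b; exacts [hf, ht]) _ _ rfl rfl hs
  count := count M q H hq hqM hA hν2 hν3

/-- The glued points of `degen` are those of `SS`. -/
theorem degen_S : (degen M q H hq hqM hA hν2 hν3).S = SS M q H hq hqM hA := rfl

/-- The gluing map of `degen` is `Qf`. -/
theorem degen_Qf : (degen M q H hq hqM hA hν2 hν3).Qf = Qf M q H hq hA := rfl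

section Decomposition

variable {σ : Qb ≃ₐ[ℚ] Qb} (hσ : σ ∈ A.decompositionSubgroup ℚ)

/-- The residual automorphism of the constants, acting on the reduced curve. -/
def resAut : SemilinearAut kA (KH M H A) := Full.galAut (Lvl.FQ (Lvl.GammaH M H)) hσ

/-- `resAut` acts on the coefficients by the residual automorphism. -/
theorem coe_resAut_smul (z : KH M H A) :
    ((resAut M H hσ • z : KH M H A) : LaurentSeries kA) =
      coeffMap (residueAut hσ : kA →+* kA) z :=
  Full.coe_galAut_smul (Lvl.FQ (Lvl.GammaH M H)) hσ z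

/-- `resAut` fixes `Bk`. -/
theorem resAut_Bk : resAut M H hσ • (Bk M q H : Divisor kA (KH M H A)) = Bk M q H := by
  have hj : resAut M H hσ • jK M H A = jK M H A :=
    Subtype.ext (by rw [coe_resAut_smul, coe_jK, coeffMap_jqModC])
  rw [Bk, smul_comm, smul_poleDiv, hj]

/-- The symmetry given by an element of the decomposition group. -/
def galSym : Sym (degen M q H hq hqM hA hν2 hν3) :=
  symOfSeries _ (galAut M q H σ) (fun _ => resAut M H hσ) (residueAut hσ) (fun _ => rfl)
    (Equiv.refl Bool)
    (fun b f hf => by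
      obtain ⟨hi, hred⟩ := X0.redF_of_coeffMap_conj hσ _ (emb_galAut M q H hq hqM σ b f) hf
      refine ⟨hi, fun z hz => ?_⟩
      rw [coe_resAut_smul, hz]
      exact hred)
    (galAut_A0 M q H σ) (fun _ => resAut_Bk M q H hσ)

/-- The automorphism of `galSym` is `galAut`. -/
theorem galSym_s : (galSym M q H hq hqM hA hν2 hν3 hσ).s = galAut M q H σ := rfl

/-- `galSym` fixes both components. -/
theorem galSym_e : (galSym M q H hq hqM hA hν2 hν3 hσ).e = Equiv.refl Bool := rfl

/-- `galSym` acts on the constants by the residual automorphism. -/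
theorem galSym_base : (galSym M q H hq hqM hA hν2 hν3 hσ).base = residueAut hσ := rfl

/-- `galSym` acts on each component by `resAut`. -/
theorem galSym_τ (b : Bool) : (galSym M q H hq hqM hA hν2 hν3 hσ).τ b = resAut M H hσ := rfl

end Decomposition

end Fermat.BAD.XH

end
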