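import Fermat.Agent.BAD.XH.HeckeKernel
import Fermat.Agent.BAD.XH.Degen

/-!
# Hecke operators and the two pushforwards to level `M`

On the Jacobian of `X_H(M q)`, trivial character at `q ∤ M`: both pushforwards commute with `T_ℓ`,
`ℓ ≠ q`, and with the diamonds; `U_q` acts on the pair by `(a, b) ↦ (T_q a - ⟨q⟩⁻¹ b, q a)`, so
satisfies `X² - T_q X + q ⟨q⟩⁻¹` there; and `U_q + w` factors through the first pushforward
(`uq_add_atkin`). `GR/RT/NewProofOld` and `BAD/Ord/Frobenius` use this to read `U_q` on the new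
classes.
-/

set_option autoImplicit false
-- headroom: the instance searches on regular differentials run close to the default depth
set_option maxRecDepth 1024
set_option linter.unusedSectionVars false

attribute [local instance 10000] SubalgebraClass.toAlgebra HahnSeries.powerSeriesAlgebra

noncomputable section

open ModularCurve AlgebraicCurve

namespace Fermat.BAD.XH

open Fermat.MC.Lvl Fermat.JAC Fermat.JAC.XH
open Fermat.JAC.X0 (embC)

local notation "Qb" => AlgebraicClosure ℚ

section Generic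

variable {k F₀ F F₀' F' : Type*} [Field k] [Field F₀] [Field F] [Field F₀'] [Field F']
  [Algebra k ℂ] [Algebra k F₀] [Algebra ℂ F] [Algebra F₀ F] [IsConstExt k ℂ F₀ F]
  [Algebra k F₀'] [Algebra ℂ F'] [Algebra F₀' F'] [IsConstExt k ℂ F₀' F']
  [IsAlgClosed k] [CharZero k] [FF.IsFunctionField k F₀] [FF.IsFunctionField ℂ F]
  [FF.IsFunctionField k F₀'] [FF.IsFunctionField ℂ F']
  {φ : F →ₐ[ℂ] F'} {φ₀ : F₀ →ₐ[k] F₀'}
  (hφ : ∀ f, φ (algebraMap F₀ F f) = algebraMap F₀' F' (φ₀ f))

include hφ in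
/-- Pushforward of classes in terms of differentials. -/
theorem extC_pushPic {x : Pic0 k F₀'} {v : DiffDual F'} (hv : extC k F₀' F' x = unif F' v) :
    extC k F₀ F (pushPic φ₀ x) = unif F (v.comp (regPull φ)) := by
  change ConstExt.pic0Ext k ℂ F₀ F (pushPic φ₀ x) = _
  rw [← ConstExt.pushPic_pic0Ext hφ, show ConstExt.pic0Ext k ℂ F₀' F' x = unif F' v from hv,
    pushPic_unif]

include hφ in
/-- Pullback of classes in terms of differentials. -/
theorem extC_pullPic {x : Pic0 k F₀} {v : DiffDual F} (hv : extC k F₀ F x = unif F v) :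
    extC k F₀' F' (pullPic φ₀ x) = unif F' (v.comp (regTrace φ)) := by
  change ConstExt.pic0Ext k ℂ F₀' F' (pullPic φ₀ x) = _
  rw [← ConstExt.pullPic_pic0Ext hφ, show ConstExt.pic0Ext k ℂ F₀ F x = unif F v from hv,
    pullPic_unif]

end Generic

variable (M q : ℕ) [NeZero M] [NeZero q] [Fact q.Prime] (H : Subgroup (ZMod M)ˣ) [NegMem H]

local notation "JK" => Pic0 Qb (FU M q H)
local notation "extK" => extC Qb (FU M q H) (FL (GammaH (M * q) (upH M H q)) ℂ)
local notation "extM" => extC Qb (FH M H) (FL (GammaH M H) ℂ)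

/-- The forgetful pushforward in terms of differentials. -/
theorem extC_al {x : JK} {v : DiffDual (FL (GammaH (M * q) (upH M H q)) ℂ)}
    (hv : extK x = unif _ v) : extM (pushPic (al M q H) x) = unif _ (v.comp (alReg M q H)) :=
  extC_pushPic (inclFL_lbc (up_le M H q)) hv

/-- The other pushforward in terms of differentials. -/
theorem extC_be {x : JK} {v : DiffDual (FL (GammaH (M * q) (upH M H q)) ℂ)}
    (hv : extK x = unif _ v) : extM (pushPic (be M q H) x) = unif _ (v.comp (beReg M q H)) :=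
  extC_pushPic (scaleFL_lbc (scaleLe_up M H q)) hv

/-- A Hecke operator is induced by its correspondence on differentials. -/
theorem extC_tOp (N : ℕ) [NeZero N] (G : Subgroup (ZMod N)ˣ) [NegMem G] (ℓ : Nat.Primes)
    {x : Pic0 Qb (FL (GammaH N G) Qb)} {v : DiffDual (FL (GammaH N G) ℂ)}
    (hv : extC Qb (FL (GammaH N G) Qb) (FL (GammaH N G) ℂ) x = unif _ v) :
    haveI : NeZero (ℓ : ℕ) := ⟨ℓ.2.ne_zero⟩
    extC Qb (FL (GammaH N G) Qb) (FL (GammaH N G) ℂ) ((heckeGens N G).act (tOp N G ℓ) x) =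
      unif _ (v.comp (corrH N G ℓ)) := by
  rw [act_tOp]
  exact isInducedBy_corrOp N G ℓ x v hv

/-- A diamond operator is induced by the inverse diamond on differentials. -/
theorem extC_dOp (N : ℕ) [NeZero N] (G : Subgroup (ZMod N)ˣ) [NegMem G] (u : (ZMod N)ˣ)
    {x : Pic0 Qb (FL (GammaH N G) Qb)} {v : DiffDual (FL (GammaH N G) ℂ)}
    (hv : extC Qb (FL (GammaH N G) Qb) (FL (GammaH N G) ℂ) x = unif _ v) :
    extC Qb (FL (GammaH N G) Qb) (FL (GammaH N G) ℂ) ((heckeGens N G).act (dOp N G u) x) =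
      unif _ (v.comp (diaReg N G u⁻¹)) := by
  rw [act_dOp]
  refine (isInducedBy_diaOp N G u x v hv).trans ?_
  rw [diaOp_eq]
  rfl

variable (hq : q.Prime) (hqM : ¬ q ∣ M)

include hq in
/-- The forgetful pushforward commutes with `T_ℓ`. -/
theorem pushPic_al_tOp (ℓ : Nat.Primes) (hℓ : (ℓ : ℕ) ≠ q) (x : JK) :
    pushPic (al M q H) ((heckeGens (M * q) (upH M H q)).act (tOp (M * q) (upH M H q) ℓ) x) =
      (heckeGens M H).act (tOp M H ℓ) (pushPic (al M q H) x) := by
  have : NeZero (ℓ : ℕ) := ⟨ℓ.2.ne_zero⟩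
  have hx' := unif_surjective (extK x)
  obtain ⟨v, hv⟩ := hx'
  refine ConstExt.pic0Ext_injective (K := ℂ) (F := FL (GammaH M H) ℂ)
    ((extC_al M q H (extC_tOp _ _ ℓ hv.symm)).trans
      (Eq.trans ?_ (extC_tOp M H ℓ (extC_al M q H hv.symm)).symm))
  refine congrArg _ (LinearMap.ext fun ω => ?_)
  simp only [LinearMap.comp_apply]
  rw [corrH_alReg M q H hq ℓ ℓ.2 hℓ]

include hq in
/-- The other pushforward commutes with `T_ℓ`. -/
theorem pushPic_be_tOp (ℓ : Nat.Primes) (hℓ : (ℓ : ℕ) ≠ q) (x : JK) :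
    pushPic (be M q H) ((heckeGens (M * q) (upH M H q)).act (tOp (M * q) (upH M H q) ℓ) x) =
      (heckeGens M H).act (tOp M H ℓ) (pushPic (be M q H) x) := by
  have : NeZero (ℓ : ℕ) := ⟨ℓ.2.ne_zero⟩
  have hx' := unif_surjective (extK x)
  obtain ⟨v, hv⟩ := hx'
  refine ConstExt.pic0Ext_injective (K := ℂ) (F := FL (GammaH M H) ℂ)
    ((extC_be M q H (extC_tOp _ _ ℓ hv.symm)).trans
      (Eq.trans ?_ (extC_tOp M H ℓ (extC_be M q H hv.symm)).symm))
  refine congrArg _ (LinearMap.ext fun ω => ?_)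
  simp only [LinearMap.comp_apply]
  rw [corrH_beReg M q H hq ℓ ℓ.2 hℓ]

/-- The forgetful pushforward commutes with the diamonds. -/
theorem pushPic_al_dOp (u : (ZMod (M * q))ˣ) (x : JK) :
    pushPic (al M q H) ((heckeGens (M * q) (upH M H q)).act (dOp (M * q) (upH M H q) u) x) =
      (heckeGens M H).act (dOp M H (ZMod.unitsMap (dvd_mul_right M q) u))
        (pushPic (al M q H) x) := by
  rw [act_dOp, act_dOp]
  exact pushPic_smul (fun f => diamond_al M q H embC u f) x

/-- The other pushforward commutes with the diamonds. -/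
theorem pushPic_be_dOp (u : (ZMod (M * q))ˣ) (x : JK) :
    pushPic (be M q H) ((heckeGens (M * q) (upH M H q)).act (dOp (M * q) (upH M H q) u) x) =
      (heckeGens M H).act (dOp M H (ZMod.unitsMap (dvd_mul_right M q) u))
        (pushPic (be M q H) x) := by
  rw [act_dOp, act_dOp]
  exact pushPic_smul (fun f => diamond_be M q H embC u f) x

/-- The forgetful pushforward commutes with Galois. -/
theorem pushPic_al_galois (σ : Qb ≃ₐ[ℚ] Qb) (x : JK) :
    pushPic (al M q H) (σ • x) = σ • pushPic (al M q H) x := by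
  rw [galois_smul_pic0_def, galois_smul_pic0_def]
  exact pushPic_smul (s := arithmeticGalois (L := Qb) (FQ (GammaH M H)) σ)
    (inclFL_smul Qb (up_le M H q) σ) x

/-- The other pushforward commutes with Galois. -/
theorem pushPic_be_galois (σ : Qb ≃ₐ[ℚ] Qb) (x : JK) :
    pushPic (be M q H) (σ • x) = σ • pushPic (be M q H) x := by
  rw [galois_smul_pic0_def, galois_smul_pic0_def]
  exact pushPic_smul (s := arithmeticGalois (L := Qb) (FQ (GammaH M H)) σ)
    (scaleFL_smul Qb (scaleLe_up M H q) σ) x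

include hq hqM in
/-- The forgetful pushforward of `U_q`. -/
theorem pushPic_al_uq (x : JK) :
    pushPic (al M q H) ((heckeGens (M * q) (upH M H q)).act (tOp (M * q) (upH M H q) ⟨q, hq⟩) x) =
      (heckeGens M H).act (tOp M H ⟨q, hq⟩) (pushPic (al M q H) x) -
        (heckeGens M H).act (dOp M H (qUnit M q hq hqM)⁻¹) (pushPic (be M q H) x) := by
  have hx' := unif_surjective (extK x)
  obtain ⟨v, hv⟩ := hx'
  refine ConstExt.pic0Ext_injective (K := ℂ) (F := FL (GammaH M H) ℂ)
    ((extC_al M q H (extC_tOp _ _ ⟨q, hq⟩ hv.symm)).trans ?_)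
  rw [map_sub]
  refine Eq.trans ?_ (congrArg₂ (· - ·) (extC_tOp M H ⟨q, hq⟩ (extC_al M q H hv.symm)).symm
    (extC_dOp M H (qUnit M q hq hqM)⁻¹ (extC_be M q H hv.symm)).symm)
  rw [inv_inv, ← map_sub]
  refine congrArg _ (LinearMap.ext fun ω => ?_)
  simp only [LinearMap.sub_apply, LinearMap.comp_apply]
  rw [corrH_q_alReg M q H hq hqM, map_sub v]

include hq in
/-- The other pushforward of `U_q`. -/
theorem pushPic_be_uq (x : JK) :
    pushPic (be M q H) ((heckeGens (M * q) (upH M H q)).act (tOp (M * q) (upH M H q) ⟨q, hq⟩) x) =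
      q • pushPic (al M q H) x := by
  have hx' := unif_surjective (extK x)
  obtain ⟨v, hv⟩ := hx'
  refine ConstExt.pic0Ext_injective (K := ℂ) (F := FL (GammaH M H) ℂ)
    ((extC_be M q H (extC_tOp _ _ ⟨q, hq⟩ hv.symm)).trans ?_)
  rw [map_nsmul]
  refine Eq.trans ?_ (congrArg (q • ·) (extC_al M q H hv.symm).symm)
  rw [← map_nsmul]
  refine congrArg _ (LinearMap.ext fun ω => ?_)
  simp only [LinearMap.smul_apply, LinearMap.comp_apply]
  rw [corrH_q_beReg M q H hq, map_smul v, smul_eq_mul, nsmul_eq_mul]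

include hq hqM in
/-- **`U_q` plus the Atkin-Lehner automorphism** is the pullback of the pushforward. -/
theorem uq_add_atkin (x : JK) :
    (heckeGens (M * q) (upH M H q)).act (tOp (M * q) (upH M H q) ⟨q, hq⟩) x +
      atkinAut M q H hq hqM • x =
      pullPic (be M q H) (pushPic (al M q H) x) := by
  obtain ⟨d, hd, hsum⟩ := exists_atkinC M q H hq hqM
  have hx' := unif_surjective (extK x)
  obtain ⟨v, hv⟩ := hx'
  refine ConstExt.pic0Ext_injective (K := ℂ)
    (F := FL (GammaH (M * q) (upH M H q)) ℂ) ?_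
  rw [map_add]
  refine Eq.trans (congrArg₂ (· + ·) (extC_tOp _ _ ⟨q, hq⟩ hv.symm)
    ((isInducedBy_autDual (k := Qb) hd x v hv.symm).trans
      (congrArg (fun f : Module.End ℂ (DiffDual (FL (GammaH (M * q) (upH M H q)) ℂ)) =>
        unif _ (f v)) (autDual_eq_lcomp (inftyEmb _) d)))) ?_
  refine Eq.trans ?_ (extC_pullPic (scaleFL_lbc (scaleLe_up M H q)) (extC_al M q H hv.symm)).symm
  rw [← map_add]
  refine congrArg _ (LinearMap.ext fun ω => ?_)
  simp only [LinearMap.add_apply, LinearMap.comp_apply, LinearMap.lcomp_apply']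
  rw [hsum, map_add v]

include hq hqM in
/-- **On classes killed by the forgetful pushforward `U_q` is minus the Atkin-Lehner
automorphism.** -/
theorem uq_eq_neg_atkin {x : JK} (hx : pushPic (al M q H) x = 0) :
    (heckeGens (M * q) (upH M H q)).act (tOp (M * q) (upH M H q) ⟨q, hq⟩) x =
      -(atkinAut M q H hq hqM • x) := by
  have h := uq_add_atkin M q H hq hqM x
  rw [hx, map_zero] at h
  exact eq_neg_of_add_eq_zero_left h

end Fermat.BAD.XH

end
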