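import Fermat.Agent.BAD.XH.Series
import Fermat.Agent.BAD.X0.Model
import Mathlib.RingTheory.Norm.Basic

/-!
# Functions with bounded poles at level `M` prime to the residue characteristic

What the good model of level `M` says about the functions with poles only over `j = ∞` and their
norms from level `M q`; used for the regular functions of `BAD/XH/Regular`.
-/

set_option autoImplicit false

attribute [local instance 10000] SubalgebraClass.toAlgebra HahnSeries.powerSeriesAlgebra

noncomputable section

open ModularCurve AlgebraicCurve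

namespace Fermat.BAD.XH

open Fermat.FF Fermat.MC Fermat.JAC Fermat.RED Fermat.RED.Model

local notation "Qb" => AlgebraicClosure ℚ

variable (M q : ℕ) [NeZero M] [NeZero q] (H : Subgroup (ZMod M)ˣ) [Lvl.NegMem H]
variable (hq : q.Prime) (hqM : ¬ q ∣ M)
variable {A : ValuationSubring (AlgebraicClosure ℚ)} (hA : A.LiesOverPrime q)

local notation "kA" => IsLocalRing.ResidueField A

/-- The reduction of `j` at level `M`. -/
def jK (A : ValuationSubring (AlgebraicClosure ℚ)) : KH M H A :=
  redS (IsLocalRing.residue A) (FH M H).val.toRingHom (jM M H)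

/-- The expansion of the reduced `j`. -/
theorem coe_jK : (jK M H A : LaurentSeries kA) = jqModC kA := by
  change redF (IsLocalRing.residue A) (FH M H).val.toRingHom (jM M H) = _
  have hx : (FH M H).val.toRingHom (jM M H) ∈ intSeries A :=
    by
      change ((jM M H : FH M H) : LaurentSeries Qb) ∈ intSeries A
      rw [coe_jM]; exact jqModC_mem_intSeries
  rw [redF_of_mem hx]
  refine Eq.trans ?_ (coeffMap_jqModC (IsLocalRing.residue A))
  rw [← redHom_coeffMap (IsLocalRing.residue A) (jqModC A) ⟨_, rfl⟩]
  exact congrArg _ (Subtype.ext ((coe_jM M H).trans coeffMap_subtype_jqModC.symm))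

include hq hqM hA in
/-- The reduced `j` is transcendental. -/
theorem transcendental_jK : Transcendental kA (jK M H A) :=
  (goodModel_FH M q H hq hqM hA).1.transcendental_redS

include hq hqM hA in
/-- The reduced field of level `M` is a function field. -/
theorem isFunctionField_KH : FF.IsFunctionField kA (KH M H A) := by
  have := isAlgClosed_residue A
  exact (goodModel_FH M q H hq hqM hA).1.toPreModel.isFunctionField_spec

include hq hqM hA

/-- The degree of the reduced `j` is the index `ψ` of `Γ_H (M)`. -/
theorem finrank_jK :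
    Module.finrank (IntermediateField.adjoin kA {jK M H A}) (KH M H A) =
      Lvl.psiG (Lvl.GammaH M H) := by
  have := isAlgClosed_residue A
  exact (goodModel_FH M q H hq hqM hA).1.toPreModel.finrank_spec

/-- A regular function of level `M` has an integral scalar multiple. -/
theorem exists_smul_int_level (x : FH M H) (hx : x ∈ intClosure Qb (jM M H)) :
    ∃ c : Qb, c ≠ 0 ∧ c ∈ A ∧
      algebraMap Qb (LaurentSeries Qb) c * (x : LaurentSeries Qb) ∈ intSeries A :=
  X0.exists_smul_int (goodModel_FH M q H hq hqM hA).1 hx

/-- The reduction of a regular integral function of level `M` is regular. -/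
theorem mem_intClosure_level (x : FH M H)
    (hx : x ∈ intClosure Qb (jM M H)) (y : LaurentSeries A)
    (hy : (x : LaurentSeries Qb) = coeffMap A.subtype y) (z : KH M H A)
    (hz : (z : LaurentSeries kA) = coeffMap (IsLocalRing.residue A) y) :
    z ∈ intClosure kA (jK M H A) := by
  have hi : (FH M H).val.toRingHom x ∈ intSeries A := ⟨y, hy.symm⟩
  have e : z = redS (IsLocalRing.residue A) (FH M H).val.toRingHom x := Subtype.ext (by
    change (z : LaurentSeries kA) = redF _ _ x
    rw [hz, redF_of_mem hi, ← redHom_coeffMap (IsLocalRing.residue A) y ⟨y, rfl⟩]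
    exact congrArg _ (Subtype.ext hy.symm))
  rw [e]
  exact X0.redS_mem_intClosure_of_int (goodModel_FH M q H hq hqM hA).1 hx hi

/-- Reduction at level `M` keeps a bound on the poles along `j`. -/
theorem redF_mem_riemannRochSpace_level [IsAlgClosed kA] [FF.IsFunctionField kA (KH M H A)]
    {n : ℕ} (x : FH M H) (hx : x ∈ riemannRochSpace (n • poleDiv Qb (jM M H)))
    (y : LaurentSeries A) (hy : (x : LaurentSeries Qb) = coeffMap A.subtype y) (z : KH M H A)
    (hz : (z : LaurentSeries kA) = coeffMap (IsLocalRing.residue A) y) :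
    z ∈ riemannRochSpace (n • poleDiv kA (jK M H A)) := by
  have hi : (FH M H).val.toRingHom x ∈ intSeries A := ⟨y, hy.symm⟩
  have e : z = redS (IsLocalRing.residue A) (FH M H).val.toRingHom x := Subtype.ext (by
    change (z : LaurentSeries kA) = redF _ _ x
    rw [hz, redF_of_mem hi, ← redHom_coeffMap (IsLocalRing.residue A) y ⟨y, rfl⟩]
    exact congrArg _ (Subtype.ext hy.symm))
  rw [e]
  exact X0.redS_mem_riemannRochSpace (goodModel_FH M q H hq hqM hA).1 hx hi

/-- An automorphism fixing `j`, such as a diamond operator, preserves integrality of regular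
functions of level `M`. -/
theorem aut_int (d : FH M H ≃ₐ[Qb] FH M H) (hd : d (jM M H) = jM M H) (x : FH M H)
    (hx : x ∈ intClosure Qb (jM M H)) (hi : (x : LaurentSeries Qb) ∈ intSeries A) :
    (d x : LaurentSeries Qb) ∈ intSeries A := by
  rcases eq_or_ne x 0 with rfl | hx0
  · rw [map_zero]; exact zero_mem _
  have h := (goodModel_FH M q H hq hqM hA).1
  obtain ⟨c, hc, -, hcg⟩ := exists_scale_of_mem_intClosure hx
  obtain ⟨c', hc'A, hc', g', hg', hne, e⟩ := h.exists_eq_smul_primitive hcg
    (mul_ne_zero ((_root_.map_ne_zero _).mpr hc) hx0)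
  have hxe : x = algebraMap Qb (FH M H) (c' / c) * g' := by
    rw [map_div₀, div_mul_eq_mul_div, ← e, mul_div_cancel_left₀ _ ((_root_.map_ne_zero _).mpr hc)]
  have ha : c' / c ∈ A := by
    by_contra ha
    have hb : (c' / c)⁻¹ ∈ A := (A.mem_or_inv_mem _).resolve_left ha
    have hge' : g' = algebraMap Qb (FH M H) (c' / c)⁻¹ * x := by
      rw [hxe, ← mul_assoc, ← map_mul, inv_mul_cancel₀ (div_ne_zero hc' hc), map_one, one_mul]
    refine hne ?_
    rw [hge', redF_mul (h.int_algebraMap hb) hi, h.redF_algebraMap hb,
      map_eq_zero_of_inv_notMem h.surj (a := ⟨_, hb⟩) (by simpa using ha), map_zero, zero_mul]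
  have hdx : d x =
      algebraMap Qb (FH M H) (c' / c) * d g' := by
    conv_lhs => rw [hxe]
    rw [map_mul, AlgEquiv.commutes]
  rw [hdx, MulMemClass.coe_mul]
  exact mul_mem (algebraMap_mem_intSeries ha)
    (h.int_chart _ (Full.mem_chart_algEquiv d hd hg'))

/-- `⟨q⟩⁻¹` preserves integrality of regular functions. -/
theorem dq_int (x : FH M H) (hx : x ∈ intClosure Qb (jM M H))
    (hi : (x : LaurentSeries Qb) ∈ intSeries A) :
    (dq M q H hq hqM x : LaurentSeries Qb) ∈ intSeries A :=
  aut_int M q H hq hqM hA _ (dq_jM M q H hq hqM) x hx hi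

omit hA

omit hq hqM in
/-- The norm keeps integrality. -/
theorem normAlong_mem_intClosure {z : FU M q H} (hz : z ∈ intClosure Qb (aj M q H)) :
    normAlong (al M q H) z ∈ intClosure Qb (jM M H) := by
  obtain ⟨Q, hQm, hQz⟩ := X0.exists_monic_of_mem_intClosure (al M q H) hz
  let := algebraAlong (al M q H)
  have := isScalarTower_along (al M q H)
  have : Module.Finite (FH M H) (FU M q H) := FF.finiteAlong (al M q H)
  exact mem_intClosure.mpr (Algebra.isIntegral_norm (FH M H)
    (R := Algebra.adjoin Qb {jM M H}) ⟨Q, hQm, hQz⟩)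

/-- The norm commutes with the square of the Atkin-Lehner operator. -/
theorem normAlong_sqW (z : FU M q H) :
    normAlong (al M q H) (sqW M q H hq hqM z) =
      dq M q H hq hqM (normAlong (al M q H) z) := by
  let := algebraAlong (al M q H)
  have h := Algebra.norm_eq_of_equiv_equiv (A₁ := FH M H) (B₁ := FU M q H) (A₂ := FH M H)
    (B₂ := FU M q H) (dq M q H hq hqM).toRingEquiv (sqW M q H hq hqM).toRingEquiv
    (RingHom.ext fun x => (sqW_al M q H hq hqM x).symm) z
  change Algebra.norm (FH M H) _ = dq M q H hq hqM (Algebra.norm (FH M H) z)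
  rw [h]
  exact ((dq M q H hq hqM).toRingEquiv.apply_symm_apply _).symm

end Fermat.BAD.XH

end
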