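import Fermat.Agent.BAD.XH.Unit
import Fermat.Agent.BAD.X0.Glue

/-!
# The glued points of `X_H(M q)`

`SS` is the set of places over the finite part of the `j`-line where the reduction `hbar` of
`Δ (z) / Δ (q z)` vanishes; a function regular away from the cusps with integral expansions takes
at `s ∈ SS` on the component at `∞` the value that it takes at `Qf s`, the inverse Frobenius
image of `s`, on the other component (`glue`; the unit is that of `Unit`). With `Count` this is the
gluing datum of `Degen`.
-/

set_option autoImplicit false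
set_option linter.unusedSectionVars false

attribute [local instance 10000] SubalgebraClass.toAlgebra HahnSeries.powerSeriesAlgebra

noncomputable section

open ModularCurve AlgebraicCurve

namespace Fermat.BAD.XH

open Fermat.BAD.X0
open Fermat.FF Fermat.MC Fermat.RED Fermat.RED.Model

local notation "Qb" => AlgebraicClosure ℚ

section SS

variable (M q : ℕ) [NeZero M] [NeZero q] [Fact q.Prime] (H : Subgroup (ZMod M)ˣ)
  [Lvl.NegMem H] (hq : q.Prime) (hqM : ¬ q ∣ M)
variable {A : ValuationSubring (AlgebraicClosure ℚ)} (hA : A.LiesOverPrime q)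
  [IsAlgClosed (IsLocalRing.ResidueField A)] [CharP (IsLocalRing.ResidueField A) q]
  [FF.IsFunctionField (IsLocalRing.ResidueField A) (KH M H A)]

local notation "kA" => IsLocalRing.ResidueField A

/-- The reduction of `Δ (z) / Δ (q z)` as a function of level `M`. -/
def hbar : KH M H A := ⟨hSer kA q, hSer_mem M q H hq hqM hA⟩

/-- `hbar` is nonzero. -/
theorem hbar_ne_zero : hbar M q H hq hqM hA ≠ 0 :=
  fun h => hSer_ne_zero kA q (congrArg Subtype.val h)

/-- The supersingular places: `j` is finite and `hbar` vanishes. -/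
def SS : Finset (Place kA (KH M H A)) :=
  Set.Finite.toFinset (s := {v | OrdGE v (jK M H A) 0 ∧ 0 < v.ord (hbar M q H hq hqM hA)})
    ((finite_setOf_ord_ne_zero (hbar M q H hq hqM hA)).subset fun _ hv => ne_of_gt hv.2)

/-- Membership in `SS`. -/
theorem mem_SS {v : Place kA (KH M H A)} :
    v ∈ SS M q H hq hqM hA ↔ OrdGE v (jK M H A) 0 ∧ 0 < v.ord (hbar M q H hq hqM hA) := by
  rw [SS, Set.Finite.mem_toFinset]; rfl

/-- A Frobenius at `A`. -/
def frobSigma : Qb ≃ₐ[ℚ] Qb := (Fermat.CFT.exists_isFrobeniusAt hq hA).choose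

/-- `frobSigma` is a Frobenius at `A`. -/
theorem frobSigma_spec : A.IsFrobeniusAt (frobSigma q hq hA) q :=
  (Fermat.CFT.exists_isFrobeniusAt hq hA).choose_spec

/-- The Frobenius of the constants, acting on coefficients. -/
def frobAut : SemilinearAut kA (KH M H A) :=
  Full.galAut (Lvl.FQ (Lvl.GammaH M H)) (frobSigma_spec q hq hA).mem_decompositionSubgroup

/-- `frobAut` raises the coefficients to the `q`-th power. -/
theorem coe_frobAut_smul (z : KH M H A) :
    ((frobAut M q H hq hA • z : KH M H A) : LaurentSeries kA) = coeffMap (frobenius kA q) z := by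
  refine (Full.coe_galAut_smul (Lvl.FQ (Lvl.GammaH M H))
    (frobSigma_spec q hq hA).mem_decompositionSubgroup z).trans ?_
  exact coeffMap_congr (RingHom.ext fun a =>
    (RingEquiv.congr_fun (residueAut_eq_frobenius (frobSigma_spec q hq hA)) a).trans
      (frobeniusEquiv_apply _ q a)) _

/-- `frobAut` is Frobenius on the constants. -/
theorem baseAut_frobAut (a : kA) :
    SemilinearAut.baseAut (frobAut M q H hq hA) a = frobenius kA q a :=
  (RingEquiv.congr_fun (residueAut_eq_frobenius (frobSigma_spec q hq hA)) a).trans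
    (frobeniusEquiv_apply _ q a)

/-- `frobAut` fixes the reduced `j`. -/
theorem frobAut_jk : frobAut M q H hq hA • jK M H A = jK M H A :=
  Subtype.ext (by rw [coe_frobAut_smul, coe_jK, coeffMap_jqModC])

/-- The point on the component at `0` glued to a point of the component at `∞`. -/
def Qf (s : Place kA (KH M H A)) : Place kA (KH M H A) := (frobAut M q H hq hA)⁻¹ • s

/-- The gluing map is injective. -/
theorem Qf_injective : Function.Injective (Qf M q H hq hA) := MulAction.injective _

/-- The gluing map keeps the finite part of the `j`-line. -/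
theorem ordGE_Qf {s : Place kA (KH M H A)} (h : OrdGE s (jK M H A) 0) :
    OrdGE (Qf M q H hq hA s) (jK M H A) 0 :=
  ordGE_fixed _ (inv_smul_fixed _ (frobAut_jk M q H hq hA)) h

/-- If the expansion at `0` of a regular integral `g` reduces to zero, then the reduction at `∞`
vanishes at the glued points. -/
theorem ordGE_one_of_redF_false (g : FU M q H) (hg : g ∈ intClosure Qb (aj M q H))
    (hi : ∀ b, emb M q H hq hqM b g ∈ intSeries A)
    (h0 : redF (IsLocalRing.residue A) (emb M q H hq hqM false) g = 0) (z : KH M H A)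
    (hz : (z : LaurentSeries kA) = redF (IsLocalRing.residue A) (emb M q H hq hqM true) g)
    {s : Place kA (KH M H A)} (hs : s ∈ SS M q H hq hqM hA) : OrdGE s z 1 :=
  X0.ordGE_one_of_hSer_dvd hq hA rfl
    (hbar_ne_zero M q H hq hqM hA) hi
    (coeff_mem M q H hq hqM false g)
    (fun N _ hw hgN => exists_mul_hSer_eq M q H hq hqM hA (g ^ N) (pow_mem hg N)
      (by rw [map_pow]; exact pow_mem (hi true) N) hw hgN)
    h0 z hz ((mem_SS M q H hq hqM hA).mp hs).1 ((mem_SS M q H hq hqM hA).mp hs).2

/-- Regular functions take glued values. -/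
theorem glue (f : FU M q H) (hf : f ∈ intClosure Qb (aj M q H))
    (hi : ∀ b, emb M q H hq hqM b f ∈ intSeries A) (z₁ z₀ : KH M H A)
    (hz₁ : (z₁ : LaurentSeries kA) = redF (IsLocalRing.residue A) (emb M q H hq hqM true) f)
    (hz₀ : (z₀ : LaurentSeries kA) = redF (IsLocalRing.residue A) (emb M q H hq hqM false) f)
    {s : Place kA (KH M H A)} (hs : s ∈ SS M q H hq hqM hA) :
    evalAt s z₁ = evalAt (Qf M q H hq hA s) z₀ := by
  obtain ⟨σ, hσ⟩ := Fermat.CFT.exists_isFrobeniusAt hq hA
  obtain ⟨σA, h1, h2⟩ := exists_residue_conj (σ := σ) hσ.mem_decompositionSubgroup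
  rw [residueAut_eq_frobenius hσ] at h2
  -- `z₀` is the reduction at `∞` of `Wf`, hence of its trace `x`; apply Frobenius to `x`.
  set Wf := atkin M q H hq hqM f
  have hWi : ∀ b, emb M q H hq hqM b Wf ∈ intSeries A :=
    atkin_int_of M q H hq hqM (hi false) (sqW_int M q H hq hqM hA hf hi true)
  have hWred : redF (IsLocalRing.residue A) (emb M q H hq hqM true) Wf =
      redF (IsLocalRing.residue A) (emb M q H hq hqM false) f := by
    rw [redF_of_mem (hWi true), redF_of_mem (hi false)]
    exact congrArg _ (Subtype.ext rfl)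
  obtain ⟨y, hy1, hy2⟩ := trA_reduction M q H hq hqM hA Wf hWi
  set x : FH M H := X0.trA (al M q H) Wf
  set x' : FH M H := arithmeticGalois (Lvl.FQ (Lvl.GammaH M H)) σ • x
  have hx' : (x' : LaurentSeries Qb) = coeffMap A.subtype (coeffMap σA y) := by
    rw [coe_arithmeticGalois_smul, hy1, coeffMap_coeffMap, coeffMap_coeffMap]
    exact coeffMap_congr (RingHom.ext fun a => (h1 a).symm) y
  have hjL : arithmeticGalois (Lvl.FQ (Lvl.GammaH M H)) σ • jM M H = jM M H := by
    refine Subtype.ext ?_
    rw [coe_arithmeticGalois_smul, coe_jM, coeffMap_jqModC]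
  -- `g` reduces to zero at `0`, so vanishes at the glued points at `∞`.
  set g := f ^ q - al M q H x'
  have hg : g ∈ intClosure Qb (aj M q H) :=
    sub_mem (pow_mem hf q) (map_mem_intClosure (al M q H)
      (smul_mem_intClosure _ hjL
        (X0.trA_mem_intClosure (al M q H) (atkin_mem_intClosure M q H hq hqM hf))))
  have hrx : coeffMap (IsLocalRing.residue A) (coeffMap σA y) =
      ((frobAut M q H hq hA • z₀ : KH M H A) : LaurentSeries kA) := by
    rw [coe_frobAut_smul, hz₀, ← hWred, ← hy2, coeffMap_coeffMap, coeffMap_coeffMap]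
    exact coeffMap_congr (RingHom.ext fun a => h2 a) y
  have ha1 : emb M q H hq hqM true (al M q H x') =
      coeffMap A.subtype (coeffMap σA y) := by rw [emb_true_al, hx']
  have ha0 : emb M q H hq hqM false (al M q H x') =
      coeffMap A.subtype (qExpand A q (coeffMap σA y)) := by
    rw [emb_false_al, hx', coeffMap_qExpand]
  obtain ⟨hs1, -⟩ := (mem_SS M q H hq hqM hA).mp hs
  refine X0.evalAt_eq_of_frobenius_lift (coe_frobAut_smul M q H hq hA)
    (baseAut_frobAut M q H hq hA) hi ha1 ha0 hz₁ hz₀ hrx ?_ ?_
    fun hgi hg0 z hz => ordGE_one_of_redF_false M q H hq hqM hA g hg hgi hg0 z hz hs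
  · exact mem_intClosure_iff.mp
      (redF_true_mem_intClosure M q H hq hqM hA f hi hf z₁ hz₁) s hs1
  · exact mem_intClosure_iff.mp
      (redF_true_mem_intClosure M q H hq hqM hA Wf hWi
      (atkin_mem_intClosure M q H hq hqM hf) z₀ (hz₀.trans hWred.symm)) _ (ordGE_Qf M q H hq hA hs1)

end SS

end Fermat.BAD.XH

end
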