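import Fermat.Agent.BAD.XH.Uniformizer
import Fermat.Agent.BAD.X0.Count
import Fermat.Agent.BAD.XH.Glue

/-!
# The number of glued points of `X_H(M q)`

The reduction of `Δ (z) / Δ (q z)` is a polynomial of degree `q - 1` in `j` and vanishes to order
at most `12` at each glued point, and every cusp of level `M` has at least two cusps of level
`M q` above it; for `4 ∣ M` or `9 ∣ M` there are therefore at least
`g (X_H (M q)) + 1 - 2 g (X_H (M))` glued points.
-/

set_option autoImplicit false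
set_option linter.unusedSectionVars false

attribute [local instance 10000] SubalgebraClass.toAlgebra HahnSeries.powerSeriesAlgebra

noncomputable section

open ModularCurve AlgebraicCurve CongruenceSubgroup
open scoped MatrixGroups

namespace Fermat.BAD.XH

open Fermat.BAD.X0
open Fermat.FF Fermat.MC Fermat.JAC Fermat.JAC.XH Fermat.RED Fermat.RED.Model
open Fermat.JAC.X0 (embC)

local notation "Qb" => AlgebraicClosure ℚ

section Generic

variable {K F : Type*} [Field K] [Field F] [Algebra K F] [IsAlgClosed K] [FF.IsFunctionField K F]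

/-- The bound on the order at a point where `z` is a uniformiser up to a constant. -/
theorem ord_le_of_uniformizer_pair {q : ℕ} [Fact q.Prime] [CharP F q] {v : Place K F}
    {z z' h : F} {c : K} (hz' : OrdGE v z' 0) (hh : 0 < v.ord h) (hh0 : h ≠ 0)
    (hne : z - algebraMap K F c ≠ 0) (hord : v.ord (z - algebraMap K F c) = 1) {m : ℕ}
    {w : F} (hw : OrdGE v w 0) (he : w * h = (z - z' ^ q ^ 2) ^ m) :
    v.ord h ≤ m := by
  -- Write `z - z' ^ q² = (u - u' ^ q²) + d` with `u` a uniformiser and `u'` vanishing at `v`.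
  set c' := evalAt v z'
  set u := z - algebraMap K F c
  set u' := z' - algebraMap K F c'
  set d := c - c' ^ q ^ 2
  have hu' : OrdGE v u' 1 := evalAt_spec hz'
  have hq2 : (2 : ℤ) ≤ ((q ^ 2 : ℕ) : ℤ) := by
    have := (Fact.out : q.Prime).two_le
    have h4 : 2 * 2 ≤ q ^ 2 := by rw [pow_two]; exact Nat.mul_le_mul this this
    exact_mod_cast (by omega : 2 ≤ q ^ 2)
  have hu'q : OrdGE v (u' ^ q ^ 2) 2 := (hu'.pow (q ^ 2)).mono (by rw [mul_one]; exact hq2)
  have hz : z - z' ^ q ^ 2 = (u - u' ^ q ^ 2) + algebraMap K F d := by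
    simp only [u, u', d, sub_pow_char_pow, map_sub, map_pow]
    ring
  have h1 : OrdGE v (u - u' ^ q ^ 2) 1 :=
    (ordGE_iff.mpr (.inr hord.ge)).sub (hu'q.mono (by norm_num))
  have h2 : ¬ OrdGE v (u - u' ^ q ^ 2) 2 := fun h => by
    have := (h.add hu'q).le_ord (by simpa using hne)
    rw [sub_add_cancel, hord] at this
    omega
  -- If `d ≠ 0` then `z - z' ^ q²` is a unit at `v`, impossible as `0 < ord h`.
  have hd : d = 0 := by
    by_contra hd
    have hord0 : ¬ OrdGE v (z - z' ^ q ^ 2) 1 := fun h => by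
      have h3 := h.sub h1
      rw [hz, add_sub_cancel_left] at h3
      have := h3.le_ord ((_root_.map_ne_zero _).mpr hd)
      rw [ord_algebraMap] at this
      omega
    have hne0 : z - z' ^ q ^ 2 ≠ 0 := fun h => hord0 (h ▸ ordGE_zero _ _)
    have hw0 : w ≠ 0 := fun h0 => pow_ne_zero m hne0 (by rw [← he, h0, zero_mul])
    have e := congrArg v.ord he
    rw [v.ord_mul hw0 hh0, ord_pow] at e
    have := hw.le_ord hw0
    have h0 : v.ord (z - z' ^ q ^ 2) < 1 := lt_of_not_ge fun h => hord0 (ordGE_iff.mpr (.inr h))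
    nlinarith
  -- So it has order `1`, and `ord w + ord h = m`.
  rw [hd, map_zero, add_zero] at hz
  rw [hz] at he
  have hne1 : u - u' ^ q ^ 2 ≠ 0 := fun h => h2 (h ▸ ordGE_zero _ _)
  have e1 : v.ord (u - u' ^ q ^ 2) = 1 := by
    refine le_antisymm ?_ (h1.le_ord hne1)
    by_contra hlt
    exact h2 (ordGE_iff.mpr (.inr (by omega)))
  have hw0 : w ≠ 0 := fun h0 => pow_ne_zero m hne1 (by rw [← he, h0, zero_mul])
  have e := congrArg v.ord he
  rw [v.ord_mul hw0 hh0, ord_pow, e1, mul_one] at e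
  have := hw.le_ord hw0
  omega

end Generic

section Elliptic

/-- A subgroup of a level without elliptic points has none. -/
theorem nuG_zero_mono {G G' : Subgroup SL(2, ℤ)} [Finite (Lvl.Coset G)] (hle : G' ≤ G)
    (h2 : Lvl.nuTwoG G = 0) (h3 : Lvl.nuThreeG G = 0) :
    Lvl.nuTwoG G' = 0 ∧ Lvl.nuThreeG G' = 0 := by
  have key : ∀ g : SL(2, ℤ), Nat.card {x : Lvl.Coset G // g • x = x} = 0 →
      Nat.card {x : Lvl.Coset G' // g • x = x} = 0 := fun g hg => by
    have : IsEmpty {x : Lvl.Coset G' // g • x = x} := by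
      refine ⟨fun ⟨x, hx⟩ => ?_⟩
      refine (Nat.card_eq_zero.mp hg).elim (fun he => he.false ⟨(x.out : Lvl.Coset G), ?_⟩)
        (fun hi => @Infinite.not_finite _ hi inferInstance)
      rw [← QuotientGroup.out_eq' x, MulAction.Quotient.smul_mk, QuotientGroup.eq] at hx
      rw [MulAction.Quotient.smul_mk, QuotientGroup.eq]
      exact hle hx
    exact Nat.card_of_isEmpty
  exact ⟨key _ h2, key _ h3⟩

/-- For `4 ∣ M` or `9 ∣ M` there are no elliptic points. -/
theorem nuG_GammaH_eq_zero (M : ℕ) [NeZero M] (H : Subgroup (ZMod M)ˣ) [Lvl.NegMem H]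
    (h49 : 4 ∣ M ∨ 9 ∣ M) :
    Lvl.nuTwoG (Lvl.GammaH M H) = 0 ∧ Lvl.nuThreeG (Lvl.GammaH M H) = 0 := by
  obtain ⟨c, hc, hcM⟩ : ∃ c : ℕ, (c = 4 ∨ c = 9) ∧ c ∣ M :=
    h49.elim (fun h => ⟨4, Or.inl rfl, h⟩) fun h => ⟨9, Or.inr rfl, h⟩
  have : NeZero c := ⟨by rcases hc with rfl | rfl <;> norm_num⟩
  exact Full.nuG_eq_zero hc
    (Lvl.GammaH_le_Gamma0.trans (Fermat.MC.Gamma0_le_of_dvd M hcM))

end Elliptic

section SS

variable (M q : ℕ) [NeZero M] [NeZero q] [Fact q.Prime] (H : Subgroup (ZMod M)ˣ) [Lvl.NegMem H]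
variable (hq : q.Prime) (hqM : ¬ q ∣ M)
variable {A : ValuationSubring (AlgebraicClosure ℚ)} (hA : A.LiesOverPrime q)
  [IsAlgClosed (IsLocalRing.ResidueField A)] [CharP (IsLocalRing.ResidueField A) q]
  [FF.IsFunctionField (IsLocalRing.ResidueField A) (KH M H A)]

local notation "kA" => IsLocalRing.ResidueField A

/-- The reduction of `Δ (z) / Δ (q z)` vanishes to order at most `12` at a glued point. -/
theorem ord_hbar_le {s : Place kA (KH M H A)} (hs : s ∈ SS M q H hq hqM hA) :
    s.ord (hbar M q H hq hqM hA) ≤ 12 := by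
  obtain ⟨hs1, hs2⟩ := (mem_SS M q H hq hqM hA).mp hs
  obtain ⟨t, y, z, c, ht, hty, htQ, hz, hne, hord⟩ :=
    exists_rat_uniformizer M q H hq hqM hA hs1
  have hyQ : ∀ n, ((y.coeff n : A) : Qb) ∈ Set.range (algebraMap ℚ Qb) := fun n => by
    have := htQ n
    rwa [hty, coeffMap_coeff] at this
  obtain ⟨hfrob, w, hw⟩ := exists_frobenius_congr hq hA hyQ
  set yq := qExpand A q y - y ^ q
  -- the translate of the uniformiser
  set d := (dq M q H hq hqM).symm
  have hd : d (jM M H) = jM M H := by rw [AlgEquiv.symm_apply_eq, dq_jM]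
  have htd : d t ∈ intClosure Qb (jM M H) := by
    have := X0.map_mem_intClosure d.toAlgHom ht
    rwa [AlgEquiv.coe_toAlgHom, hd] at this
  obtain ⟨y', hy'⟩ := aut_int M q H hq hqM hA d hd t ht ⟨y, hty.symm⟩
  set z'' : KH M H A := ⟨_, redF_mem_K M H (d t) y' hy'.symm⟩
  set z' : KH M H A := (frobAut M q H hq hA)⁻¹ • z''
  have hz' : OrdGE s z' 0 := mem_intClosure_iff.mp
    (X0.smul_mem_intClosure _
      (X0.inv_smul_fixed _ (frobAut_jk M q H hq hA))
      (mem_intClosure_level M q H hq hqM hA _ htd y' hy'.symm z'' rfl)) s hs1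
  -- `G` is divisible by `q` at `0` and reduces to `z - z' ^ q²` at `∞`,
  -- so `hbar` divides its 12th power.
  set G := al M q H t - be M q H (d t) ^ q
  have hG : G ∈ intClosure Qb (aj M q H) :=
    sub_mem (X0.map_mem_intClosure (al M q H) ht)
      (pow_mem (X0.mem_intClosure_trans
        (bj_mem_intClosure M q H hq hqM) (X0.map_mem_intClosure (be M q H) htd)) q)
  have hG1 : emb M q H hq hqM true G = coeffMap A.subtype (y - qExpand A q y' ^ q) := by
    rw [map_sub, map_pow, emb_true_al, emb_true_be, hty, ← hy', map_sub, map_pow,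
      ModularCurve.coeffMap_qExpand]
  have hG0 : emb M q H hq hqM false G = (q : LaurentSeries Qb) * coeffMap A.subtype w := by
    rw [map_sub, map_pow, emb_false_al, emb_false_be, AlgEquiv.apply_symm_apply, hty,
      ← ModularCurve.coeffMap_qExpand, ← map_pow, ← map_sub]
    change coeffMap A.subtype yq = _
    rw [hw, map_mul, map_natCast]
  obtain ⟨v, hv, hzh⟩ := exists_mul_hSer_eq M q H hq hqM hA (G ^ 12) (pow_mem hG 12)
    (by rw [map_pow, hG1]
        exact pow_mem (show coeffMap A.subtype _ ∈ intSeries A from ⟨_, rfl⟩) 12)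
    (w := coeffMap A.subtype w ^ 12)
    (pow_mem (show coeffMap A.subtype w ∈ intSeries A from ⟨_, rfl⟩) 12)
    (by rw [map_pow, hG0, mul_pow])
  have hzh' : v * hbar M q H hq hqM hA = (z - z' ^ q ^ 2) ^ 12 := Subtype.ext (by
    rw [MulMemClass.coe_mul, SubmonoidClass.coe_pow, AddSubgroupClass.coe_sub,
      SubmonoidClass.coe_pow, hz]
    refine hzh.trans ?_
    have hi : emb M q H hq hqM true G ∈ intSeries A := by rw [hG1]; exact ⟨_, rfl⟩
    rw [redF_pow hi, redF_of_mem hi]
    refine congrArg (· ^ 12) ((congrArg _ (Subtype.ext hG1)).trans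
      ((redHom_coeffMap (IsLocalRing.residue A) _ ⟨_, rfl⟩).trans ?_))
    rw [map_sub, map_pow, ModularCurve.coeffMap_qExpand, pow_two q, pow_mul]
    refine congrArg (fun r => coeffMap (IsLocalRing.residue A) y - r ^ q) ?_
    rw [laurent_pow_char q, ← coe_frobAut_smul M q H hq hA, smul_inv_smul])
  have : CharP (KH M H A) q :=
    charP_of_injective_algebraMap (algebraMap kA (KH M H A)).injective q
  exact ord_le_of_uniformizer_pair (q := q) hz' hs2 (hbar_ne_zero M q H hq hqM hA) hne hord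
    (mem_intClosure_iff.mp hv s hs1) hzh'

/-- The zeros of `hbar` are glued points and their total order is `(q - 1) ψ (Γ_H (M))`. -/
theorem degree_zeroDiv_hbar :
    Divisor.degree (zeroDiv kA (hbar M q H hq hqM hA)) =
        ((q - 1) * Lvl.psiG (Lvl.GammaH M H) : ℕ) ∧
      ∀ v, 0 < v.ord (hbar M q H hq hqM hA) → v ∈ SS M q H hq hqM hA := by
  obtain ⟨g, hg0, hgd, hg⟩ := exists_hSer_eq_aeval q hq hA
  obtain ⟨h1, h2⟩ := degree_zeroDiv_of_eq_aeval (j := jK M H A)
    (by have := hq.two_le; omega : 1 ≤ q - 1)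
    hg0 hgd (h := hbar M q H hq hqM hA) (by
      refine Subtype.ext ?_
      change hSer kA q = (KH M H A).val (Polynomial.aeval (jK M H A) g)
      rw [← Polynomial.aeval_algHom_apply]
      change hSer kA q = Polynomial.aeval ((jK M H A : KH M H A) : LaurentSeries kA) g
      rw [hg, coe_jK]) (hbar_ne_zero M q H hq hqM hA)
  refine ⟨?_, fun v hv => (mem_SS M q H hq hqM hA).mpr ⟨h2 v hv, hv⟩⟩
  rw [h1, degree_poleDiv (transcendental_jK M q H hq hqM hA), finrank_jK M q H hq hqM hA]
  push_cast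
  ring

include hq hqM hA in
/-- Good reduction keeps the genus of level `M`. -/
theorem genusFF_reduced : genusFF kA (KH M H A) = genusFF Qb (FH M H) := by
  obtain ⟨h, hn, hn'⟩ := goodModel_FH M q H hq hqM hA
  exact h.genus_eq_of_normal hn hn'

end SS

section Cusps

variable (M q : ℕ) [NeZero M] [NeZero q] [Fact q.Prime] (H : Subgroup (ZMod M)ˣ)

/-- The coset of level `M`, and whether the cusp lies over `∞` of level `q`. -/
def cuspPair : Lvl.Coset (Lvl.GammaH (M * q) (upH M H q)) →
    Lvl.Coset (Lvl.GammaH M H) × Bool :=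
  Quotient.lift (fun γ : SL(2, ℤ) => ((γ : Lvl.Coset (Lvl.GammaH M H)),
      decide (((γ 1 0 : ℤ) : ZMod q) = 0))) (by
    intro a b hab
    have hg : a⁻¹ * b ∈ Lvl.GammaH (M * q) (upH M H q) := QuotientGroup.leftRel_apply.mp hab
    refine Prod.ext (QuotientGroup.eq.mpr (up_le M H q hg)) ?_
    set g := a⁻¹ * b
    have h0 := Gamma0_mem.mp (up_le_Gamma0 M H q hg)
    have hdet : g 0 0 * g 1 1 - g 0 1 * g 1 0 = 1 :=
      (Matrix.det_fin_two (g : Matrix (Fin 2) (Fin 2) ℤ)).symm.trans g.2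
    have hu : ((g 0 0 : ℤ) : ZMod q) ≠ 0 := fun hz => by
      have := congrArg (fun n : ℤ => (n : ZMod q)) hdet
      simp [hz, h0] at this
    have e : ((b 1 0 : ℤ) : ZMod q) = ((a 1 0 : ℤ) : ZMod q) * ((g 0 0 : ℤ) : ZMod q) := by
      rw [show b = a * g from (mul_inv_cancel_left a b).symm]
      simp [Matrix.mul_apply, Fin.sum_univ_two, h0]
    change decide _ = decide _
    rw [decide_eq_decide, e, mul_eq_zero, or_iff_left hu])

/-- `cuspPair` on a coset. -/
theorem cuspPair_mk (γ : SL(2, ℤ)) :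
    cuspPair M q H (γ : Lvl.Coset _) =
      ((γ : Lvl.Coset (Lvl.GammaH M H)), decide (((γ 1 0 : ℤ) : ZMod q) = 0)) := rfl

/-- `cuspPair` is equivariant for translations. -/
theorem cuspPair_smul (t : Subgroup.zpowers ModularGroup.T)
    (x : Lvl.Coset (Lvl.GammaH (M * q) (upH M H q))) :
    cuspPair M q H (t • x) = (t • (cuspPair M q H x).1, (cuspPair M q H x).2) := by
  induction x using QuotientGroup.induction_on with
  | _ γ =>
    obtain ⟨t, n, rfl⟩ := t
    change cuspPair M q H (ModularGroup.T ^ n • (γ : Lvl.Coset _)) = _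
    rw [MulAction.Quotient.smul_mk, cuspPair_mk, cuspPair_mk]
    refine Prod.ext rfl ?_
    change decide _ = decide _
    rw [decide_eq_decide]
    simp [smul_eq_mul]

/-- Every pair of a cusp of level `M` and a side comes from a cusp of level `M q`, `q ∤ M`. -/
theorem cuspPair_surjective (hqM : ¬ q ∣ M) : Function.Surjective (cuspPair M q H) := by
  rintro ⟨x, b⟩
  induction x using QuotientGroup.induction_on with
  | _ γ =>
    -- translate by the level group to make the lower right entry prime to `q`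
    obtain ⟨g, hg, h11⟩ : ∃ g ∈ Lvl.GammaH M H, (((γ * g) 1 1 : ℤ) : ZMod q) ≠ 0 := by
      by_cases h : ((γ 1 1 : ℤ) : ZMod q) = 0
      · refine ⟨ModularGroup.T, Lvl.T_mem_GammaH, fun h' => ?_⟩
        have hdet : γ 0 0 * γ 1 1 - γ 0 1 * γ 1 0 = 1 :=
          (Matrix.det_fin_two (γ : Matrix (Fin 2) (Fin 2) ℤ)).symm.trans γ.2
        have h10 : ((γ 1 0 : ℤ) : ZMod q) = 0 := by
          simpa [Matrix.mul_apply, Fin.sum_univ_two, ModularGroup.coe_T, h] using h'
        have := congrArg (fun n : ℤ => (n : ZMod q)) hdet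
        simp [h, h10] at this
      · exact ⟨1, one_mem _, by simpa using h⟩
    set δ := γ * g
    have hM0 : (M : ZMod q) ≠ 0 := by rwa [ne_eq, CharP.cast_eq_zero_iff (ZMod q) q]
    set v : ZMod q := if b then 0 else 1
    -- then a lower unipotent moves the lower left entry to the residue `v` wanted for the side
    obtain ⟨t, ht⟩ := ZMod.intCast_surjective
      ((v - ((δ 1 0 : ℤ) : ZMod q)) / (((δ 1 1 : ℤ) : ZMod q) * (M : ZMod q)))
    let U : SL(2, ℤ) := ⟨!![1, 0; (M : ℤ) * t, 1], by rw [Matrix.det_fin_two_of]; ring⟩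
    have hU : U ∈ Lvl.GammaH M H :=
      Lvl.Gamma1_le_GammaH ((Gamma1_mem _ _).mpr ⟨by simp [U], by simp [U], by simp [U]⟩)
    -- the translated matrix has cusp `x` and side `b`
    refine ⟨((δ * U : SL(2, ℤ)) : Lvl.Coset _), Prod.ext ?_ ?_⟩
    · rw [cuspPair_mk]
      refine QuotientGroup.eq.mpr ?_
      rw [show (δ * U)⁻¹ * γ = U⁻¹ * g⁻¹ by simp [δ, mul_assoc]]
      exact mul_mem (inv_mem hU) (inv_mem hg)
    · rw [cuspPair_mk]
      change decide _ = b
      have e : (((δ * U) 1 0 : ℤ) : ZMod q) = v := by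
        rw [Matrix.SpecialLinearGroup.coe_mul, Matrix.mul_apply, Fin.sum_univ_two]
        simp [U]
        rw [ht]
        field_simp [h11, hM0]
        ring
      rw [e]
      cases b <;> simp [v]

/-- Every cusp of level `M` has at least two cusps of level `M q` above it. -/
theorem two_mul_cuspsG_le (hqM : ¬ q ∣ M) :
    2 * Lvl.cuspsG (Lvl.GammaH M H) ≤ Lvl.cuspsG (Lvl.GammaH (M * q) (upH M H q)) := by
  let f : MulAction.orbitRel.Quotient (Subgroup.zpowers ModularGroup.T)
      (Lvl.Coset (Lvl.GammaH (M * q) (upH M H q))) →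
      MulAction.orbitRel.Quotient (Subgroup.zpowers ModularGroup.T)
        (Lvl.Coset (Lvl.GammaH M H)) × Bool :=
    Quotient.lift (fun x => (Quotient.mk _ (cuspPair M q H x).1, (cuspPair M q H x).2))
      fun x y hxy => by
        obtain ⟨t, rfl⟩ := hxy
        change (Quotient.mk _ (cuspPair M q H (t • y)).1, (cuspPair M q H (t • y)).2) = _
        rw [cuspPair_smul]
        exact Prod.ext (Quotient.sound ⟨t, rfl⟩) rfl
  have hf : Function.Surjective f := by
    rintro ⟨x, b⟩
    induction x using Quotient.inductionOn with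
    | _ x =>
      obtain ⟨y, hy⟩ := cuspPair_surjective M q H hqM (x, b)
      exact ⟨Quotient.mk _ y, by simp [f, hy]⟩
  have : Finite (Lvl.Coset (Lvl.GammaH (M * q) (upH M H q))) := inferInstance
  have h := Nat.card_le_card_of_surjective f hf
  rw [Nat.card_prod, Nat.card_eq_fintype_card (α := Bool), Fintype.card_bool, mul_comm] at h
  exact h

end Cusps

section Count

variable (M q : ℕ) [NeZero M] [NeZero q] [Fact q.Prime] (H : Subgroup (ZMod M)ˣ) [Lvl.NegMem H]
variable (hq : q.Prime) (hqM : ¬ q ∣ M)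
variable {A : ValuationSubring (AlgebraicClosure ℚ)} (hA : A.LiesOverPrime q)
  [IsAlgClosed (IsLocalRing.ResidueField A)] [CharP (IsLocalRing.ResidueField A) q]
  [FF.IsFunctionField (IsLocalRing.ResidueField A) (KH M H A)]

local notation "kA" => IsLocalRing.ResidueField A

include hq hqM hA in
/-- The genus at level `M q` against twice that of the reduced level `M` curve. -/
theorem genus_compare (hν2 : Lvl.nuTwoG (Lvl.GammaH M H) = 0)
    (hν3 : Lvl.nuThreeG (Lvl.GammaH M H) = 0) :
    12 * ((genusFF Qb (FU M q H) : ℚ) + 1 - 2 * (genusFF kA (KH M H A) : ℚ)) ≤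
      (((q - 1) * Lvl.psiG (Lvl.GammaH M H) : ℕ) : ℚ) := by
  obtain ⟨u2, u3⟩ := nuG_zero_mono (up_le M H q) hν2 hν3
  have hgF : (genusFF Qb (FU M q H) : ℚ) =
      Lvl.genusFormulaG (Lvl.GammaH (M * q) (upH M H q)) := Lvl.genusFF_FL _ embC
  have hgM : (genusFF Qb (FH M H) : ℚ) = Lvl.genusFormulaG (Lvl.GammaH M H) :=
    Lvl.genusFF_FL _ embC
  have hpsi : Lvl.psiG (Lvl.GammaH (M * q) (upH M H q)) =
      (q + 1) * Lvl.psiG (Lvl.GammaH M H) := by
    rw [psiG_up, psiG_GammaH, X0.dedekindPsi_mul_prime M q hq, if_neg hqM]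
    ring
  rw [Lvl.genusFormulaG, u2, u3, hpsi] at hgF
  rw [Lvl.genusFormulaG, hν2, hν3, ← genusFF_reduced M q H hq hqM hA] at hgM
  have hcusp : (2 : ℚ) * Lvl.cuspsG (Lvl.GammaH M H) ≤
      Lvl.cuspsG (Lvl.GammaH (M * q) (upH M H q)) := by
    exact_mod_cast two_mul_cuspsG_le M q H hqM
  push_cast [Nat.cast_sub hq.one_le] at hgF hgM
  push_cast [Nat.cast_sub hq.one_le]
  nlinarith

/-- There are enough glued points. -/
theorem count (hν2 : Lvl.nuTwoG (Lvl.GammaH M H) = 0) (hν3 : Lvl.nuThreeG (Lvl.GammaH M H) = 0) :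
    genusFF Qb (FU M q H) + 1 ≤
      2 * genusFF kA (KH M H A) + (SS M q H hq hqM hA).card := by
  obtain ⟨hdeg, hsub⟩ := degree_zeroDiv_hbar M q H hq hqM hA
  have h1 : Divisor.degree (zeroDiv kA (hbar M q H hq hqM hA)) ≤
      12 * ((SS M q H hq hqM hA).card : ℤ) := by
    classical
    rw [degree_eq_sum, Finsupp.sum]
    have hsupp : ∀ v ∈ (zeroDiv kA (hbar M q H hq hqM hA)).support,
        v ∈ SS M q H hq hqM hA := fun v hv => hsub v (by
      simp only [Finsupp.mem_support_iff, zeroDiv_apply] at hv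
      omega)
    refine (Finset.sum_le_card_nsmul _ _ 12 fun v hv => ?_).trans ?_
    · rw [zeroDiv_apply]
      exact max_le (ord_hbar_le M q H hq hqM hA (hsupp v hv)) (by norm_num)
    · rw [nsmul_eq_mul, mul_comm (12 : ℤ)]
      exact mul_le_mul_of_nonneg_right (by exact_mod_cast Finset.card_le_card hsupp) (by norm_num)
  -- Compare with the genus formulas of the two levels.
  have hg := genus_compare M q H hq hqM hA hν2 hν3
  have h3 : (((q - 1) * Lvl.psiG (Lvl.GammaH M H) : ℕ) : ℚ) ≤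
      12 * ((SS M q H hq hqM hA).card : ℚ) := by
    have h2 := hdeg ▸ h1
    exact_mod_cast h2
  have key : (genusFF Qb (FU M q H) : ℚ) + 1 ≤
      2 * (genusFF kA (KH M H A) : ℚ) + ((SS M q H hq hqM hA).card : ℚ) := by
    linarith
  exact_mod_cast key

end Count

end Fermat.BAD.XH

end
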