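import Fermat.Agent.BAD.XH.Setup
import Fermat.Agent.BAD.X0.Series

/-!
# Integral expansions on `X_H(M q)`

Every function is a quotient of polynomials in `j (q z)` and integral functions of level `M`, so
bounded up to a primitive denominator; bounded expansions attain their maximum; the reduction at
either cusp of an integral expansion lies in the function field of level `M` in characteristic
`q` (`redF_mem`). This gives the reductions on the components of `BAD/XH/Degen`.
-/

set_option autoImplicit false
set_option linter.unusedSectionVars false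

attribute [local instance 10000] SubalgebraClass.toAlgebra HahnSeries.powerSeriesAlgebra

noncomputable section

open ModularCurve AlgebraicCurve IntermediateField

namespace Fermat.BAD.XH

open Fermat.MC Fermat.JAC Fermat.RED Fermat.RED.Model
open Fermat.JAC.X0 (embC)

local notation "Qb" => AlgebraicClosure ℚ

variable (M q : ℕ) [NeZero M] [NeZero q] (H : Subgroup (ZMod M)ˣ) [Lvl.NegMem H]
variable (hq : q.Prime) (hqM : ¬ q ∣ M)
variable {A : ValuationSubring (AlgebraicClosure ℚ)} (hA : A.LiesOverPrime q)

/-- The reduced curve of level `M`. -/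
abbrev KH (A : ValuationSubring (AlgebraicClosure ℚ)) :
    IntermediateField (IsLocalRing.ResidueField A) (LaurentSeries (IsLocalRing.ResidueField A)) :=
  specField (IsLocalRing.residue A) (FH M H).val.toRingHom

include hq hqM hA in
/-- Good reduction at level `M`, with normality in the coordinates `j` and `j⁻¹`. -/
theorem goodModel_FH :
    GoodModel (IsLocalRing.residue A) (FH M H).val.toRingHom (jM M H)
        (Lvl.psiG (Lvl.GammaH M H)) ∧
      Normal A (IsLocalRing.residue A) (FH M H).val.toRingHom (jM M H) ∧
      Normal A (IsLocalRing.residue A) (FH M H).val.toRingHom (jM M H)⁻¹ := by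
  have := isAlgClosed_residue A
  exact Fermat.RED.Full.goodModel_normal_GammaH (H := H) embC IsLocalRing.residue_surjective
    (natCast_ne_zero_residue A hq hA hqM)

variable (A) in
/-- Integral functions of level `M`, and `j (q z)`. -/
def genSet : Set (FU M q H) := al M q H '' (chart A (jM M H) : Set (FH M H)) ∪ {bj M q H}

include hA in
/-- The generators have integral expansions at both cusps. -/
theorem emb_genSet (b : Bool) :
    ∀ x ∈ genSet M q H A, emb M q H hq hqM b x ∈ intSeries A := by
  rintro _ (⟨g, hg, rfl⟩ | rfl)
  · have hi := (goodModel_FH M q H hq hqM hA).1.toPreModel.int_chart g hg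
    cases b
    · obtain ⟨y, hy⟩ := hi
      refine ⟨qExpand A q y, ?_⟩
      rw [emb_false_al, ModularCurve.coeffMap_qExpand, hy]
      rfl
    · rw [emb_true_al]; exact hi
  · cases b
    · rw [emb_false_bj]; exact jqModC_mem_intSeries
    · rw [emb_true_bj]; exact X0.jb_mem q

include hq hqM hA in
/-- The functions in `genSet` generate the field of level `M q`. -/
theorem adjoin_genSet : IntermediateField.adjoin Qb (genSet M q H A) = ⊤ := by
  set E := IntermediateField.adjoin Qb (genSet M q H A)
  have hch : ∀ g ∈ chart A (jM M H), al M q H g ∈ E := fun g hg =>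
    subset_adjoin Qb _ (Or.inl ⟨g, hg, rfl⟩)
  have hp : ∀ P : Polynomial Qb, al M q H (Polynomial.aeval (jM M H) P) ∈ E := fun P => by
    rw [← Polynomial.aeval_algHom_apply]
    induction P using Polynomial.induction_on' with
    | add a b ha hb => rw [map_add]; exact add_mem ha hb
    | monomial n c =>
      rw [Polynomial.aeval_monomial]
      exact mul_mem (E.algebraMap_mem c) (pow_mem (hch _ (self_mem_chart _)) n)
  have hal : ∀ x, al M q H x ∈ E := fun x => by
    obtain ⟨y, hy, hys, -⟩ := (goodModel_FH M q H hq hqM hA).1.basis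
    obtain ⟨D, hD, G, e⟩ := hys x
    have hD0 : Polynomial.aeval (jM M H) D ≠ 0 := fun h0 =>
      hD (transcendental_iff.mp (Lvl.transcendental_jL _) D h0)
    rw [show x = (∑ i, Polynomial.aeval (jM M H) (G i) * y i) / Polynomial.aeval (jM M H) D by
      rw [← e, mul_div_cancel_left₀ _ hD0], map_div₀, map_sum]
    exact div_mem (sum_mem fun i _ => by rw [map_mul]; exact mul_mem (hp _) (hch _ (hy i))) (hp D)
  refine eq_top_iff.mpr fun x _ => ?_
  let := algebraAlong (al M q H)
  refine IntermediateField.adjoin_induction (FH M H) (p := fun y _ => y ∈ E)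
    (fun y hy => ?_) (fun c => hal c) (fun u v _ _ h h' => add_mem h h') (fun u _ h => inv_mem h)
    (fun u v _ _ h h' => mul_mem h h')
    ((adjoin_bj M q H hq hqM).ge (IntermediateField.mem_top (x := x)))
  rw [show y = bj M q H from hy]
  exact subset_adjoin Qb _ (Or.inr rfl)

include hq hqM hA in
/-- Every function is a quotient of polynomials in the generators. -/
theorem exists_eq_div (f : FU M q H) :
    ∃ P ∈ Algebra.adjoin Qb (genSet M q H A), ∃ Q ∈ Algebra.adjoin Qb (genSet M q H A),
      Q ≠ 0 ∧ f * Q = P := by
  obtain ⟨r, hr, s, hs, hrs⟩ :=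
    mem_adjoin_iff_div.mp ((adjoin_genSet M q H hq hqM hA).ge (IntermediateField.mem_top (x := f)))
  by_cases hs0 : s = 0
  · refine ⟨0, zero_mem _, 1, one_mem _, one_ne_zero, ?_⟩
    rw [hrs, hs0]
    simp
  · exact ⟨r, hr, s, hs, hs0, by rw [hrs, div_mul_cancel₀ _ hs0]⟩

/-- The coefficients of an expansion lie in a finite extension of `ℚ`. -/
theorem coeff_mem (b : Bool) (f : FU M q H) :
    ∃ L₀ : IntermediateField ℚ Qb, FiniteDimensional ℚ L₀ ∧
      ∀ n, (emb M q H hq hqM b f).coeff n ∈ L₀ := by
  cases b
  · exact X0.coeff_mem_of_fixed (atkin M q H hq hqM f)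
  · exact X0.coeff_mem_of_fixed f

include hA in
/-- A nonzero function with integral expansion has a primitive multiple. -/
theorem attained (b : Bool) (f : FU M q H) (hf0 : f ≠ 0)
    (hf : emb M q H hq hqM b f ∈ intSeries A) :
    ∃ a : Qb, emb M q H hq hqM b (a • f) ∈ intSeries A ∧
      redF (IsLocalRing.residue A) (emb M q H hq hqM b) (a • f) ≠ 0 := by
  obtain ⟨L₀, hfin, hL⟩ := coeff_mem M q H hq hqM b f
  have := hfin
  exact X0.attained_of_coeff (emb_algebraMap M q H hq hqM b) hq hA hf0 hf L₀ hL

include hA in
/-- Every function times some primitive function is integral up to a scalar. -/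
theorem denom (b : Bool) (f : FU M q H) :
    ∃ (u : FU M q H) (a : Qb), a ≠ 0 ∧ emb M q H hq hqM b u ∈ intSeries A ∧
      redF (IsLocalRing.residue A) (emb M q H hq hqM b) u ≠ 0 ∧
      emb M q H hq hqM b (a • (f * u)) ∈ intSeries A := by
  obtain ⟨P, hP, Q, hQ, hQ0, hfQ⟩ := exists_eq_div M q H hq hqM hA f
  obtain ⟨u, a, -, -, h⟩ := X0.denom_of_div (emb_algebraMap M q H hq hqM b) hq hA _
    (emb_genSet M q H hq hqM hA b) (coeff_mem M q H hq hqM b) hP hQ hQ0 hfQ
  exact ⟨u, a, h⟩

/-- The reduction of a function of level `M` with integral expansion lies in `KH`. -/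
theorem redF_mem_K (x : FH M H) (y : LaurentSeries A)
    (hy : (x : LaurentSeries Qb) = coeffMap A.subtype y) :
    coeffMap (IsLocalRing.residue A) y ∈ KH M H A := by
  have hi : (FH M H).val.toRingHom x ∈ intSeries A := ⟨y, hy.symm⟩
  have h := redF_mem_specField (IsLocalRing.residue A) (FH M H).val.toRingHom x
  rw [redF_of_mem hi] at h
  rw [← redHom_coeffMap (IsLocalRing.residue A) y ⟨y, rfl⟩]
  convert h using 2
  exact Subtype.ext hy.symm

section Reduction

variable [Fact q.Prime]

include hA in
/-- The trace reduces to the expansion at `∞`. -/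
theorem trA_reduction (f : FU M q H) (h : ∀ b, emb M q H hq hqM b f ∈ intSeries A) :
    ∃ y : LaurentSeries A,
      ((X0.trA (al M q H) f : FH M H) : LaurentSeries Qb) = coeffMap A.subtype y ∧
      coeffMap (IsLocalRing.residue A) y =
        redF (IsLocalRing.residue A) (emb M q H hq hqM true) f := by
  have := charP_residue hq hA
  obtain ⟨ζ, hζ⟩ := X0.exists_zeta q
  obtain ⟨y, hy⟩ := id (h true)
  obtain ⟨yd, hyd⟩ := id (h false)
  obtain ⟨y', h1, h2⟩ := X0.exists_reduction_of_trace (π := IsLocalRing.residue A) hζ
    (z := ((X0.trA (al M q H) f : FH M H) : LaurentSeries Qb)) (y := y) (yd := yd)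
    (by rw [hy, hyd]; exact qExpand_trA M q H hq hqM hζ f)
  refine ⟨y', h1, h2.trans ?_⟩
  rw [redF_of_mem (h true), ← redHom_coeffMap (IsLocalRing.residue A) y ⟨y, rfl⟩]
  exact congrArg _ (Subtype.ext hy)

/-- The norm reduces to the expansion at `∞` times the Frobenius of that at the other cusp. -/
theorem normA_reduction (f : FU M q H) (h : ∀ b, emb M q H hq hqM b f ∈ intSeries A)
    [CharP (IsLocalRing.ResidueField A) q] :
    ∃ y : LaurentSeries A,
      ((normAlong (al M q H) f : FH M H) : LaurentSeries Qb) = coeffMap A.subtype y ∧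
      coeffMap (IsLocalRing.residue A) y =
        redF (IsLocalRing.residue A) (emb M q H hq hqM true) f *
          coeffMap (frobenius (IsLocalRing.ResidueField A) q)
            (redF (IsLocalRing.residue A) (emb M q H hq hqM false) f) := by
  obtain ⟨ζ, hζ⟩ := X0.exists_zeta q
  obtain ⟨y, hy⟩ := id (h true)
  obtain ⟨yd, hyd⟩ := id (h false)
  obtain ⟨y', h1, h2⟩ := X0.exists_reduction_of_norm_type (π := IsLocalRing.residue A) hζ
    (z := ((normAlong (al M q H) f : FH M H) : LaurentSeries Qb)) (y := y) (yd := yd)
    (by rw [hy, hyd]; exact qExpand_norm M q H hq hqM hζ f)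
  have e : ∀ (b : Bool) (w : LaurentSeries A), coeffMap A.subtype w = emb M q H hq hqM b f →
      coeffMap (IsLocalRing.residue A) w =
        redF (IsLocalRing.residue A) (emb M q H hq hqM b) f := fun b w hw => by
    rw [redF_of_mem (h b), ← redHom_coeffMap (IsLocalRing.residue A) w ⟨w, rfl⟩]
    exact congrArg _ (Subtype.ext hw)
  exact ⟨y', h1, by rw [h2, e true y hy, e false yd hyd]⟩

/-- `j (z) - j (q z) ^ q`: it reduces to `0` on the component at `0` only. -/
def separator : FU M q H := aj M q H - bj M q H ^ q

/-- The expansion of the separator at `∞`. -/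
theorem emb_true_separator :
    emb M q H hq hqM true (separator M q H) =
      jqModC Qb - qExpand Qb q (jqModC Qb) ^ q := by
  rw [separator, map_sub, map_pow, emb_true_aj, emb_true_bj]

/-- The expansion of the separator at `0`. -/
theorem emb_false_separator :
    emb M q H hq hqM false (separator M q H) =
      qExpand Qb q (jqModC Qb) - jqModC Qb ^ q := by
  rw [separator, map_sub, map_pow, emb_false_aj, emb_false_bj]

/-- The separator has integral expansions. -/
theorem separator_int (b : Bool) : emb M q H hq hqM b (separator M q H) ∈ intSeries A := by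
  cases b
  · rw [emb_false_separator]
    exact sub_mem (X0.jb_mem q) (pow_mem jqModC_mem_intSeries q)
  · rw [emb_true_separator]
    exact sub_mem jqModC_mem_intSeries (pow_mem (X0.jb_mem q) q)

/-- The separator does not reduce to `0` at `∞`. -/
theorem redF_separator_ne :
    redF (IsLocalRing.residue A) (emb M q H hq hqM true) (separator M q H) ≠ 0 := by
  intro h0
  have : FF.IsFunctionField Qb (FN (M * q) Qb) := MC.isFunctionField_FN (M * q) embC
  refine X0.redF_separator_ne M q hq hqM (A := A) ?_
  rw [redF_of_mem (X0.separator_int M q hq hqM true)]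
  rw [redF_of_mem (separator_int M q H hq hqM true)] at h0
  refine Eq.trans (congrArg _ (Subtype.ext ?_)) h0
  change X0.emb M q hq hqM true (X0.separator M q) = emb M q H hq hqM true (separator M q H)
  rw [X0.emb_true_separator, emb_true_separator]

include hA in
/-- The reduction at `∞` of an integral expansion lies in the field of level `M`. -/
theorem redF_true_mem (f : FU M q H) (hf : emb M q H hq hqM true f ∈ intSeries A) :
    redF (IsLocalRing.residue A) (emb M q H hq hqM true) f ∈ KH M H A := by
  refine X0.redF_mem_of_polys (emb_algebraMap M q H hq hqM true) hq hA _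
    (emb_genSet M q H hq hqM hA true) (coeff_mem M q H hq hqM true)
    (exists_eq_div M q H hq hqM hA) _ (fun z hz hzi => ?_) f hf
  have hboth : ∀ w : FU M q H, (∀ b, emb M q H hq hqM b w ∈ intSeries A) →
      redF (IsLocalRing.residue A) (emb M q H hq hqM true) w ∈ KH M H A := fun w hw => by
    obtain ⟨y, h1, h2⟩ := trA_reduction M q H hq hqM hA w hw
    rw [← h2]
    exact redF_mem_K M H _ y h1
  obtain ⟨a, ha, hai⟩ := X0.bdd_adjoin (emb_algebraMap M q H hq hqM false) _
    (emb_genSet M q H hq hqM hA false) hz
  obtain ⟨w, hw⟩ := X0.exists_qExpand_jqModC_sub_pow q A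
  obtain ⟨N, hN⟩ := X0.exists_pow_mul_int (emb_algebraMap M q H hq hqM false) hq hA
    (s := separator M q H) (w := w) (by
      rw [emb_false_separator, map_natCast]
      have := congrArg (coeffMap A.subtype) hw
      simpa only [map_sub, map_pow, map_mul, map_natCast, ModularCurve.coeffMap_qExpand,
        coeffMap_subtype_jqModC] using this) ha hai
  have hs := separator_int M q H hq hqM (A := A) true
  have h1 := hboth (separator M q H ^ N * z) (fun b => by
    cases b
    · exact hN
    · rw [map_mul, map_pow]; exact mul_mem (pow_mem hs N) hzi)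
  rw [redF_mul (by rw [map_pow]; exact pow_mem hs N) hzi, redF_pow hs] at h1
  have h3 := div_mem h1 (pow_mem (hboth _ (separator_int M q H hq hqM)) N)
  rwa [mul_div_cancel_left₀ _ (pow_ne_zero N (redF_separator_ne M q H hq hqM))] at h3

include hA in
/-- The reductions at both cusps lie in the field of level `M`. -/
theorem redF_mem (b : Bool) (f : FU M q H) (hf : emb M q H hq hqM b f ∈ intSeries A) :
    redF (IsLocalRing.residue A) (emb M q H hq hqM b) f ∈ KH M H A := by
  cases b
  · have hi : emb M q H hq hqM true (atkin M q H hq hqM f) ∈ intSeries A := by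
      rw [emb_true_atkin]; exact hf
    have h := redF_true_mem M q H hq hqM hA (atkin M q H hq hqM f) hi
    rw [redF_of_mem hi] at h
    rw [redF_of_mem hf]
    exact h
  · exact redF_true_mem M q H hq hqM hA f hf

end Reduction

end Fermat.BAD.XH

end
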