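import Fermat.Agent.BAD.XH.Setup
import Fermat.Agent.JAC.XH.Gens
import Fermat.Agent.JAC.XH.SwapEmb

/-!
# The two degeneracy maps and the Hecke operators on differentials

Level `M q` over level `M`, `q` a prime not dividing `M` (`q` may be the residue characteristic).
Everything is read off from the expansions at `∞`.
-/

set_option autoImplicit false

attribute [local instance 10000] SubalgebraClass.toAlgebra HahnSeries.powerSeriesAlgebra

noncomputable section

open ModularCurve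

namespace Fermat.BAD.XH

open Fermat.MC.Lvl Fermat.JAC Fermat.JAC.XH

section Incl

variable (M q : ℕ) [NeZero M] [NeZero q] (H : Subgroup (ZMod M)ˣ) [NegMem H]
  {L : Type*} [Field L] [Algebra ℚ L] (ι : L →+* ℂ)

/-- The diamond of a unit of level `M q` read at level `M` is the action of its lift. -/
theorem diamond_lift_eq (u : (ZMod (M * q))ˣ) :
    (diamondHom H ι (ZMod.unitsMap (dvd_mul_right M q) u) :
      FL (GammaH M H) L ≃ₐ[L] FL (GammaH M H) L) =
        diamond ι ⟨_, mem_of_up q (unitLift u)⟩ := by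
  rw [← diamondHom_gamma0Units]
  refine congrArg _ (Units.ext ?_)
  have h := congrArg Units.val (gamma0Units_unitLift u)
  simp only [coe_gamma0Units] at h
  simp [ZMod.unitsMap, ← h]

/-- `α` commutes with the diamonds. -/
theorem diamond_al (u : (ZMod (M * q))ˣ) (f : FL (GammaH M H) L) :
    diamondHom (upH M H q) ι u (alphaH M H q L f) =
      alphaH M H q L (diamondHom H ι (ZMod.unitsMap (dvd_mul_right M q) u) f) := by
  rw [diamond_lift_eq M q H ι u]
  exact diamond_alphaH q ι (unitLift u) f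

/-- `β` commutes with the diamonds. -/
theorem diamond_be (u : (ZMod (M * q))ˣ) (f : FL (GammaH M H) L) :
    diamondHom (upH M H q) ι u (betaH M H q L f) =
      betaH M H q L (diamondHom H ι (ZMod.unitsMap (dvd_mul_right M q) u) f) := by
  rw [diamond_lift_eq M q H ι u]
  exact diamond_betaH q ι (unitLift u) f

end Incl

variable (M q : ℕ) [NeZero M] [NeZero q] (H : Subgroup (ZMod M)ˣ) [NegMem H]

local notation "SM" => regDiff (FL (GammaH M H) ℂ)
local notation "SK" => regDiff (FL (GammaH (M * q) (upH M H q)) ℂ)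

/-- Pullback along the forgetful map. -/
def alReg : SM →ₗ[ℂ] SK := regPull (alphaH M H q ℂ)

/-- Pullback along `z ↦ q z`. -/
def beReg : SM →ₗ[ℂ] SK := regPull (betaH M H q ℂ)

/-- The coefficients of a pullback along `α`. -/
theorem aCoeff_alReg (ω : SM) (n : ℕ) :
    aCoeff (GammaH (M * q) (upH M H q)) n (alReg M q H ω) = aCoeff (GammaH M H) n ω := by
  rw [aCoeff_apply, aCoeff_apply, alReg, coe_regPull, qdiff_diffPull, inftyEmb_incl]

/-- The coefficients of a pullback along `β`. -/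
theorem aCoeff_beReg (ω : SM) (n : ℕ) :
    aCoeff (GammaH (M * q) (upH M H q)) n (beReg M q H ω) =
      if q ∣ n then (q : ℂ) * aCoeff (GammaH M H) (n / q) ω else 0 := by
  rw [aCoeff_apply, beReg, coe_regPull, qdiff_diffPull, inftyEmb_scale, qdiff_qExpand,
    HahnSeries.coeff_smul, smul_eq_mul]
  split_ifs with h
  · obtain ⟨m, rfl⟩ := h
    rw [Nat.mul_div_cancel_left _ (NeZero.pos q), Nat.cast_mul, qExpand_coeff_mul, aCoeff_apply]
  · rw [qExpand_coeff_of_not_dvd _ _ fun hd => h (Int.natCast_dvd_natCast.mp hd), mul_zero]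

/-- The pullback along `α` commutes with the diamonds. -/
theorem diaReg_alReg (u : (ZMod (M * q))ˣ) (ω : SM) :
    diaReg (M * q) (upH M H q) u (alReg M q H ω) =
      alReg M q H (diaReg M H (ZMod.unitsMap (dvd_mul_right M q) u) ω) := by
  refine Subtype.ext (qdiff_injective (inftyEmb _) ?_)
  simp only [diaReg, alReg, coe_regPull, qdiff_diffPull]
  refine congrArg (fun e => qdiff e (ω : Ω[FL (GammaH M H) ℂ⁄ℂ])) (AlgHom.ext fun f => ?_)
  exact congrArg (inftyEmb _) (diamond_al M q H (RingHom.id ℂ) u f)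

/-- The pullback along `β` commutes with the diamonds. -/
theorem diaReg_beReg (u : (ZMod (M * q))ˣ) (ω : SM) :
    diaReg (M * q) (upH M H q) u (beReg M q H ω) =
      beReg M q H (diaReg M H (ZMod.unitsMap (dvd_mul_right M q) u) ω) := by
  refine Subtype.ext (qdiff_injective (inftyEmb _) ?_)
  simp only [diaReg, beReg, coe_regPull, qdiff_diffPull]
  refine congrArg (fun e => qdiff e (ω : Ω[FL (GammaH M H) ℂ⁄ℂ])) (AlgHom.ext fun f => ?_)
  exact congrArg (inftyEmb _) (diamond_be M q H (RingHom.id ℂ) u f)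

set_option maxRecDepth 1024 in -- headroom for the instance searches on regular differentials
/-- The coefficients of a Hecke image. -/
theorem aCoeff_corrH (N : ℕ) [NeZero N] (G : Subgroup (ZMod N)ˣ) [NegMem G] (ℓ : ℕ) [NeZero ℓ]
    (hℓ : ℓ.Prime) (n : ℕ) (ω : regDiff (FL (GammaH N G) ℂ)) :
    aCoeff (GammaH N G) n (corrH N G ℓ ω) = aCoeff (GammaH N G) (ℓ * n) ω +
      if ℓ ∣ n then (ℓ : ℂ) * aCoeff (GammaH N G) (n / ℓ) (diaOr N G ⟨ℓ, hℓ⟩ ω) else 0 := by
  have h := (heckeFormula N G).formula ⟨ℓ, hℓ⟩ n ω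
  dsimp only [heckeFormula] at h
  exact h

variable (hq : q.Prime) (hqM : ¬ q ∣ M)

include hq in
/-- The pullback along `α` commutes with the diamond of `ℓ ≠ q`, read as `0` at bad `ℓ`. -/
theorem diaOr_alReg (ℓ : ℕ) (hℓ : ℓ.Prime) (hℓq : ℓ ≠ q) (ω : SM) :
    diaOr (M * q) (upH M H q) ⟨ℓ, hℓ⟩ (alReg M q H ω) = alReg M q H (diaOr M H ⟨ℓ, hℓ⟩ ω) := by
  by_cases h : ℓ ∣ M
  · rw [diaOr, diaOr, dif_pos h, dif_pos (h.mul_right q), LinearMap.zero_apply,
      LinearMap.zero_apply, map_zero]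
  · have h' : ¬ ℓ ∣ M * q := fun hd => (hℓ.dvd_mul.mp hd).elim h
      fun e => hℓq ((Nat.prime_dvd_prime_iff_eq hℓ hq).mp e)
    rw [diaOr, diaOr, dif_neg h, dif_neg h', diaReg_alReg]
    refine congrArg (fun v => alReg M q H (diaReg M H v ω)) (Units.ext ?_)
    simp [unitOf, ZMod.unitsMap]

include hq in
/-- The pullback along `β` commutes with the diamond of `ℓ ≠ q`, read as `0` at bad `ℓ`. -/
theorem diaOr_beReg (ℓ : ℕ) (hℓ : ℓ.Prime) (hℓq : ℓ ≠ q) (ω : SM) :
    diaOr (M * q) (upH M H q) ⟨ℓ, hℓ⟩ (beReg M q H ω) = beReg M q H (diaOr M H ⟨ℓ, hℓ⟩ ω) := by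
  by_cases h : ℓ ∣ M
  · rw [diaOr, diaOr, dif_pos h, dif_pos (h.mul_right q), LinearMap.zero_apply,
      LinearMap.zero_apply, map_zero]
  · have h' : ¬ ℓ ∣ M * q := fun hd => (hℓ.dvd_mul.mp hd).elim h
      fun e => hℓq ((Nat.prime_dvd_prime_iff_eq hℓ hq).mp e)
    rw [diaOr, diaOr, dif_neg h, dif_neg h', diaReg_beReg]
    refine congrArg (fun v => beReg M q H (diaReg M H v ω)) (Units.ext ?_)
    simp [unitOf, ZMod.unitsMap]

include hq in
/-- `T_ℓ` commutes with the forgetful pullback. -/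
theorem corrH_alReg (ℓ : ℕ) [NeZero ℓ] (hℓ : ℓ.Prime) (hℓq : ℓ ≠ q) (ω : SM) :
    corrH (M * q) (upH M H q) ℓ (alReg M q H ω) = alReg M q H (corrH M H ℓ ω) := by
  refine sub_eq_zero.mp (eq_zero_of_aCoeff _ _ fun n => ?_)
  rw [map_sub, sub_eq_zero, aCoeff_corrH _ _ _ hℓ, aCoeff_alReg, aCoeff_alReg,
    aCoeff_corrH _ _ _ hℓ, diaOr_alReg M q H hq ℓ hℓ hℓq, aCoeff_alReg]

include hq in
/-- `T_ℓ` commutes with the pullback along `z ↦ q z`. -/
theorem corrH_beReg (ℓ : ℕ) [NeZero ℓ] (hℓ : ℓ.Prime) (hℓq : ℓ ≠ q) (ω : SM) :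
    corrH (M * q) (upH M H q) ℓ (beReg M q H ω) = beReg M q H (corrH M H ℓ ω) := by
  have hcop : q.Coprime ℓ := (Nat.coprime_primes hq hℓ).mpr fun e => hℓq e.symm
  refine sub_eq_zero.mp (eq_zero_of_aCoeff _ _ fun n => ?_)
  rw [map_sub, sub_eq_zero, aCoeff_corrH _ _ _ hℓ, aCoeff_beReg, aCoeff_beReg,
    diaOr_beReg M q H hq ℓ hℓ hℓq, aCoeff_beReg]
  by_cases hn : q ∣ n
  · rw [if_pos (dvd_mul_of_dvd_right hn ℓ), if_pos hn, aCoeff_corrH _ _ _ hℓ, mul_add,
      Nat.mul_div_assoc ℓ hn]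
    congr 1
    obtain ⟨m, rfl⟩ := hn
    rw [Nat.mul_div_cancel_left m (NeZero.pos q)]
    by_cases hm : ℓ ∣ m
    · obtain ⟨k, rfl⟩ := hm
      have h3 : q * (ℓ * k) / ℓ = q * k := by
        rw [mul_left_comm, Nat.mul_div_cancel_left _ hℓ.pos]
      rw [if_pos (dvd_mul_of_dvd_right (dvd_mul_right ℓ k) q), if_pos (dvd_mul_right ℓ k), h3,
        if_pos (dvd_mul_right q k), Nat.mul_div_cancel_left k (NeZero.pos q),
        Nat.mul_div_cancel_left k hℓ.pos]
      ring
    · rw [if_neg (fun hd => hm (hcop.symm.dvd_of_dvd_mul_left hd)), if_neg hm, mul_zero]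
  · rw [if_neg (fun hd => hn (hcop.dvd_of_dvd_mul_left hd)), if_neg hn, zero_add]
    by_cases hm : ℓ ∣ n
    · rw [if_pos hm, if_neg (fun hd => hn (hd.trans (Nat.div_dvd_of_dvd hm))), mul_zero]
    · rw [if_neg hm]

include hq hqM in
/-- `U_q` on the forgetful pullback. -/
theorem corrH_q_alReg (ω : SM) :
    corrH (M * q) (upH M H q) q (alReg M q H ω) =
      alReg M q H (corrH M H q ω) - beReg M q H (diaReg M H (qUnit M q hq hqM) ω) := by
  refine sub_eq_zero.mp (eq_zero_of_aCoeff _ _ fun n => ?_)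
  rw [map_sub, map_sub, sub_eq_zero, aCoeff_corrH _ _ _ hq, aCoeff_alReg, aCoeff_alReg,
    aCoeff_beReg, aCoeff_corrH _ _ _ hq, diaOr, dif_pos (dvd_mul_left q M), LinearMap.zero_apply,
    map_zero, mul_zero, ite_self, add_zero, diaOr, dif_neg hqM]
  change _ = _ + _ - if q ∣ n then (q : ℂ) * aCoeff _ (n / q)
      (diaReg M H (unitOf M hq hqM) ω) else 0
  rw [add_sub_cancel_right]

include hq in
/-- `U_q` on the pullback along `z ↦ q z`. -/
theorem corrH_q_beReg (ω : SM) :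
    corrH (M * q) (upH M H q) q (beReg M q H ω) = (q : ℂ) • alReg M q H ω := by
  refine sub_eq_zero.mp (eq_zero_of_aCoeff _ _ fun n => ?_)
  rw [map_sub, map_smul, sub_eq_zero, aCoeff_corrH _ _ _ hq, diaOr, dif_pos (dvd_mul_left q M),
    LinearMap.zero_apply, map_zero, mul_zero, ite_self, add_zero, aCoeff_beReg, aCoeff_alReg,
    if_pos (dvd_mul_right q n), Nat.mul_div_cancel_left n (NeZero.pos q), smul_eq_mul]

end Fermat.BAD.XH

end
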