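import Fermat.Agent.BAD.XH.HeckeForms
import Fermat.Agent.MC.Lvl.CuspGenus

/-!
# `U_q` plus the Atkin-Lehner operator comes from level `M`

The Atkin-Lehner automorphism extends to complex coefficients, and the trace along `z ↦ q z`
followed by the forgetful pullback is `U_q` plus that automorphism.
-/

set_option autoImplicit false
set_option linter.unusedSectionVars false

attribute [local instance 10000] SubalgebraClass.toAlgebra HahnSeries.powerSeriesAlgebra

noncomputable section

open ModularCurve

namespace Fermat.BAD.XH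

open Fermat.MC.Lvl Fermat.JAC Fermat.JAC.XH
open Fermat.JAC.X0 (embC)

local notation "Qb" => AlgebraicClosure ℚ

/-- An embedding which is a given one composed with an automorphism over the small constants
comes from an automorphism over the large ones. -/
theorem exists_algEquiv_ext {k F₀ F : Type*} [Field k] [Field F₀] [Field F] [Algebra k ℂ]
    [Algebra k F₀] [Algebra ℂ F] [Algebra F₀ F] [IsConstExt k ℂ F₀ F]
    (e g : F →ₐ[ℂ] LaurentSeries ℂ) (d₀ : F₀ ≃ₐ[k] F₀)
    (hg : ∀ f, g (algebraMap F₀ F f) = e (algebraMap F₀ F (d₀ f))) :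
    ∃ d : F ≃ₐ[ℂ] F, (∀ f, e (d f) = g f) ∧
      ∀ f, d (algebraMap F₀ F f) = algebraMap F₀ F (d₀ f) := by
  have hrange : g.fieldRange = e.fieldRange := by
    rw [AlgHom.fieldRange_eq_map, AlgHom.fieldRange_eq_map,
      ← IsConstExt.adjoin_eq_top (k := k) (K := ℂ) (F₀ := F₀) (F := F),
      IntermediateField.adjoin_map, IntermediateField.adjoin_map, ← Set.range_comp,
      ← Set.range_comp, show (g ∘ algebraMap F₀ F) = (e ∘ algebraMap F₀ F) ∘ d₀ from funext hg,
      Set.range_comp, d₀.surjective.range_eq, Set.image_univ]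
  have hmem : ∀ f, ∃ x, e x = g f := fun f =>
    AlgHom.mem_fieldRange.mp (hrange ▸ AlgHom.mem_fieldRange.mpr ⟨f, rfl⟩)
  choose D hD using hmem
  have he : Function.Injective e := fun a b h => e.toRingHom.injective h
  let d : F →ₐ[ℂ] F :=
    { toFun := D
      map_one' := he (by rw [hD, map_one, map_one])
      map_mul' := fun a b => he (by rw [hD, map_mul, map_mul, hD, hD])
      map_zero' := he (by rw [hD, map_zero, map_zero])
      map_add' := fun a b => he (by rw [hD, map_add, map_add, hD, hD])
      commutes' := fun c => he (by rw [hD, g.commutes, e.commutes]) }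
  have hsurj : Function.Surjective d := fun x => by
    obtain ⟨f, hf⟩ := AlgHom.mem_fieldRange.mp
      (hrange.symm ▸ AlgHom.mem_fieldRange.mpr ⟨x, rfl⟩ : e x ∈ g.fieldRange)
    exact ⟨f, he ((hD f).trans hf)⟩
  exact ⟨AlgEquiv.ofBijective d ⟨d.injective, hsurj⟩, hD,
    fun f => he ((hD _).trans (hg f))⟩

variable (M q : ℕ) [NeZero M] [NeZero q] [Fact q.Prime] (H : Subgroup (ZMod M)ˣ) [NegMem H]
variable (hq : q.Prime) (hqM : ¬ q ∣ M)

/-- The inverse of `dq` is the diamond at the class of `q`. -/
theorem dq_symm_apply (f : FH M H) :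
    (dq M q H hq hqM).symm f = diamondHom H embC (qUnit M q hq hqM) f := by
  refine (dq M q H hq hqM).injective ?_
  rw [AlgEquiv.apply_symm_apply, dq, ← AlgEquiv.mul_apply, ← map_mul, inv_mul_cancel, map_one,
    AlgEquiv.one_apply]

/-- The embedding at the other cusp, without the scaling. -/
def otherC (x y : ℤ) (hdet : (q : ℤ) * x - M * y = 1) :
    FL (GammaH (M * q) (upH M H q)) ℂ →ₐ[ℂ] LaurentSeries ℂ :=
  { tau _ (RingHom.id ℂ) (swapEv M H q x y hdet) (swapEv_injective M H q x y hdet) with
    commutes' := fun c => by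
      refine (qExpand ℂ q).injective ?_
      change qExpand ℂ q (tau _ (RingHom.id ℂ) _ _ (algebraMap ℂ _ c)) = _
      exact ((swapTau M H q x y hdet).commutes c).trans ((qExpandC q).commutes c).symm }

/-- `qExpand q` after `otherC` is `swapTau`. -/
theorem qExpand_otherC (x y : ℤ) (hdet : (q : ℤ) * x - M * y = 1)
    (f : FL (GammaH (M * q) (upH M H q)) ℂ) :
    qExpand ℂ q (otherC M q H x y hdet f) = swapTau M H q x y hdet f := rfl

/-- The scaling after `otherC` is `swapTau`. -/
theorem qExpandC_comp_otherC (x y : ℤ) (hdet : (q : ℤ) * x - M * y = 1) :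
    (qExpandC q).comp (otherC M q H x y hdet) = swapTau M H q x y hdet :=
  AlgHom.ext fun f => by rw [AlgHom.comp_apply, qExpandC_apply, qExpand_otherC]

/-- The other cusp is the inverse of the Atkin-Lehner automorphism followed by the cusp `∞`. -/
theorem otherC_algebraMap (x y : ℤ) (hdet : (q : ℤ) * x - M * y = 1) (f : FU M q H) :
    otherC M q H x y hdet (algebraMap (FU M q H) (FL (GammaH (M * q) (upH M H q)) ℂ) f) =
      inftyEmb (GammaH (M * q) (upH M H q)) (algebraMap (FU M q H)
        (FL (GammaH (M * q) (upH M H q)) ℂ) ((atkin M q H hq hqM).symm f)) := by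
  -- The diamond of the swap matrix is that of the unit `q`.
  have hsw : diamond (RingHom.id ℂ) ⟨_, swapMat_mem M q x y hdet⟩ =
      diaC M H (qUnit M q hq hqM) := by
    rw [diaC, ← diamondHom_gamma0Units]
    refine congrArg _ (Units.ext ?_)
    rw [coe_gamma0Units, ZMod.coe_unitOfCoprime]
    simp [swapMat]
  -- Both sides agree on the functions of level `M`.
  have hal : ∀ f : FH M H, otherC M q H x y hdet
      (algebraMap (FU M q H) (FL (GammaH (M * q) (upH M H q)) ℂ) (al M q H f)) =
        inftyEmb (GammaH (M * q) (upH M H q)) (algebraMap (FU M q H)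
          (FL (GammaH (M * q) (upH M H q)) ℂ) ((atkin M q H hq hqM).symm (al M q H f))) := by
    intro f
    have e1 : (atkin M q H hq hqM).symm (al M q H f) =
        be M q H (diamondHom H embC (qUnit M q hq hqM) f) := by
      refine (AlgEquiv.symm_apply_eq _).mpr ?_
      rw [atkin_be, ← dq_symm_apply M q H hq hqM, AlgEquiv.apply_symm_apply]
    rw [e1]
    refine (qExpand ℂ q).injective ?_
    rw [qExpand_otherC, ← inclFL_lbc (up_le M H q),
      show swapTau M H q x y hdet (inclFL ℂ (up_le M H q) _) = _ from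
        DFunLike.congr_fun (swapTau_alpha M H q x y hdet) _,
      AlgHom.comp_apply, AlgHom.comp_apply, qExpandC_apply, ← scaleFL_lbc (scaleLe_up M H q),
      show inftyEmb (GammaH (M * q) (upH M H q)) (scaleFL ℂ (scaleLe_up M H q) _) = _ from
        DFunLike.congr_fun (inftyEmb_scale (scaleLe_up M H q)) _,
      AlgHom.comp_apply, qExpandC_apply, qExpand_qExpand]
    refine congrArg (fun z => qExpand ℂ (q * q) (inftyEmb (GammaH M H) z)) ?_
    change diamond (RingHom.id ℂ) _ _ = _
    rw [hsw]
    exact diamond_lbc (unitLift (qUnit M q hq hqM)) f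
  -- These and `bj` generate the field, and both sides agree on `bj` too.
  refine XH.ringHom_ext M q H hq hqM
    (φ := (otherC M q H x y hdet).toRingHom.comp
      (algebraMap (FU M q H) (FL (GammaH (M * q) (upH M H q)) ℂ)))
    (ψ := ((inftyEmb (GammaH (M * q) (upH M H q))).toRingHom.comp
      (algebraMap (FU M q H) (FL (GammaH (M * q) (upH M H q)) ℂ))).comp
      ((atkin M q H hq hqM).symm : FU M q H →+* FU M q H)) hal ?_ f
  change otherC M q H x y hdet (algebraMap _ _ (bj M q H)) =
    inftyEmb _ (algebraMap _ _ ((atkin M q H hq hqM).symm (bj M q H)))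
  rw [show (atkin M q H hq hqM).symm (bj M q H) = aj M q H from
    (AlgEquiv.symm_apply_eq _).mpr (atkin_aj M q H hq hqM).symm, bj, aj]
  refine (qExpand ℂ q).injective ?_
  rw [qExpand_otherC, ← scaleFL_lbc (scaleLe_up M H q),
    show swapTau M H q x y hdet (scaleFL ℂ (scaleLe_up M H q) _) = _ from
      DFunLike.congr_fun (swapTau_beta M H q x y hdet) _,
    AlgHom.comp_apply, qExpandC_apply, ← inclFL_lbc (up_le M H q)]
  refine congrArg (qExpand ℂ q) (Eq.symm ?_)
  rw [← AlgHom.comp_apply, inftyEmb_incl]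

local notation "SK" => regDiff (FL (GammaH (M * q) (upH M H q)) ℂ)

include hq hqM in
/-- The Atkin-Lehner automorphism with complex coefficients, and `U_q` plus it. -/
theorem exists_atkinC :
    ∃ d : FL (GammaH (M * q) (upH M H q)) ℂ ≃ₐ[ℂ] FL (GammaH (M * q) (upH M H q)) ℂ,
      (∀ f : FU M q H, d (algebraMap (FU M q H) (FL (GammaH (M * q) (upH M H q)) ℂ) f) =
        algebraMap (FU M q H) (FL (GammaH (M * q) (upH M H q)) ℂ) (atkin M q H hq hqM f)) ∧
      ∀ ω : SK, alReg M q H (regTrace (betaH M H q ℂ) ω) =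
        corrH (M * q) (upH M H q) q ω + regPull d.symm.toAlgHom ω := by
  obtain ⟨x, z, hxz⟩ : IsCoprime (q : ℤ) (M : ℤ) :=
    Int.isCoprime_iff_nat_coprime.mpr (by simpa using hq.coprime_iff_not_dvd.mpr hqM)
  have hdet : (q : ℤ) * x - M * (-z) = 1 := by linear_combination hxz
  -- extend the involution to complex coefficients
  obtain ⟨d', hd', hd0⟩ := exists_algEquiv_ext (k := Qb) (F₀ := FU M q H)
    (inftyEmb (GammaH (M * q) (upH M H q))) (otherC M q H x (-z) hdet)
    (atkin M q H hq hqM).symm (otherC_algebraMap M q H hq hqM x (-z) hdet)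
  refine ⟨d'.symm, fun f => ?_, fun ω => ?_⟩
  · rw [AlgEquiv.symm_apply_eq, hd0, AlgEquiv.symm_apply_apply]
  rw [AlgEquiv.symm_symm]
  set e := inftyEmb (GammaH (M * q) (upH M H q))
  obtain ⟨u, hu⟩ := X0.exists_zetaUnit q
  -- The embeddings over `β`: the `q` twists of `∞` and the other cusp; read off coefficients.
  let σ : Option (Fin q) → (FL (GammaH (M * q) (upH M H q)) ℂ →ₐ[ℂ] LaurentSeries ℂ) := fun o =>
    o.elim (swapTau M H q x (-z) hdet) fun i => (twistC (u ^ (i : ℕ))).comp e
  have hβ : e.comp (betaH M H q ℂ) = (qExpandC q).comp (inftyEmb (GammaH M H)) :=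
    inftyEmb_scale (scaleLe_up M H q)
  have hy : (e (alphaH M H q ℂ (jL (GammaH M H) ℂ))).coeff (-1 : ℤ) ≠ 0 := by
    rw [← AlgHom.comp_apply, inftyEmb_incl]
    exact coeff_jL_ne_zero _
  have hne : ∀ i : Fin q, (twistC (u ^ (i : ℕ))).comp e ≠ swapTau M H q x (-z) hdet := fun i h => by
    have h1 := congrArg (fun z => z.coeff (-1 : ℤ))
      (DFunLike.congr_fun h (alphaH M H q ℂ (jL (GammaH M H) ℂ)))
    simp only [AlgHom.comp_apply, twistC_apply, RED.twist_coeff] at h1
    rw [show swapTau M H q x (-z) hdet (alphaH M H q ℂ (jL (GammaH M H) ℂ)) = _ from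
      DFunLike.congr_fun (swapTau_alpha M H q x (-z) hdet) _, AlgHom.comp_apply, qExpandC_apply,
      qExpand_coeff_of_not_dvd] at h1
    · exact hy ((mul_eq_zero.mp h1).resolve_left (Units.ne_zero _))
    · intro hd
      have h2 := Int.natCast_dvd.mp hd
      simp only [Int.natAbs_neg, Int.natAbs_one, Nat.dvd_one] at h2
      exact hq.ne_one (Nat.eq_one_of_mul_eq_one_right h2)
  -- the other embedding and the twists are the `q + 1` places over infinity
  have hinj : Function.Injective σ := by
    rintro (_ | i) (_ | j) h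
    · rfl
    · exact absurd h.symm (hne j)
    · exact absurd h (hne i)
    · exact congrArg some (twist_comp_injective hu hy h)
  have hσ : ∀ o w, σ o (betaH M H q ℂ w) = ((qExpandC q).comp (inftyEmb (GammaH M H))) w := by
    rintro (_ | i) w
    · exact DFunLike.congr_fun (swapTau_beta M H q x (-z) hdet) w
    · exact twist_comp_beta hβ hu i w
  refine sub_eq_zero.mp (eq_zero_of_aCoeff _ _ fun n => ?_)
  rw [map_sub, map_add, sub_eq_zero, aCoeff_alReg, aCoeff_corrH _ _ _ hq, diaOr,
    dif_pos (dvd_mul_left q M), LinearMap.zero_apply, map_zero, mul_zero, ite_self, add_zero,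
    aCoeff_apply, aCoeff_apply, aCoeff_apply, coe_regTrace, coe_regPull, qdiff_diffPull,
    show e.comp d'.toAlgHom = otherC M q H x (-z) hdet from AlgHom.ext hd', Nat.cast_mul]
  have hsum := sum_twist_coeff (e := e) (α := AlgHom.id ℂ _) (AlgHom.comp_id _) hu
    (ω : Ω[FL (GammaH (M * q) (upH M H q)) ℂ⁄ℂ]) (n : ℤ)
  simp only [qdiff_diffPull, AlgHom.comp_id] at hsum
  -- compare the coefficients of the trace
  have key := congrArg (fun z => z.coeff ((q : ℤ) * n))
    (qdiff_diffTr (betaH M H q ℂ) ((qExpandC q).comp (inftyEmb (GammaH M H))) σ hσ hinj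
      (by rw [Fintype.card_option, Fintype.card_fin, finrankAlong_betaH M H q hq, if_neg hqM])
      (ω : Ω[FL (GammaH (M * q) (upH M H q)) ℂ⁄ℂ]))
  simp only [Fintype.sum_option, HahnSeries.coeff_add, σ, Option.elim] at key
  rw [hsum, qdiff_qExpand, ← qExpandC_comp_otherC, qdiff_qExpand, HahnSeries.coeff_smul,
    HahnSeries.coeff_smul, qExpand_coeff_mul, qExpand_coeff_mul, smul_eq_mul, smul_eq_mul] at key
  exact mul_left_cancel₀ (Nat.cast_ne_zero.mpr hq.ne_zero) (key.trans (by ring))

end Fermat.BAD.XH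

end
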