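import Fermat.Agent.BAD.XH.Sym
import Fermat.Agent.BAD.X0.Norm

/-!
# Reductions of functions with principal pushforward

`exists_pow_red`: if the norm of `y` to level `M` is a constant times an `n`-th power, so is
`ρ∞ * frob ρ0` for the reductions `ρ` of primitive multiples of `y`. So classes killed by both
pushforwards have the power reductions which `Torsion` feeds to the engine.
-/

set_option autoImplicit false

attribute [local instance 10000] SubalgebraClass.toAlgebra HahnSeries.powerSeriesAlgebra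

noncomputable section

open ModularCurve

namespace Fermat.BAD.XH

open Fermat.FF Fermat.MC Fermat.JAC Fermat.RED Fermat.RED.Model

local notation "Qb" => AlgebraicClosure ℚ

section Generic

/-- Primitive multiples of a quotient have proportional reductions. -/
theorem red_smul_of_quot {L : Type*} [Field L] [IsAlgClosed L] {B : ValuationSubring L}
    {k : Type*} [Field k] [IsAlgClosed k] {F : Type*} [Field F] [Algebra L F] {π : B →+* k}
    {ι : Bool → F →+* LaurentSeries L} {K : IntermediateField k (LaurentSeries k)}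
    [FF.IsFunctionField L F] [FF.IsFunctionField k K] (X : Fermat.BAD.Degen π ι K) (b : Bool)
    {y P Q : F} (hyQ : y * Q = P) {lP lQ : L} {wP wQ : LaurentSeries B} (hlP : lP ≠ 0)
    (hlQ : lQ ≠ 0) (heP : ι b P = algebraMap L (LaurentSeries L) lP * coeffMap B.subtype wP)
    (heQ : ι b Q = algebraMap L (LaurentSeries L) lQ * coeffMap B.subtype wQ)
    (hwP : coeffMap π wP ≠ 0) (hwQ : coeffMap π wQ ≠ 0) {t : L} (ht : X.Prim b (t • y)) :
    ∃ s : k, s ≠ 0 ∧ ((X.red b (t • y) : K) : LaurentSeries k) =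
      algebraMap k (LaurentSeries k) s * (coeffMap π wP / coeffMap π wQ) := by
  -- normalise `P` and `Q`
  have hsc : ∀ {l : L} {w : LaurentSeries B} {g : F}, l ≠ 0 →
      ι b g = algebraMap L (LaurentSeries L) l * coeffMap B.subtype w →
      ι b (l⁻¹ • g) ∈ intSeries B ∧ redF π (ι b) (l⁻¹ • g) = coeffMap π w := by
    intro l w g hl he
    have e : ι b (l⁻¹ • g) = coeffMap B.subtype w := by
      rw [Algebra.smul_def, map_mul, X.ι_algebraMap, he, ← mul_assoc, ← map_mul,
        inv_mul_cancel₀ hl, map_one, one_mul]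
    refine ⟨e ▸ ⟨w, rfl⟩, ?_⟩
    rw [redF_of_mem (show ι b (l⁻¹ • g) ∈ intSeries B from e ▸ ⟨w, rfl⟩),
      ← redHom_coeffMap π w ⟨w, rfl⟩]
    exact congrArg _ (Subtype.ext e)
  obtain ⟨hPi, hPr⟩ := hsc hlP heP
  obtain ⟨hQi, hQr⟩ := hsc hlQ heQ
  -- their quotient is primitive with reduction `wP / wQ`
  have hq' : IsGQuot π (ι b) ((lQ / lP) • y) (lP⁻¹ • P) (lQ⁻¹ • Q) := by
    refine ⟨hPi, hQi, by rw [hQr]; exact hwQ, ?_⟩
    rw [← hyQ, Algebra.smul_def, Algebra.smul_def, Algebra.smul_def, map_div₀, map_inv₀, map_inv₀]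
    field_simp [(_root_.map_ne_zero (algebraMap L F)).mpr hlP,
      (_root_.map_ne_zero (algebraMap L F)).mpr hlQ]
  have hr : ((X.red b ((lQ / lP) • y) : K) : LaurentSeries k) = coeffMap π wP / coeffMap π wQ := by
    rw [Degen.coe_red, hq'.gRed_eq, hPr, hQr]
  have hfp : X.Prim b ((lQ / lP) • y) := ⟨hq'.mem, fun h0 =>
    div_ne_zero hwP hwQ (hr.symm.trans (congrArg Subtype.val h0))⟩
  -- and `t • y` is a unit multiple of it
  set s := t * lP / lQ with hsdef
  have hs : s • ((lQ / lP) • y) = t • y := by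
    rw [smul_smul]
    congr 1
    rw [hsdef]
    field_simp
  have hsA : s ∈ B := hfp.mem_of_smul (by rw [hs]; exact ht.1)
  have e : X.red b (t • y) = π ⟨s, hsA⟩ • X.red b ((lQ / lP) • y) :=
    (congrArg (X.red b) hs.symm).trans (X.red_smul ⟨s, hsA⟩ hfp.1)
  refine ⟨π ⟨s, hsA⟩, fun h0 => ht.2 ?_, ?_⟩
  · rw [e, h0, zero_smul]
  · rw [e, Algebra.smul_def, MulMemClass.coe_mul, hr]
    rfl

/-- If `HP = c h ^ n HQ`, the quotient of the reductions of `HP` and `HQ` is a constant times the
`n`-th power of that of `h`. -/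
theorem red_of_norm_eq {B : ValuationSubring (AlgebraicClosure ℚ)} {YP YQ N D : LaurentSeries B}
    {HP HQ Hh : LaurentSeries Qb} {n : ℕ} {α β c c' : Qb} (hα : α ≠ 0) (hc' : c' ≠ 0)
    (hP : HP = algebraMap Qb (LaurentSeries Qb) α * coeffMap B.subtype YP)
    (hQ : HQ = algebraMap Qb (LaurentSeries Qb) β * coeffMap B.subtype YQ)
    (hh : algebraMap Qb (LaurentSeries Qb) c' * Hh * coeffMap B.subtype D = coeffMap B.subtype N)
    (hnorm : algebraMap Qb (LaurentSeries Qb) c * Hh ^ n * HQ = HP)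
    (hP0 : coeffMap (IsLocalRing.residue B) YP ≠ 0) (hQ0 : coeffMap (IsLocalRing.residue B) YQ ≠ 0)
    (hN0 : coeffMap (IsLocalRing.residue B) N ≠ 0) (hD0 : coeffMap (IsLocalRing.residue B) D ≠ 0) :
    ∃ e : IsLocalRing.ResidueField B, e ≠ 0 ∧
      coeffMap (IsLocalRing.residue B) YP / coeffMap (IsLocalRing.residue B) YQ =
        algebraMap _ _ e *
          (coeffMap (IsLocalRing.residue B) N / coeffMap (IsLocalRing.residue B) D) ^ n := by
  have hprop : coeffMap B.subtype (YP * D ^ n) =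
      algebraMap Qb (LaurentSeries Qb) (c * β * (α * c' ^ n)⁻¹) *
        coeffMap B.subtype (YQ * N ^ n) := by
    rw [map_mul (coeffMap B.subtype) YP, map_mul (coeffMap B.subtype) YQ, map_pow, map_pow, ← hh]
    rw [hP, hQ] at hnorm
    have hαc : algebraMap Qb (LaurentSeries Qb) α * algebraMap Qb (LaurentSeries Qb) c' ^ n *
        algebraMap Qb (LaurentSeries Qb) (c * β * (α * c' ^ n)⁻¹) =
          algebraMap Qb (LaurentSeries Qb) c * algebraMap Qb (LaurentSeries Qb) β := by
      rw [← map_pow, ← map_mul, ← map_mul, ← map_mul]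
      congr 1
      field_simp
    refine mul_left_cancel₀ ((_root_.map_ne_zero (algebraMap Qb (LaurentSeries Qb))).mpr hα) ?_
    linear_combination (-(coeffMap B.subtype D ^ n)) * hnorm -
      (coeffMap B.subtype YQ * coeffMap B.subtype D ^ n * Hh ^ n) * hαc
  obtain ⟨e, he0, he⟩ := X0.exists_red_proportional hprop
    (by rw [map_mul, map_pow]; exact mul_ne_zero hP0 (pow_ne_zero _ hD0))
    (by rw [map_mul, map_pow]; exact mul_ne_zero hQ0 (pow_ne_zero _ hN0))
  rw [map_mul, map_mul, map_pow, map_pow] at he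
  refine ⟨e, he0, ?_⟩
  rw [div_pow, ← mul_div_assoc, div_eq_div_iff hQ0 (pow_ne_zero _ hD0), he]
  ring

/-- A product equal to a constant times an `n`-th power is an `n`-th power in the reduced field. -/
theorem exists_root {k : Type*} [Field k] [IsAlgClosed k]
    {K : IntermediateField k (LaurentSeries k)} {n : ℕ} (hn : n ≠ 0) {u v zN zD : K} {d : k}
    (h : ((u * v : K) : LaurentSeries k) =
      algebraMap k (LaurentSeries k) d * ((zN : LaurentSeries k) / zD) ^ n) :
    ∃ w : K, u * v = w ^ n := by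
  obtain ⟨r, hr⟩ := IsAlgClosed.exists_pow_nat_eq d (Nat.pos_of_ne_zero hn)
  refine ⟨algebraMap k K r * (zN / zD), Subtype.ext ?_⟩
  rw [h, ← hr, map_pow]
  change _ = (algebraMap k (LaurentSeries k) r * ((zN : LaurentSeries k) / zD)) ^ n
  rw [mul_pow]

end Generic

variable (M q : ℕ) [NeZero M] [NeZero q] [Fact q.Prime] (H : Subgroup (ZMod M)ˣ) [Lvl.NegMem H]
variable (hq : q.Prime) (hqM : ¬ q ∣ M)
variable {A : ValuationSubring (AlgebraicClosure ℚ)} (hA : A.LiesOverPrime q)
  [IsAlgClosed (IsLocalRing.ResidueField A)] [CharP (IsLocalRing.ResidueField A) q]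
  [FF.IsFunctionField (IsLocalRing.ResidueField A) (KH M H A)]

local notation "kA" => IsLocalRing.ResidueField A

variable (hν2 : Lvl.nuTwoG (Lvl.GammaH M H) = 0) (hν3 : Lvl.nuThreeG (Lvl.GammaH M H) = 0)

include hA in
/-- If the norm is a constant times an `n`-th power, so is the product of the reductions. -/
theorem exists_pow_red {n : ℕ} (hn : n ≠ 0) {y : FU M q H} (hy : y ≠ 0) {h : FH M H} (hh : h ≠ 0)
    {c : Qb}
    (hN : normAlong (al M q H) y = algebraMap Qb (FH M H) c * h ^ n) (t : Bool → Qb)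
    (ht : ∀ b, (degen M q H hq hqM hA hν2 hν3).Prim b (t b • y)) :
    ∃ w : KH M H A, (degen M q H hq hqM hA hν2 hν3).red true (t true • y) *
      (frobAut M q H hq hA • (degen M q H hq hqM hA hν2 hν3).red false (t false • y)) = w ^ n := by
  set X := degen M q H hq hqM hA hν2 hν3
  have hreg : ∀ x ∈ Algebra.adjoin Qb (genSet M q H A), x ∈ intClosure Qb (aj M q H) :=
    fun _ => mem_intClosure_of_mem_adjoin_genSet M q H hq hqM
  -- Write `y = P / Q`; the norms of `P` and `Q` reduce to the products of the reductions.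
  obtain ⟨P, hP, Q, hQ, hQ0, hyQ⟩ := exists_eq_div M q H hq hqM hA y
  have hP0 : P ≠ 0 := by rw [← hyQ]; exact mul_ne_zero hy hQ0
  choose lP wP hlP heP hwP using fun b =>
    exists_prim_series M q H hq hqM hA b (hreg _ hP) hP0
  choose lQ wQ hlQ heQ hwQ using fun b =>
    exists_prim_series M q H hq hqM hA b (hreg _ hQ) hQ0
  obtain ⟨YP, hYP, hYPr⟩ := exists_norm_series M q H hq hqM P lP hlP wP heP
  obtain ⟨YQ, hYQ, hYQr⟩ := exists_norm_series M q H hq hqM Q lQ hlQ wQ heQ
  obtain ⟨s₁, hs₁, hr₁⟩ := red_smul_of_quot X true hyQ (hlP true) (hlQ true) (heP true) (heQ true)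
    (hwP true) (hwQ true) (ht true)
  obtain ⟨s₀, hs₀, hr₀⟩ := red_smul_of_quot X false hyQ (hlP false) (hlQ false) (heP false)
    (heQ false) (hwP false) (hwQ false) (ht false)
  have hne : al M q H h ≠ 0 := (map_ne_zero_iff _ (al M q H).injective).mpr hh
  obtain ⟨c', hc', hp'⟩ := X.exists_smul_prim true hne
  obtain ⟨⟨Nf, Df, hND⟩, hp0⟩ := hp'
  obtain ⟨hNi, hDi, hD0, heq⟩ := id hND
  have hN0 : redF (IsLocalRing.residue A) (emb M q H hq hqM true) Nf ≠ 0 := fun h0 => hp0 (by
    refine Subtype.ext ?_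
    rw [Degen.coe_red, hND.gRed_eq, h0, zero_div]
    rfl)
  obtain ⟨N, hNs⟩ := id hNi
  obtain ⟨D, hDs⟩ := id hDi
  have hred : ∀ {g : FU M q H} {w : LaurentSeries A} (hi : emb M q H hq hqM true g ∈ intSeries A),
      coeffMap A.subtype w = emb M q H hq hqM true g →
      coeffMap (IsLocalRing.residue A) w =
        redF (IsLocalRing.residue A) (emb M q H hq hqM true) g := fun {g w} hi hw => by
    rw [redF_of_mem hi, ← redHom_coeffMap (IsLocalRing.residue A) w ⟨w, rfl⟩]
    exact congrArg _ (Subtype.ext hw)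
  have hh' : algebraMap Qb (LaurentSeries Qb) c' * (h : LaurentSeries Qb) * coeffMap A.subtype D =
      coeffMap A.subtype N := by
    rw [hDs, hNs, ← heq, map_mul, X0.emb_smul (emb_algebraMap M q H hq hqM true), emb_true_al]
  have hnorm : algebraMap Qb (LaurentSeries Qb) c * (h : LaurentSeries Qb) ^ n *
      (normAlong (al M q H) Q : LaurentSeries Qb) =
        (normAlong (al M q H) P : LaurentSeries Qb) := by
    rw [← hyQ, map_mul, hN, MulMemClass.coe_mul, MulMemClass.coe_mul, SubmonoidClass.coe_pow]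
    rfl
  have hinj := coeffMap_injective (frobenius kA q) (frobenius_inj kA q)
  -- reduce the norm equation
  obtain ⟨e, -, he⟩ := red_of_norm_eq (mul_ne_zero (hlP true) (pow_ne_zero _ (hlP false))) hc' hYP
    hYQ hh' hnorm
    (by rw [hYPr]; exact mul_ne_zero (hwP true) ((map_ne_zero_iff _ hinj).mpr (hwP false)))
    (by rw [hYQr]; exact mul_ne_zero (hwQ true) ((map_ne_zero_iff _ hinj).mpr (hwQ false)))
    (by rw [hred hNi hNs]; exact hN0) (by rw [hred hDi hDs]; exact hD0)
  rw [hred hNi hNs, hred hDi hDs, hYPr, hYQr] at he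
  refine exists_root hn (d := s₁ * frobenius kA q s₀ * e)
    (zN := ⟨_, redF_true_mem M q H hq hqM hA Nf hNi⟩)
    (zD := ⟨_, redF_true_mem M q H hq hqM hA Df hDi⟩) ?_
  rw [MulMemClass.coe_mul, coe_frobAut_smul, hr₁, hr₀, map_mul (coeffMap (frobenius kA q)),
    algebraMap_laurentSeries_eq_single kA s₀, coeffMap_single,
    ← algebraMap_laurentSeries_eq_single, map_div₀, mul_mul_mul_comm, div_mul_div_comm, he,
    ← map_mul, ← mul_assoc, ← map_mul]

end Fermat.BAD.XH

end
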