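import Fermat.Agent.BAD.XH.Model
import Fermat.Agent.BAD.X0.Regular

/-!
# Functions on `X_H(M q)` with poles at the cusps only

They have bounded expansions; if both expansions are integral, so are those of the image under
the square of the Atkin-Lehner operator; the reductions have bounded poles
(`redF_mem_riemannRochSpace`), as the fields of the `Degen` in `BAD/XH/Degen` require.
-/

set_option autoImplicit false

attribute [local instance 10000] SubalgebraClass.toAlgebra HahnSeries.powerSeriesAlgebra

noncomputable section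

open ModularCurve AlgebraicCurve

namespace Fermat.BAD.XH

open Fermat.BAD.X0
open Fermat.FF Fermat.MC Fermat.JAC Fermat.RED Fermat.RED.Model

local notation "Qb" => AlgebraicClosure ℚ

variable (M q : ℕ) [NeZero M] [NeZero q] (H : Subgroup (ZMod M)ˣ) [Lvl.NegMem H]
variable (hq : q.Prime) (hqM : ¬ q ∣ M)

/-- `j` is transcendental at level `M`. -/
theorem transcendental_jM : Transcendental Qb (jM M H) := Lvl.transcendental_jL _

/-- `j (z)` is transcendental. -/
theorem transcendental_aj : Transcendental Qb (aj M q H) :=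
  X0.transcendental_map _ (transcendental_jM M H)

/-- `j (q z)` is transcendental. -/
theorem transcendental_bj : Transcendental Qb (bj M q H) :=
  X0.transcendental_map _ (transcendental_jM M H)

section Modular

variable [Fact q.Prime]

/-- `Φ (j (z), Y)`. -/
def modA : Polynomial (FU M q H) := (levelOne q).Φ.map (ev (aj M q H))

include hq hqM in
/-- The modular equation holds between `j (z)` and `j (q z)`. -/
theorem eval_modA : (modA M q H).eval (bj M q H) = 0 := by
  obtain ⟨ζ, hζ⟩ := X0.exists_zeta q
  refine (emb M q H hq hqM true).injective ?_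
  rw [map_zero, modA, map_eval_ev, emb_true_aj, emb_true_bj, ← jb_one q]
  have := eval_modular_self_mul (p := q) (k := Qb) (IsPrimitiveRoot.coe_units_iff.mp hζ) 1
  simp only [mul_one, jb_one 1, qExpand_one_apply] at this
  exact this

include hq hqM in
/-- The poles of `j (q z)` are at most `q` times those of `j (z)`. -/
theorem poleDiv_bj_le (v : Place Qb (FU M q H)) :
    poleDiv Qb (bj M q H) v ≤ q * poleDiv Qb (aj M q H) v := by
  exact X0.poleDiv_le_of_modular q (eval_modA M q H hq hqM) v

include hq hqM in
/-- The poles of `j (z)` are at most `q` times those of `j (q z)`. -/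
theorem poleDiv_aj_le (v : Place Qb (FU M q H)) :
    poleDiv Qb (aj M q H) v ≤ q * poleDiv Qb (bj M q H) v := by
  refine X0.poleDiv_le_of_modular q ?_ v
  have h := congrArg (atkin M q H hq hqM).toAlgHom.toRingHom (eval_modA M q H hq hqM)
  rw [map_zero, modA, map_eval_ev] at h
  rw [← atkin_aj M q H hq hqM, ← atkin_bj M q H hq hqM]
  simpa only [atkin_aj, atkin_bj, AlgHom.toRingHom_eq_coe,
    RingHom.coe_coe, AlgEquiv.coe_toAlgHom] using h

include hq hqM in
/-- `j (q z)` is integral over `Qb[j (z)]`. -/
theorem bj_mem_intClosure : bj M q H ∈ intClosure Qb (aj M q H) :=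
  mem_intClosure_of_poleDiv_le (transcendental_aj M q H) (poleDiv_bj_le M q H hq hqM)

include hq hqM in
/-- The image under `W` of a function regular away from the cusps is regular away from them. -/
theorem atkin_mem_intClosure {f : FU M q H} (hf : f ∈ intClosure Qb (aj M q H)) :
    atkin M q H hq hqM f ∈ intClosure Qb (aj M q H) := by
  have h := map_mem_intClosure (atkin M q H hq hqM).toAlgHom hf
  simp only [AlgEquiv.coe_toAlgHom, atkin_aj] at h
  exact mem_intClosure_trans
    (bj_mem_intClosure M q H hq hqM) h

end Modular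

/-- The poles of `j (z)` and of `j (q z)`. -/
def A0 : Divisor Qb (FU M q H) := poleDiv Qb (aj M q H) + poleDiv Qb (bj M q H)

/-- `A0` is effective. -/
theorem A0_nonneg : 0 ≤ A0 M q H := fun v => by
  simp only [A0, Finsupp.add_apply, poleDiv_apply, Finsupp.coe_zero, Pi.zero_apply]
  exact add_nonneg (le_max_right _ _) (le_max_right _ _)

section Generic

/-- A change of coefficients on a constant series. -/
theorem coeffMap_C {R : Type*} [CommRing R] (φ : R →+* Qb) (a : R) :
    coeffMap φ (HahnSeries.C a) = algebraMap Qb (LaurentSeries Qb) (φ a) := by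
  rw [HahnSeries.C_apply, coeffMap_single, algebraMap_laurentSeries_eq_single]

variable {A : ValuationSubring (AlgebraicClosure ℚ)}

/-- Translating by `0` or `1` makes every scale at least one. -/
theorem exists_translate_series (l : Bool → Qb) (y : Bool → LaurentSeries A)
    (hl : ∀ b', l b' ≠ 0) (hy : ∀ b', coeffMap (IsLocalRing.residue A) (y b') ≠ 0) {b : Bool}
    (hlb : l b ∉ A) :
    ∃ c : A, ∀ b', ∃ (l' : Qb) (y' : LaurentSeries A), l' ≠ 0 ∧ l'⁻¹ ∈ A ∧
      algebraMap Qb (LaurentSeries Qb) (l b') * coeffMap A.subtype (y b') -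
          algebraMap Qb (LaurentSeries Qb) (c : Qb) =
        algebraMap Qb (LaurentSeries Qb) l' * coeffMap A.subtype y' ∧
      coeffMap (IsLocalRing.residue A) y' ≠ 0 ∧ (b' = b → l' ∉ A) := by
  set C : A →+* LaurentSeries A := HahnSeries.C
  set Ck : IsLocalRing.ResidueField A →+* LaurentSeries (IsLocalRing.ResidueField A) :=
    HahnSeries.C
  have hC : ∀ a : A, coeffMap A.subtype (C a) = algebraMap Qb (LaurentSeries Qb) (a : Qb) :=
    fun a => coeffMap_C A.subtype a
  have hCk : ∀ a : A, coeffMap (IsLocalRing.residue A) (C a) = Ck (IsLocalRing.residue A a) :=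
    fun a => coeffMap_single _ 0 a
  -- only `!b` can have an integral scale
  have hne : ∀ {b'}, l b' ∈ A → b' = !b := fun {b'} h => by
    cases b' <;> cases b
    exacts [absurd h hlb, rfl, rfl, absurd h hlb]
  -- choose `c` as `0` or `1`, not cancelling the reduction there
  obtain ⟨c, hc⟩ : ∃ c : A, ∀ b' (h : l b' ∈ A), Ck (IsLocalRing.residue A ⟨_, h⟩) *
      coeffMap (IsLocalRing.residue A) (y b') ≠ Ck (IsLocalRing.residue A c) := by
    by_cases h : ∃ h : l (!b) ∈ A, Ck (IsLocalRing.residue A ⟨_, h⟩) *
        coeffMap (IsLocalRing.residue A) (y (!b)) = 0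
    · obtain ⟨h, h1⟩ := h
      refine ⟨1, fun b' h' => ?_⟩
      obtain rfl := hne h'
      rw [h1, map_one, map_one]
      exact zero_ne_one
    · refine ⟨0, fun b' h' e => h ?_⟩
      obtain rfl := hne h'
      exact ⟨h', by rw [e, map_zero, map_zero]⟩
  refine ⟨c, fun b' => ?_⟩
  by_cases h : l b' ∈ A
  -- an integral scale becomes one
  · refine ⟨1, C ⟨_, h⟩ * y b' - C c, one_ne_zero, by rw [inv_one]; exact one_mem A, ?_, ?_,
      fun e => absurd (e ▸ h) hlb⟩
    · rw [map_one, one_mul, map_sub, map_mul, hC, hC]
    · rw [map_sub, map_mul, hCk, hCk]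
      exact sub_ne_zero.mpr (hc b' h)
  -- the others are unchanged
  · have hinv : (l b')⁻¹ ∈ A := (A.mem_or_inv_mem _).resolve_left h
    refine ⟨l b', y b' - C (c * ⟨_, hinv⟩), hl b', hinv, ?_, ?_, fun _ => h⟩
    · rw [map_sub, hC, mul_sub, ← map_mul, MulMemClass.coe_mul,
        show l b' * ((c : Qb) * (l b')⁻¹) = (c : Qb) by
          rw [mul_comm, mul_assoc, inv_mul_cancel₀ (hl b'), mul_one]]
    · rw [map_sub, hCk, map_mul (IsLocalRing.residue A),
        map_eq_zero_of_inv_notMem IsLocalRing.residue_surjective (a := ⟨_, hinv⟩)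
          (by simpa using h), mul_zero, map_zero, sub_zero]
      exact hy b'

end Generic

section Bounded

variable [Fact q.Prime]

/-- Functions with poles bounded by multiples of `A0` are regular away from the cusps. -/
theorem mem_intClosure_of_mem_A0 {m : ℕ} {f : FU M q H}
    (hq : q.Prime) (hqM : ¬ q ∣ M) (hf : f ∈ riemannRochSpace (m • A0 M q H)) :
    f ∈ intClosure Qb (aj M q H) :=
  ((mem_nsmul_poleDiv_iff (transcendental_aj M q H) _).mp
    (mem_nsmul_poleDiv_of_add (poleDiv_bj_le M q H hq hqM) hf)).1

variable {A : ValuationSubring (AlgebraicClosure ℚ)} (hA : A.LiesOverPrime q)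

/-- For `f` with expansions `l b` times an integral series `y b`, the norm is `l true * l false ^ q`
times an integral series reducing to the reduction of `y true` times the Frobenius transform of that
of `y false`. -/
theorem exists_norm_series [CharP (IsLocalRing.ResidueField A) q] (f : FU M q H) (l : Bool → Qb)
    (hl : ∀ b, l b ≠ 0)
    (y : Bool → LaurentSeries A)
    (he : ∀ b, emb M q H hq hqM b f =
      algebraMap Qb (LaurentSeries Qb) (l b) * coeffMap A.subtype (y b)) :
    ∃ Y : LaurentSeries A,
      ((normAlong (al M q H) f : FH M H) : LaurentSeries Qb) =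
        algebraMap Qb (LaurentSeries Qb) (l true * l false ^ q) * coeffMap A.subtype Y ∧
      coeffMap (IsLocalRing.residue A) Y = coeffMap (IsLocalRing.residue A) (y true) *
        coeffMap (frobenius (IsLocalRing.ResidueField A) q)
          (coeffMap (IsLocalRing.residue A) (y false)) := by
  obtain ⟨ζ, hζ⟩ := X0.exists_zeta q
  set N : LaurentSeries Qb := (normAlong (al M q H) f : LaurentSeries Qb)
  set L : Qb := l true * l false ^ q
  have hL : L ≠ 0 := mul_ne_zero (hl true) (pow_ne_zero _ (hl false))
  obtain ⟨Y, hY, hYr⟩ := X0.exists_reduction_of_norm_type (π := IsLocalRing.residue A) hζ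
    (z := algebraMap Qb (LaurentSeries Qb) L⁻¹ * N) (y := y true) (yd := y false) (by
      rw [map_mul, qExpand_algebraMap, qExpand_norm M q H hq hqM hζ, he true, he false]
      simp only [map_mul, qExpand_algebraMap, twist_algebraMap, Finset.prod_mul_distrib,
        Finset.prod_const, Finset.card_univ, Fintype.card_fin]
      rw [show algebraMap Qb (LaurentSeries Qb) L⁻¹ =
        (algebraMap Qb (LaurentSeries Qb) (l true) *
          algebraMap Qb (LaurentSeries Qb) (l false) ^ q)⁻¹ by rw [map_inv₀, map_mul, map_pow]]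
      field_simp [(_root_.map_ne_zero (algebraMap Qb (LaurentSeries Qb))).mpr (hl true),
        (_root_.map_ne_zero (algebraMap Qb (LaurentSeries Qb))).mpr (hl false)])
  refine ⟨Y, ?_, hYr⟩
  rw [← hY, ← mul_assoc, ← map_mul, mul_inv_cancel₀ hL, map_one, one_mul]

include hq hqM hA

/-- Functions regular away from the cusps have bounded expansions at `∞`. -/
theorem exists_smul_int_true {f : FU M q H} (hf : f ∈ intClosure Qb (aj M q H)) :
    ∃ a : Qb, a ≠ 0 ∧ emb M q H hq hqM true (a • f) ∈ intSeries A := by
  obtain ⟨ζ, hζ⟩ := X0.exists_zeta q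
  refine X0.exists_smul_int_of_traces q hq (A := A) (emb_algebraMap M q H hq hqM true) hζ
    (br := branch M q H hq hqM ζ) rfl (fun _ => rfl) (fun o => ?_) (emb_true_bj M q H hq hqM)
    (emb_false_bj M q H hq hqM)
    (bj_mem_intClosure M q H hq hqM) (P := modA M q H) rfl (eval_modA M q H hq hqM)
    (fun g hg => ?_) hf
  · rw [aj, branch_al M q H hq hqM hζ, coe_jM M H, ← jb_one]
  · refine ⟨((X0.trA (al M q H) g : FH M H) : LaurentSeries Qb),
      exists_smul_int_level M q H hq hqM hA _ (X0.trA_mem_intClosure (al M q H) hg), ?_⟩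
    rw [qExpand_trA M q H hq hqM hζ, Fintype.sum_option]
    rfl

/-- Functions regular away from the cusps have bounded expansions. -/
theorem exists_smul_int_of_regular (b : Bool) {f : FU M q H}
    (hf : f ∈ intClosure Qb (aj M q H)) :
    ∃ a : Qb, a ≠ 0 ∧ emb M q H hq hqM b (a • f) ∈ intSeries A := by
  cases b
  · obtain ⟨a, ha, h⟩ := exists_smul_int_true M q H hq hqM hA (atkin_mem_intClosure M q H hq hqM hf)
    exact ⟨a, ha, by rw [← emb_true_atkin M q H hq hqM, Algebra.smul_def,
      map_mul (atkin M q H hq hqM), AlgEquiv.commutes, ← Algebra.smul_def]; exact h⟩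
  · exact exists_smul_int_true M q H hq hqM hA hf

/-- Bounded on the multiples of `A0`. -/
theorem bdd (b : Bool) (m : ℕ) (f : FU M q H) (hf : f ∈ riemannRochSpace (m • A0 M q H)) :
    ∃ a : Qb, a ≠ 0 ∧ emb M q H hq hqM b (a • f) ∈ intSeries A :=
  exists_smul_int_of_regular M q H hq hqM hA b (mem_intClosure_of_mem_A0 M q H hq hqM hf)

omit hA in
/-- `sqW` preserves regularity away from the cusps. -/
theorem sqW_mem_intClosure {f : FU M q H} (hf : f ∈ intClosure Qb (aj M q H)) :
    sqW M q H hq hqM f ∈ intClosure Qb (aj M q H) :=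
  atkin_mem_intClosure M q H hq hqM (atkin_mem_intClosure M q H hq hqM hf)

/-- A primitive multiple of the expansion of a regular function. -/
theorem exists_prim_series (b : Bool) {f : FU M q H} (hf : f ∈ intClosure Qb (aj M q H))
    (hf0 : f ≠ 0) :
    ∃ (c : Qb) (y : LaurentSeries A), c ≠ 0 ∧
      emb M q H hq hqM b f = algebraMap Qb (LaurentSeries Qb) c * coeffMap A.subtype y ∧
      coeffMap (IsLocalRing.residue A) y ≠ 0 := by
  obtain ⟨a, ha, hai⟩ := exists_smul_int_of_regular M q H hq hqM hA b hf
  obtain ⟨a', hi, hr⟩ := attained M q H hq hqM hA b (a • f) (smul_ne_zero ha hf0) hai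
  have ha' : a' ≠ 0 := fun h => hr (by rw [h, zero_smul, redF_zero])
  obtain ⟨y, hy⟩ := id hi
  refine ⟨(a' * a)⁻¹, y, inv_ne_zero (mul_ne_zero ha' ha), ?_, fun h0 => hr ?_⟩
  · rw [hy, smul_smul, X0.emb_smul (emb_algebraMap M q H hq hqM b), ← mul_assoc, ← map_mul,
      inv_mul_cancel₀ (mul_ne_zero ha' ha), map_one, one_mul]
  · rw [redF_of_mem hi, ← h0, ← redHom_coeffMap (IsLocalRing.residue A) y ⟨y, rfl⟩]
    exact congrArg _ (Subtype.ext hy.symm)

/-- A translate by `0` or `1` has expansions of scale at least one, and more than one at a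
component where the expansion is not integral. -/
theorem exists_translate {u : FU M q H} (hu : u ∈ intClosure Qb (aj M q H)) {b : Bool}
    (hb : emb M q H hq hqM b u ∉ intSeries A) :
    ∃ c : A, (∀ b', ∃ (l : Qb) (y : LaurentSeries A), l ≠ 0 ∧ l⁻¹ ∈ A ∧
        emb M q H hq hqM b' (u - algebraMap Qb (FU M q H) (c : Qb)) =
          algebraMap Qb (LaurentSeries Qb) l * coeffMap A.subtype y ∧
        coeffMap (IsLocalRing.residue A) y ≠ 0 ∧ (b' = b → l ∉ A)) := by
  have hu0 : u ≠ 0 := fun h => hb (by rw [h, map_zero]; exact zero_mem _)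
  choose l y hl he hy using fun b' => exists_prim_series M q H hq hqM hA b' hu hu0
  have hlb : l b ∉ A := fun h => hb (by
    rw [he]; exact mul_mem (algebraMap_mem_intSeries h) ⟨_, rfl⟩)
  obtain ⟨c, hc⟩ := exists_translate_series l y hl hy hlb
  refine ⟨c, fun b' => ?_⟩
  rw [map_sub, he, emb_algebraMap]
  exact hc b'

/-- Integrality of both expansions is preserved by the square of the Atkin-Lehner operator. -/
theorem sqW_int {f : FU M q H} (hf : f ∈ intClosure Qb (aj M q H))
    (hi : ∀ b, emb M q H hq hqM b f ∈ intSeries A) (b : Bool) :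
    emb M q H hq hqM b (sqW M q H hq hqM f) ∈ intSeries A := by
  by_contra hb
  have := charP_residue hq hA
  -- Translate so that both scales of the image are at least one.
  obtain ⟨c, hc⟩ := exists_translate M q H hq hqM hA (sqW_mem_intClosure M q H hq hqM hf) hb
  choose l y hl hlA he hy hlb using hc
  set g := f - algebraMap Qb (FU M q H) (c : Qb)
  have hgi : ∀ b', emb M q H hq hqM b' g ∈ intSeries A := fun b' => by
    rw [map_sub, emb_algebraMap]
    exact sub_mem (hi b') (algebraMap_mem_intSeries c.2)
  have hg : g ∈ intClosure Qb (aj M q H) :=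
    sub_mem hf ((intClosure Qb (aj M q H)).algebraMap_mem _)
  -- the norm of the translate is integral
  obtain ⟨w, hw, -⟩ := normA_reduction M q H hq hqM g hgi
  have hN : (normAlong (al M q H) (sqW M q H hq hqM f - algebraMap Qb (FU M q H) (c : Qb)) :
      LaurentSeries Qb) ∈ intSeries A := by
    rw [← (sqW M q H hq hqM).commutes (c : Qb), ← map_sub, normAlong_sqW]
    exact dq_int M q H hq hqM hA _ (normAlong_mem_intClosure M q H hg) ⟨w, hw.symm⟩
  -- It is also `L` times a series of nonzero reduction, and `L` is not integral.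
  set L : Qb := l true * l false ^ q
  obtain ⟨y', hy', hyr⟩ := exists_norm_series M q H hq hqM _ l hl y he
  have hLinv : L⁻¹ ∈ A := by
    rw [mul_inv, ← inv_pow]
    exact mul_mem (hlA true) (pow_mem (hlA false) q)
  have hLA : L ∉ A := fun hLA => hlb b rfl (by
    cases b
    · have h1 : l false ^ q ∈ A := by
        rw [show l false ^ q = L * (l true)⁻¹ by
          simp only [L]; field_simp [hl true]]
        exact mul_mem hLA (hlA true)
      rw [show l false = l false ^ q * (l false)⁻¹ ^ (q - 1) by
        rw [inv_pow, ← div_eq_mul_inv, eq_div_iff (pow_ne_zero _ (hl false)), ← pow_succ',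
          Nat.sub_add_cancel hq.one_le]]
      exact mul_mem h1 (pow_mem (hlA false) _)
    · rw [show l true = L * (l false)⁻¹ ^ q by
        simp only [L]
        rw [inv_pow, mul_assoc, mul_inv_cancel₀ (pow_ne_zero _ (hl false)), mul_one]]
      exact mul_mem hLA (pow_mem (hlA false) q))
  obtain ⟨n, hn⟩ := hN
  have e : y' = HahnSeries.C (⟨_, hLinv⟩ : A) * n :=
    Model.coeffMap_subtype_injective A (by
      rw [map_mul, coeffMap_C, hn, hy']
      change _ = algebraMap Qb (LaurentSeries Qb) L⁻¹ * _
      rw [← mul_assoc, ← map_mul,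
        inv_mul_cancel₀ (mul_ne_zero (hl true) (pow_ne_zero _ (hl false))), map_one, one_mul])
  rw [e, map_mul, HahnSeries.C_apply, coeffMap_single,
    map_eq_zero_of_inv_notMem IsLocalRing.residue_surjective (a := ⟨_, hLinv⟩)
      (by simpa using hLA), map_zero, zero_mul] at hyr
  exact mul_ne_zero (hy true) ((_root_.map_ne_zero _).mpr (hy false)) hyr.symm

/-- The reductions of regular functions are regular away from the cusps. -/
theorem redF_true_mem_intClosure [IsAlgClosed (IsLocalRing.ResidueField A)] (f : FU M q H)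
    (h : ∀ b, emb M q H hq hqM b f ∈ intSeries A) (hf : f ∈ intClosure Qb (aj M q H))
    (z : KH M H A)
    (hz : (z : LaurentSeries (IsLocalRing.ResidueField A)) =
      redF (IsLocalRing.residue A) (emb M q H hq hqM true) f) :
    z ∈ intClosure (IsLocalRing.ResidueField A) (jK M H A) := by
  obtain ⟨y, h1, h2⟩ := trA_reduction M q H hq hqM hA f h
  exact mem_intClosure_level M q H hq hqM hA _ (X0.trA_mem_intClosure (al M q H) hf) y h1 z
    (hz.trans h2.symm)

omit hA in
omit [Fact (Nat.Prime q)] in
/-- The image of `f` under the Atkin-Lehner operator is integral at both cusps if `f` is integral at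
`0` and `sqW f` at `∞`. -/
theorem atkin_int_of {f : FU M q H} (h0 : emb M q H hq hqM false f ∈ intSeries A)
    (h1 : emb M q H hq hqM true (sqW M q H hq hqM f) ∈ intSeries A) (b : Bool) :
    emb M q H hq hqM b (atkin M q H hq hqM f) ∈ intSeries A := by
  cases b
  · rw [emb_false_atkin]; exact h1
  · rw [emb_true_atkin]; exact h0

variable [IsAlgClosed (IsLocalRing.ResidueField A)]
  [FF.IsFunctionField (IsLocalRing.ResidueField A) (KH M H A)]

/-- The reduction at `∞` keeps a bound on the poles along `j`. -/
theorem redF_true_mem_riemannRochSpace {N : ℕ} (f : FU M q H)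
    (h : ∀ b, emb M q H hq hqM b f ∈ intSeries A)
    (hf : f ∈ riemannRochSpace (N • poleDiv Qb (aj M q H))) (z : KH M H A)
    (hz : (z : LaurentSeries (IsLocalRing.ResidueField A)) =
      redF (IsLocalRing.residue A) (emb M q H hq hqM true) f) :
    z ∈ riemannRochSpace (N • poleDiv (IsLocalRing.ResidueField A) (jK M H A)) := by
  obtain ⟨y, h1, h2⟩ := trA_reduction M q H hq hqM hA f h
  exact redF_mem_riemannRochSpace_level M q H hq hqM hA _
    (X0.trA_mem_riemannRochSpace (al M q H) (transcendental_jM M H) hf) y h1 z (hz.trans h2.symm)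

/-- The poles of the reductions are bounded by `m (q + 1)` times those of the reduced `j`. -/
theorem redF_mem_riemannRochSpace (b : Bool) (m : ℕ) (f : FU M q H)
    (h : ∀ b, emb M q H hq hqM b f ∈ intSeries A)
    (hf : f ∈ riemannRochSpace (m • A0 M q H)) (z : KH M H A)
    (hz : (z : LaurentSeries (IsLocalRing.ResidueField A)) =
      redF (IsLocalRing.residue A) (emb M q H hq hqM b) f) :
    z ∈ riemannRochSpace ((m * (q + 1)) •
      poleDiv (IsLocalRing.ResidueField A) (jK M H A)) := by
  cases b
  · have hf' : f ∈ riemannRochSpace ((m * (q + 1)) • poleDiv Qb (bj M q H)) :=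
      mem_nsmul_poleDiv_of_add (poleDiv_aj_le M q H hq hqM) (by rwa [A0, add_comm] at hf)
    have hW : atkin M q H hq hqM f ∈
        riemannRochSpace ((m * (q + 1)) • poleDiv Qb (aj M q H)) := by
      have := X0.map_mem_riemannRochSpace (atkin M q H hq hqM).toAlgHom
        (transcendental_bj M q H) hf'
      simpa only [AlgEquiv.coe_toAlgHom, atkin_bj] using this
    have hreg := mem_intClosure_of_mem_A0 M q H hq hqM hf
    have hWi : ∀ b, emb M q H hq hqM b (atkin M q H hq hqM f) ∈ intSeries A :=
      atkin_int_of M q H hq hqM (h false) (sqW_int M q H hq hqM hA hreg h true)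
    refine redF_true_mem_riemannRochSpace M q H hq hqM hA _ hWi hW z ?_
    rw [hz, redF_of_mem (h false), redF_of_mem (hWi true)]
    exact congrArg _ (Subtype.ext rfl)
  · exact redF_true_mem_riemannRochSpace M q H hq hqM hA f h
      (mem_nsmul_poleDiv_of_add (poleDiv_bj_le M q H hq hqM) hf) z hz

end Bounded

end Fermat.BAD.XH

end
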