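import Fermat.Agent.BAD.XH.Degen
import Fermat.Agent.RED.Full.Eichler
import Fermat.Agent.RED.Spec.Galois

/-!
# The Atkin-Lehner symmetry of the two glued reductions

The square of the Atkin-Lehner operator `W` preserves the component at `∞` and acts on it by the
reduction `dBar` of `⟨q⟩⁻¹`; it has finite order, so the inverse of `W` is a symmetry swapping the
components (`atkinInvSym`).  A Frobenius permutes the glued points as this symmetry does: this is
the hypothesis of `Degen.frobenius_new` used in `Torsion`.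
-/

set_option autoImplicit false
set_option linter.unusedSectionVars false

attribute [local instance 10000] SubalgebraClass.toAlgebra HahnSeries.powerSeriesAlgebra

noncomputable section

open ModularCurve AlgebraicCurve

namespace Fermat.BAD.XH

open Fermat.BAD.X0 (smul_poleDiv)
open Fermat.FF Fermat.MC Fermat.JAC Fermat.RED Fermat.RED.Model
open Fermat.JAC.X0 (embC)

local notation "Qb" => AlgebraicClosure ℚ

section Generic

/-- If an automorphism fixing `x₀` reduces to `e` on the chart, it does so on all regular integral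
functions, and `e` fixes the constants. -/
theorem residual_of_chart {L F k : Type*} [Field L] [Field k] [Field F]
    [Algebra L F] {B : ValuationSubring L} {π : B →+* k} {ι : F →+* LaurentSeries L} {x₀ : F}
    {d : ℕ} (h : GoodModel π ι x₀ d) {K : IntermediateField k (LaurentSeries k)}
    (hK : ∀ f, redF π ι f ∈ K) (a : F ≃ₐ[L] F) (ha : a x₀ = x₀) (e : SemilinearAut k K)
    (he : ∀ f ∈ chart B x₀, ∀ z : K, (z : LaurentSeries k) = redF π ι f →
      ((e • z : K) : LaurentSeries k) = redF π ι (a f)) :
    SemilinearAut.baseAut e = 1 ∧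
      ∀ x : F, x ∈ intClosure L x₀ → ι x ∈ intSeries B → ∀ z : K,
        (z : LaurentSeries k) = redF π ι x →
          ((e • z : K) : LaurentSeries k) = redF π ι (a x) := by
  -- constants lie in the chart, so the base is fixed
  have hb : SemilinearAut.baseAut e = 1 := by
    refine RingEquiv.ext fun c => ?_
    obtain ⟨⟨b, hbA⟩, rfl⟩ := h.surj c
    have h1 := he _ (algebraMap_mem_chart x₀ hbA) (algebraMap k K (π ⟨b, hbA⟩))
      (h.toPreModel.redF_algebraMap hbA).symm
    rw [SemilinearAut.smul_algebraMap, AlgEquiv.commutes, h.toPreModel.redF_algebraMap hbA] at h1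
    exact (algebraMap k (LaurentSeries k)).injective h1
  refine ⟨hb, fun x hx hi z hz => ?_⟩
  rcases eq_or_ne x 0 with rfl | hx0
  · obtain rfl : z = 0 := Subtype.ext (by rw [hz, redF_zero]; rfl)
    rw [smul_zero, map_zero, redF_zero]
    rfl
  -- write `x` as a scalar times a primitive element of the chart
  obtain ⟨c, hc, -, hcg⟩ := exists_scale_of_mem_intClosure hx
  obtain ⟨c', hc'A, hc', g', hg', hne, e'⟩ := h.exists_eq_smul_primitive hcg
    (mul_ne_zero ((_root_.map_ne_zero _).mpr hc) hx0)
  have hxe : x = algebraMap L F (c' / c) * g' := by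
    rw [map_div₀, div_mul_eq_mul_div, ← e', mul_div_cancel_left₀ _ ((_root_.map_ne_zero _).mpr hc)]
  -- the scalar is integral
  have hcc : c' / c ∈ B := by
    by_contra hcc
    have hb : (c' / c)⁻¹ ∈ B := (B.mem_or_inv_mem _).resolve_left hcc
    have hge' : g' = algebraMap L F (c' / c)⁻¹ * x := by
      rw [hxe, ← mul_assoc, ← map_mul, inv_mul_cancel₀ (div_ne_zero hc' hc), map_one, one_mul]
    refine hne ?_
    rw [hge', redF_mul (h.int_algebraMap hb) hi, h.redF_algebraMap hb,
      map_eq_zero_of_inv_notMem h.surj (a := ⟨_, hb⟩) (by simpa using hcc), map_zero, zero_mul]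
  have hzz : z = algebraMap k K (π ⟨_, hcc⟩) * ⟨_, hK g'⟩ := by
    refine Subtype.ext ?_
    rw [hz, hxe, redF_mul (h.int_algebraMap hcc) (h.int_chart _ hg'), h.redF_algebraMap hcc]
    rfl
  -- apply the hypothesis to the primitive element
  have h1 := he g' hg' ⟨_, hK g'⟩ rfl
  rw [hzz, smul_mul', SemilinearAut.smul_algebraMap, hb, RingAut.one_apply, hxe, map_mul,
    AlgEquiv.commutes, redF_mul (h.int_algebraMap hcc)
      (h.int_chart _ (Full.mem_chart_algEquiv _ ha hg')), h.redF_algebraMap hcc,
    MulMemClass.coe_mul, h1]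
  rfl

/-- An automorphism fixing `a` acts on `a ^ N * b` through `b`. -/
theorem coe_smul_pow_mul {k : Type*} [Field k] {K : IntermediateField k (LaurentSeries k)}
    (e : SemilinearAut k K) {a : K} (h : e • a = a) (N : ℕ) (b : K) :
    ((e • (a ^ N * b) : K) : LaurentSeries k) =
      (a : LaurentSeries k) ^ N * ((e • b : K) : LaurentSeries k) := by
  rw [smul_mul', smul_pow', h, MulMemClass.coe_mul, SubmonoidClass.coe_pow]

/-- An automorphism of the field respects quotients, as series. -/
theorem coe_smul_div {k : Type*} [Field k] {K : IntermediateField k (LaurentSeries k)}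
    (e : SemilinearAut k K) (a b : K) :
    ((e • (a / b) : K) : LaurentSeries k) =
      ((e • a : K) : LaurentSeries k) / ((e • b : K) : LaurentSeries k) := by
  rw [smul_div₀']; rfl

/-- The zeroth power acts trivially. -/
theorem smul_pow_zero {G X : Type*} [Monoid G] [MulAction G X] (g : G) (x : X) : g ^ 0 • x = x := by
  rw [pow_zero, one_smul]

/-- A successor power acts through one more application. -/
theorem smul_pow_succ {G X : Type*} [Monoid G] [MulAction G X] (g : G) (n : ℕ) (x : X) :
    g ^ (n + 1) • x = g • g ^ n • x := by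
  rw [pow_succ', mul_smul]

/-- A successor power of an automorphism, evaluated. -/
theorem algEquiv_pow_succ_apply {R B : Type*} [CommSemiring R] [Semiring B] [Algebra R B]
    (a : B ≃ₐ[R] B) (n : ℕ) (x : B) : (a ^ (n + 1)) x = a ((a ^ n) x) := by
  rw [pow_succ', AlgEquiv.mul_apply]

end Generic

variable (M q : ℕ) [NeZero M] [NeZero q] [Fact q.Prime] (H : Subgroup (ZMod M)ˣ) [Lvl.NegMem H]
variable (hq : q.Prime) (hqM : ¬ q ∣ M)
variable {A : ValuationSubring (AlgebraicClosure ℚ)} (hA : A.LiesOverPrime q)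
  [IsAlgClosed (IsLocalRing.ResidueField A)] [CharP (IsLocalRing.ResidueField A) q]

local notation "kA" => IsLocalRing.ResidueField A

section Level

/-- The reduction at level `M` computed from an integral series. -/
theorem redF_val_eq (x : FH M H) (y : LaurentSeries A)
    (hy : (x : LaurentSeries Qb) = coeffMap A.subtype y) :
    redF (IsLocalRing.residue A) (FH M H).val.toRingHom x =
      coeffMap (IsLocalRing.residue A) y := by
  rw [redF_of_mem (⟨y, hy.symm⟩ : (FH M H).val.toRingHom x ∈ intSeries A),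
    ← redHom_coeffMap (IsLocalRing.residue A) y ⟨y, rfl⟩]
  exact congrArg _ (Subtype.ext hy)

include hq hqM hA in
/-- A residual automorphism of `⟨q⟩⁻¹`, for regular integral functions of level `M`. -/
theorem exists_dBar : ∃ e : SemilinearAut kA (KH M H A), SemilinearAut.baseAut e = 1 ∧
    e • jK M H A = jK M H A ∧
    ∀ x : FH M H, x ∈ intClosure Qb (jM M H) → (x : LaurentSeries Qb) ∈ intSeries A →
      ∀ z : KH M H A, (z : LaurentSeries kA) =
        redF (IsLocalRing.residue A) (FH M H).val.toRingHom x →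
        ((e • z : KH M H A) : LaurentSeries kA) =
          redF (IsLocalRing.residue A) (FH M H).val.toRingHom (dq M q H hq hqM x) := by
  obtain ⟨R⟩ := Full.exists_redData (N := M) (H := H) hq hqM hA
  obtain ⟨e, he⟩ := Full.exists_diaRed (H := H) hq hqM hA (qUnit M q hq hqM)⁻¹
  have h := (goodModel_FH M q H hq hqM hA).1
  obtain ⟨hb, hreg⟩ := residual_of_chart h
    (redF_mem_specField (IsLocalRing.residue A) (FH M H).val.toRingHom) (dq M q H hq hqM)
    (dq_jM M q H hq hqM) e he
  refine ⟨e, hb, Subtype.ext ?_, hreg⟩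
  have h1 := he _ (self_mem_chart (jM M H)) (jK M H A) rfl
  rw [show Lvl.diamondHom H embC (qUnit M q hq hqM)⁻¹ (jM M H) = jM M H from
    dq_jM M q H hq hqM] at h1
  exact h1

/-- The residual automorphism of `⟨q⟩⁻¹`. -/
def dBar : SemilinearAut kA (KH M H A) := (exists_dBar M q H hq hqM hA).choose

/-- `dBar` fixes the constants. -/
theorem baseAut_dBar : SemilinearAut.baseAut (dBar M q H hq hqM hA) = 1 :=
  (exists_dBar M q H hq hqM hA).choose_spec.1

/-- `dBar` fixes the reduced `j`. -/
theorem dBar_jK : dBar M q H hq hqM hA • jK M H A = jK M H A :=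
  (exists_dBar M q H hq hqM hA).choose_spec.2.1

/-- `dBar` is the reduction of `⟨q⟩⁻¹` on regular integral functions. -/
theorem dBar_spec (x : FH M H) (hx : x ∈ intClosure Qb (jM M H))
    (hi : (x : LaurentSeries Qb) ∈ intSeries A) (z : KH M H A)
    (hz : (z : LaurentSeries kA) = redF (IsLocalRing.residue A) (FH M H).val.toRingHom x) :
    ((dBar M q H hq hqM hA • z : KH M H A) : LaurentSeries kA) =
      redF (IsLocalRing.residue A) (FH M H).val.toRingHom (dq M q H hq hqM x) :=
  (exists_dBar M q H hq hqM hA).choose_spec.2.2 x hx hi z hz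

end Level

section Square

/-- The trace commutes with the square of the Atkin-Lehner operator. -/
theorem trA_sqW (z : FU M q H) :
    X0.trA (al M q H) (sqW M q H hq hqM z) = dq M q H hq hqM (X0.trA (al M q H) z) := by
  let := algebraAlong (al M q H)
  have h := Algebra.trace_eq_of_equiv_equiv (A₁ := FH M H) (B₁ := FU M q H) (A₂ := FH M H)
    (B₂ := FU M q H) (dq M q H hq hqM).toRingEquiv (sqW M q H hq hqM).toRingEquiv
    (RingHom.ext fun x => (sqW_al M q H hq hqM x).symm) z
  change Algebra.trace (FH M H) _ _ = dq M q H hq hqM (Algebra.trace (FH M H) _ z)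
  rw [h]
  exact ((dq M q H hq hqM).toRingEquiv.apply_symm_apply _).symm

include hA

/-- `sqW` reduces to `dBar` on the functions regular away from the cusps with both expansions
integral. -/
theorem redF_sqW_of_both {f : FU M q H} (hf : f ∈ intClosure Qb (aj M q H))
    (hi : ∀ b, emb M q H hq hqM b f ∈ intSeries A) (z : KH M H A)
    (hz : (z : LaurentSeries kA) =
      redF (IsLocalRing.residue A) (emb M q H hq hqM true) f) :
    redF (IsLocalRing.residue A) (emb M q H hq hqM true) (sqW M q H hq hqM f) =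
      ((dBar M q H hq hqM hA • z : KH M H A) : LaurentSeries kA) := by
  obtain ⟨y, h1, h2⟩ := trA_reduction M q H hq hqM hA f hi
  obtain ⟨y', h1', h2'⟩ :=
    trA_reduction M q H hq hqM hA _ (sqW_int M q H hq hqM hA hf hi)
  rw [trA_sqW] at h1'
  rw [← h2', ← redF_val_eq M H _ y' h1']
  refine (dBar_spec M q H hq hqM hA _ (X0.trA_mem_intClosure (al M q H) hf) ⟨y, h1.symm⟩ z ?_).symm
  rw [hz, ← h2, ← redF_val_eq M H _ y h1]

/-- An integral product with a primitive factor has integral factor. -/
theorem int_of_mul_int (b : Bool) {y s : FU M q H} (hy : y ∈ intClosure Qb (aj M q H))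
    (hs : emb M q H hq hqM b s ∈ intSeries A)
    (hs0 : redF (IsLocalRing.residue A) (emb M q H hq hqM b) s ≠ 0)
    (h : emb M q H hq hqM b (s * y) ∈ intSeries A) : emb M q H hq hqM b y ∈ intSeries A := by
  rcases eq_or_ne y 0 with rfl | hy0
  · rw [map_zero]; exact zero_mem _
  obtain ⟨c, w, hc, he, hw⟩ := exists_prim_series M q H hq hqM hA b hy hy0
  rcases A.mem_or_inv_mem c with hcA | hcA
  · rw [he]; exact mul_mem (algebraMap_mem_intSeries hcA) ⟨w, rfl⟩
  by_contra hn
  have hcA' : c ∉ A := fun hA' => hn (by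
    rw [he]; exact mul_mem (algebraMap_mem_intSeries hA') ⟨w, rfl⟩)
  have hcy : emb M q H hq hqM b (c⁻¹ • y) = coeffMap A.subtype w := by
    rw [X0.emb_smul (emb_algebraMap M q H hq hqM b), he, ← mul_assoc, ← map_mul,
      inv_mul_cancel₀ hc, map_one, one_mul]
  have hi : emb M q H hq hqM b (c⁻¹ • y) ∈ intSeries A := hcy ▸ ⟨w, rfl⟩
  have hred : redF (IsLocalRing.residue A) (emb M q H hq hqM b) (c⁻¹ • y) =
      coeffMap (IsLocalRing.residue A) w := by
    rw [redF_of_mem hi, ← redHom_coeffMap (IsLocalRing.residue A) w ⟨w, rfl⟩]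
    exact congrArg _ (Subtype.ext hcy)
  refine mul_ne_zero hs0 (hred ▸ hw) ?_
  have hci : emb M q H hq hqM b (algebraMap Qb (FU M q H) c⁻¹) ∈ intSeries A := by
    rw [emb_algebraMap]; exact algebraMap_mem_intSeries hcA
  rw [← redF_mul hs hi, show s * (c⁻¹ • y) = algebraMap Qb (FU M q H) c⁻¹ * (s * y) by
    rw [Algebra.smul_def]; ring, redF_mul hci h]
  refine mul_eq_zero_of_left ?_ _
  rw [redF_of_mem hci, show (⟨_, hci⟩ : intSeries A) =
    ⟨algebraMap Qb (LaurentSeries Qb) c⁻¹, algebraMap_mem_intSeries hcA⟩ from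
      Subtype.ext (emb_algebraMap M q H hq hqM b _), redHom_algebraMap _ hcA,
    map_eq_zero_of_inv_notMem IsLocalRing.residue_surjective (a := ⟨_, hcA⟩) (by simpa using hcA'),
    map_zero]

/-- `sqW` preserves integrality at `∞` of regular functions and reduces to `dBar` there. -/
theorem sqW_of_regular {f : FU M q H} (hf : f ∈ intClosure Qb (aj M q H))
    (hi : emb M q H hq hqM true f ∈ intSeries A) :
    emb M q H hq hqM true (sqW M q H hq hqM f) ∈ intSeries A ∧
      ∀ z : KH M H A, (z : LaurentSeries kA) =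
        redF (IsLocalRing.residue A) (emb M q H hq hqM true) f →
        redF (IsLocalRing.residue A) (emb M q H hq hqM true) (sqW M q H hq hqM f) =
          ((dBar M q H hq hqM hA • z : KH M H A) : LaurentSeries kA) := by
  set s := separator M q H with hsdef
  have hsi := separator_int M q H hq hqM (A := A)
  have hsr : s ∈ intClosure Qb (aj M q H) :=
    sub_mem (self_mem_intClosure _) (pow_mem (bj_mem_intClosure M q H hq hqM) q)
  have hs0 := redF_separator_ne M q H hq hqM (A := A)
  have hsW : sqW M q H hq hqM s = s := by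
    rw [hsdef, separator, map_sub, map_pow, sqW_aj, sqW_bj]
  -- A power of the separator makes `f` integral at `0` as well; it is fixed by `sqW`.
  obtain ⟨a, ha, hai⟩ := exists_smul_int_of_regular M q H hq hqM hA false hf
  obtain ⟨w, hw⟩ := X0.exists_qExpand_jqModC_sub_pow q A
  obtain ⟨N, hN⟩ := X0.exists_pow_mul_int (emb_algebraMap M q H hq hqM false) hq hA
    (s := s) (w := w) (by
      rw [hsdef, emb_false_separator, map_natCast]
      have := congrArg (coeffMap A.subtype) hw
      simpa only [map_sub, map_pow, map_mul, map_natCast, ModularCurve.coeffMap_qExpand,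
        coeffMap_subtype_jqModC] using this) ha hai
  have hsN : ∀ b, emb M q H hq hqM b (s ^ N) ∈ intSeries A := fun b => by
    rw [map_pow]; exact pow_mem (hsi b) N
  have hg : ∀ b, emb M q H hq hqM b (s ^ N * f) ∈ intSeries A := fun b => by
    cases b
    · exact hN
    · rw [map_mul]; exact mul_mem (hsN true) hi
  have hgr : s ^ N * f ∈ intClosure Qb (aj M q H) := mul_mem (pow_mem hsr N) hf
  have hgW : sqW M q H hq hqM (s ^ N * f) = s ^ N * sqW M q H hq hqM f := by
    rw [map_mul, map_pow, hsW]
  have hgi := sqW_int M q H hq hqM hA hgr hg true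
  rw [hgW] at hgi
  have hsN0 : redF (IsLocalRing.residue A) (emb M q H hq hqM true) (s ^ N) ≠ 0 := by
    rw [redF_pow (hsi true)]; exact pow_ne_zero N hs0
  have hfi := int_of_mul_int M q H hq hqM hA true (sqW_mem_intClosure M q H hq hqM hf)
    (hsN true) hsN0 hgi
  refine ⟨hfi, fun z hz => mul_left_cancel₀ hsN0 ?_⟩
  set zs : KH M H A := ⟨_, redF_true_mem M q H hq hqM hA _ (hsi true)⟩
  have h1 := redF_sqW_of_both M q H hq hqM hA hgr hg (zs ^ N * z) (by
    rw [redF_mul (hsN true) hi, redF_pow (hsi true), MulMemClass.coe_mul,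
      SubmonoidClass.coe_pow, hz])
  have h2 : dBar M q H hq hqM hA • zs = zs := Subtype.ext (by
    rw [← redF_sqW_of_both M q H hq hqM hA hsr hsi zs rfl, hsW])
  rw [hgW, redF_mul (hsN true) hfi] at h1
  refine h1.trans ((coe_smul_pow_mul _ h2 N z).trans ?_)
  exact congrArg (· * _) (redF_pow (hsi true) N).symm

omit hA in
include hq hqM in
/-- The functions generated over the constants by `genSet` are integral over `Qb[j]`. -/
theorem mem_intClosure_of_mem_adjoin_genSet {x : FU M q H}
    (hx : x ∈ Algebra.adjoin Qb (genSet M q H A)) : x ∈ intClosure Qb (aj M q H) := by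
  refine Algebra.adjoin_le ?_ hx
  rintro _ (⟨g, hg, rfl⟩ | rfl)
  · exact X0.map_mem_intClosure (al M q H)
      (mem_intClosure_of_mem_chart hg)
  · exact bj_mem_intClosure M q H hq hqM

/-- `sqW` reduces to `dBar` on all functions defined at the generic point of the component
at `∞`. -/
theorem gRed_sqW {f : FU M q H} (hf : f ∈ gInt (IsLocalRing.residue A) (emb M q H hq hqM true))
    (z : KH M H A)
    (hz : (z : LaurentSeries kA) = gRed (IsLocalRing.residue A) (emb M q H hq hqM true) f) :
    sqW M q H hq hqM f ∈ gInt (IsLocalRing.residue A) (emb M q H hq hqM true) ∧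
      gRed (IsLocalRing.residue A) (emb M q H hq hqM true) (sqW M q H hq hqM f) =
        ((dBar M q H hq hqM hA • z : KH M H A) : LaurentSeries kA) := by
  obtain ⟨a, u, hau⟩ := hf
  obtain ⟨hai, hui, hu0, hfu⟩ := id hau
  -- Write `f = P / Q` with `P`, `Q` regular and `Q` primitive at `∞`.
  obtain ⟨P₀, hP₀, Q₀, hQ₀, hQ₀0, hfQ⟩ := exists_eq_div M q H hq hqM hA f
  have hreg : ∀ x ∈ Algebra.adjoin Qb (genSet M q H A), x ∈ intClosure Qb (aj M q H) :=
    fun _ => mem_intClosure_of_mem_adjoin_genSet M q H hq hqM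
  obtain ⟨c, w, hc, he, hw⟩ := exists_prim_series M q H hq hqM hA true (hreg _ hQ₀) hQ₀0
  set Q := algebraMap Qb (FU M q H) c⁻¹ * Q₀
  set P := algebraMap Qb (FU M q H) c⁻¹ * P₀
  have hQe : emb M q H hq hqM true Q = coeffMap A.subtype w := by
    rw [map_mul, emb_algebraMap, he, ← mul_assoc, ← map_mul, inv_mul_cancel₀ hc, map_one, one_mul]
  have hQi : emb M q H hq hqM true Q ∈ intSeries A := hQe ▸ ⟨w, rfl⟩
  have hQ0 : redF (IsLocalRing.residue A) (emb M q H hq hqM true) Q ≠ 0 := by
    rw [redF_of_mem hQi]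
    refine fun h0 => hw ?_
    rw [← redHom_coeffMap (IsLocalRing.residue A) w ⟨w, rfl⟩, ← h0]
    exact congrArg _ (Subtype.ext hQe.symm)
  have hQr : Q ∈ intClosure Qb (aj M q H) :=
    mul_mem (Subalgebra.algebraMap_mem _ _) (hreg _ hQ₀)
  have hPr : P ∈ intClosure Qb (aj M q H) :=
    mul_mem (Subalgebra.algebraMap_mem _ _) (hreg _ hP₀)
  have hPQ : f * Q = P := by
    change f * (_ * Q₀) = _ * P₀
    rw [← hfQ]; ring
  have hPi : emb M q H hq hqM true P ∈ intSeries A :=
    int_of_mul_int M q H hq hqM hA true hPr hui hu0 (by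
      rw [show u * P = a * Q by rw [← hPQ, ← hfu]; ring, map_mul]
      exact mul_mem hai hQi)
  have hfg : IsGQuot (IsLocalRing.residue A) (emb M q H hq hqM true) f P Q :=
    ⟨hPi, hQi, hQ0, hPQ⟩
  set zQ : KH M H A := ⟨_, redF_true_mem M q H hq hqM hA _ hQi⟩
  set zP : KH M H A := ⟨_, redF_true_mem M q H hq hqM hA _ hPi⟩
  obtain ⟨hQi', hQr'⟩ := sqW_of_regular M q H hq hqM hA hQr hQi
  obtain ⟨hPi', hPr'⟩ := sqW_of_regular M q H hq hqM hA hPr hPi
  have hzQ : zQ ≠ 0 := fun h0 => hQ0 (congrArg Subtype.val h0)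
  have hQ0' : redF (IsLocalRing.residue A) (emb M q H hq hqM true) (sqW M q H hq hqM Q) ≠ 0 := by
    rw [hQr' zQ rfl]
    exact fun h0 => (smul_ne_zero_iff_ne _).mpr hzQ (Subtype.ext h0)
  have hfg' : IsGQuot (IsLocalRing.residue A) (emb M q H hq hqM true) (sqW M q H hq hqM f)
      (sqW M q H hq hqM P) (sqW M q H hq hqM Q) :=
    ⟨hPi', hQi', hQ0', by rw [← map_mul, hPQ]⟩
  have hz' : z = zP / zQ := Subtype.ext (by rw [hz, hfg.gRed_eq]; rfl)
  refine ⟨hfg'.mem, ?_⟩
  exact hfg'.gRed_eq.trans ((congrArg₂ (· / ·) (hPr' zP rfl) (hQr' zQ rfl)).trans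
    ((coe_smul_div _ zP zQ).symm.trans
      (congrArg (fun x : KH M H A => ((dBar M q H hq hqM hA • x : KH M H A) : LaurentSeries kA))
        hz'.symm)))

/-- Iterates of the square of the Atkin-Lehner operator. -/
theorem gRed_sqW_pow (n : ℕ) {f : FU M q H}
    (hf : f ∈ gInt (IsLocalRing.residue A) (emb M q H hq hqM true)) (z : KH M H A)
    (hz : (z : LaurentSeries kA) = gRed (IsLocalRing.residue A) (emb M q H hq hqM true) f) :
    (sqW M q H hq hqM ^ n) f ∈ gInt (IsLocalRing.residue A) (emb M q H hq hqM true) ∧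
      gRed (IsLocalRing.residue A) (emb M q H hq hqM true) ((sqW M q H hq hqM ^ n) f) =
        (((dBar M q H hq hqM hA ^ n) • z : KH M H A) : LaurentSeries kA) := by
  induction n with
  | zero =>
    exact ⟨hf, hz.symm.trans (congrArg Subtype.val
      (smul_pow_zero (dBar M q H hq hqM hA) z).symm)⟩
  | succ n ih =>
    obtain ⟨h1, h2⟩ := gRed_sqW M q H hq hqM hA ih.1 _ ih.2.symm
    have e1 := algEquiv_pow_succ_apply (sqW M q H hq hqM) n f
    exact ⟨e1.symm ▸ h1, (congrArg _ e1).trans (h2.trans (congrArg Subtype.val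
      (smul_pow_succ (dBar M q H hq hqM hA) n z).symm))⟩

end Square

/-- The inverse of `atkin` is a power of `sqW` composed with `atkin`. -/
theorem atkin_symm_eq (f : FU M q H) :
    (atkin M q H hq hqM).symm f = (sqW M q H hq hqM ^ (ordQ M - 1)) (atkin M q H hq hqM f) := by
  rw [AlgEquiv.symm_apply_eq]
  have hc : ∀ (n : ℕ) (g : FU M q H), atkin M q H hq hqM ((sqW M q H hq hqM ^ n) g) =
      (sqW M q H hq hqM ^ n) (atkin M q H hq hqM g) := fun n => by
    induction n with
    | zero => simp
    | succ n ih =>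
      intro g
      rw [pow_succ', AlgEquiv.mul_apply, AlgEquiv.mul_apply, ← ih, sqW_apply, sqW_apply]
  rw [hc, ← sqW_apply, ← AlgEquiv.mul_apply, ← pow_succ,
    Nat.sub_add_cancel Fintype.card_pos, sqW_pow_ordQ, AlgEquiv.one_apply]

section Syms

variable [FF.IsFunctionField (IsLocalRing.ResidueField A) (KH M H A)]
variable (hν2 : Lvl.nuTwoG (Lvl.GammaH M H) = 0) (hν3 : Lvl.nuThreeG (Lvl.GammaH M H) = 0)

/-- `dBar` fixes `Bk`. -/
theorem dBar_Bk : dBar M q H hq hqM hA • (Bk M q H : Divisor kA (KH M H A)) = Bk M q H := by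
  rw [Bk, smul_comm, smul_poleDiv, dBar_jK]

/-- Powers of `dBar` fix `Bk`. -/
theorem dBar_pow_Bk (n : ℕ) :
    dBar M q H hq hqM hA ^ n • (Bk M q H : Divisor kA (KH M H A)) = Bk M q H := by
  induction n with
  | zero => rw [pow_zero, one_smul]
  | succ n ih =>
    exact (smul_pow_succ (dBar M q H hq hqM hA) n _).trans
      ((congrArg (dBar M q H hq hqM hA • ·) ih).trans (dBar_Bk M q H hq hqM hA))

/-- Powers of `dBar` fix the constants. -/
theorem baseAut_dBar_pow (n : ℕ) :
    SemilinearAut.baseAut (dBar M q H hq hqM hA ^ n) = RingEquiv.refl _ := by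
  induction n with
  | zero => rw [pow_zero, SemilinearAut.baseAut_one]; rfl
  | succ n ih => rw [pow_succ, SemilinearAut.baseAut_mul, ih, baseAut_dBar]; rfl

/-- The symmetry given by the inverse of the Atkin-Lehner operator. -/
def atkinInvSym : Sym (degen M q H hq hqM hA hν2 hν3) where
  s := (atkinAut M q H hq hqM)⁻¹
  τ b := cond b 1 (dBar M q H hq hqM hA ^ (ordQ M - 1))
  base := RingEquiv.refl _
  τ_base b := by
    cases b
    · exact baseAut_dBar_pow M q H hq hqM hA _
    · exact SemilinearAut.baseAut_one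
  e := ⟨(!·), (!·), Bool.not_not, Bool.not_not⟩
  A0_fixed := by
    rw [inv_smul_eq_iff]
    exact (atkinAut_A0 M q H hq hqM).symm
  B_fixed b := by
    cases b
    · exact dBar_pow_Bk M q H hq hqM hA _
    · exact one_smul _ _
  -- integrality transfers along `atkin`, with the diamond correction on one side
  mapsInt b f hf := by
    cases b
    · change (atkinAut M q H hq hqM)⁻¹ • f ∈ gInt _ (emb M q H hq hqM true)
      have h := gRed_transfer (ι' := emb M q H hq hqM true)
        (atkin M q H hq hqM).toAlgHom.toRingHom (fun _ => rfl) hf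
      rw [atkinAut_inv_smul, atkin_symm_eq]
      exact (gRed_sqW_pow M q H hq hqM hA _ h.1 ⟨_, gRed_mem
        (K := (KH M H A).toSubfield) (redF_true_mem M q H hq hqM hA) _⟩ rfl).1
    · change (atkinAut M q H hq hqM)⁻¹ • f ∈ gInt _ (emb M q H hq hqM false)
      rw [atkinAut_inv_smul]
      exact (gRed_transfer (ι' := emb M q H hq hqM false)
        (atkin M q H hq hqM).symm.toAlgHom.toRingHom (fun x => by
          change emb M q H hq hqM false ((atkin M q H hq hqM).symm x) = _
          rw [emb_false, AlgEquiv.apply_symm_apply]; rfl) hf).1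
  -- and so does the reduction
  red_eq b f hf := by
    refine Subtype.ext ?_
    cases b
    · change gRed _ (emb M q H hq hqM true) ((atkinAut M q H hq hqM)⁻¹ • f) = _
      have h := gRed_transfer (ι' := emb M q H hq hqM true)
        (atkin M q H hq hqM).toAlgHom.toRingHom (fun _ => rfl) hf
      rw [atkinAut_inv_smul, atkin_symm_eq]
      exact (gRed_sqW_pow M q H hq hqM hA _ h.1
        ((degen M q H hq hqM hA hν2 hν3).red false f)
        (((degen M q H hq hqM hA hν2 hν3).coe_red false f).trans h.2.symm)).2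
    · change gRed _ (emb M q H hq hqM false) ((atkinAut M q H hq hqM)⁻¹ • f) =
        (((1 : SemilinearAut kA (KH M H A)) • _ : KH M H A) : LaurentSeries kA)
      rw [one_smul, atkinAut_inv_smul]
      exact (gRed_transfer (ι' := emb M q H hq hqM false)
        (atkin M q H hq hqM).symm.toAlgHom.toRingHom (fun x => by
          change emb M q H hq hqM false ((atkin M q H hq hqM).symm x) = _
          rw [emb_false, AlgEquiv.apply_symm_apply]; rfl) hf).2

/-- The automorphism of `atkinInvSym` is `atkinAut⁻¹`. -/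
theorem atkinInvSym_s : (atkinInvSym M q H hq hqM hA hν2 hν3).s = (atkinAut M q H hq hqM)⁻¹ := rfl

/-- `atkinInvSym` exchanges the components. -/
theorem atkinInvSym_e (b : Bool) : (atkinInvSym M q H hq hqM hA hν2 hν3).e b = !b := rfl

/-- `atkinInvSym` fixes the constants. -/
theorem atkinInvSym_base (a : kA) : (atkinInvSym M q H hq hqM hA hν2 hν3).base a = a := rfl

/-- A Frobenius acts on the reduced curve as `frobAut`. -/
theorem resAut_eq_frobAut {σ : Qb ≃ₐ[ℚ] Qb} (hσ : A.IsFrobeniusAt σ q) :
    resAut M H hσ.mem_decompositionSubgroup = frobAut M q H hq hA := by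
  refine semilinearAut_ext (fun z => Subtype.ext ?_) ?_
  · rw [coe_resAut_smul, coe_frobAut_smul]
    exact coeffMap_congr (RingHom.ext fun a =>
      (RingEquiv.congr_fun (residueAut_eq_frobenius hσ) a).trans (frobeniusEquiv_apply _ q a)) _
  · change residueAut hσ.mem_decompositionSubgroup =
      residueAut (frobSigma_spec q hq hA).mem_decompositionSubgroup
    rw [residueAut_eq_frobenius hσ, residueAut_eq_frobenius (frobSigma_spec q hq hA)]

/-- A Frobenius permutes the glued points as the inverse Atkin-Lehner operator does. -/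
theorem pt_frobenius {σ : Qb ≃ₐ[ℚ] Qb} (hσ : A.IsFrobeniusAt σ q) {s : Place kA (KH M H A)}
    (hs : s ∈ SS M q H hq hqM hA) :
    (galSym M q H hq hqM hA hν2 hν3 hσ.mem_decompositionSubgroup).pt s =
      (atkinInvSym M q H hq hqM hA hν2 hν3).pt s := by
  set W := atkinInvSym M q H hq hqM hA hν2 hν3
  have hne : W.e true ≠ true := by rw [atkinInvSym_e]; exact Bool.false_ne_true
  have h := (W.pt_spec (s := s) hs).2
  rw [degen_Qf, Sym.pt', if_neg hne] at h
  change Qf M q H hq hA (W.pt s) = (1 : SemilinearAut kA (KH M H A)) • s at h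
  rw [one_smul, Qf, inv_smul_eq_iff] at h
  exact (if_pos (show (galSym M q H hq hqM hA hν2 hν3
    hσ.mem_decompositionSubgroup).e true = true from rfl)).trans
    ((congrArg (· • s) (resAut_eq_frobAut M q H hq hA hσ)).trans h.symm)

/-- An element acting trivially on the residue field fixes the reduced curve. -/
theorem resAut_eq_one {σ : Qb ≃ₐ[ℚ] Qb} {hd : σ ∈ A.decompositionSubgroup ℚ}
    (he : residueAut hd = RingEquiv.refl _) : resAut M H hd (A := A) = 1 := by
  refine semilinearAut_ext (fun z => Subtype.ext ?_) ?_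
  · rw [coe_resAut_smul, one_smul, he]
    exact (coeffMap_congr (RingHom.ext fun _ => rfl) _).trans (coeffMap_id _)
  · rw [SemilinearAut.baseAut_one, ← show residueAut hd = SemilinearAut.baseAut (resAut M H hd) from
      rfl, he]
    rfl

end Syms

end Fermat.BAD.XH

end
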