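import Fermat.Agent.BAD.XH.Degen

/-!
# Torsion of `X_H (M q)` at a decomposition group over `q ∤ M`: statements

Up to one fixed multiple, on torsion prime to `q`: inertia is unipotent of exponent two; on the
classes killed by both pushforwards a Frobenius satisfies
`W² φ² + (q + 1) W φ + q = 0` (here `W² = ⟨q⟩⁻¹`).
-/

set_option autoImplicit false

noncomputable section

open AlgebraicCurve

namespace Fermat.BAD.XH

open Fermat.MC Fermat.JAC Fermat.JAC.XH

local notation "Qb" => AlgebraicClosure ℚ

variable (M q : ℕ) [NeZero M] [NeZero q] [Fact q.Prime] (H : Subgroup (ZMod M)ˣ) [Lvl.NegMem H]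
variable (hq : q.Prime) (hqM : ¬ q ∣ M)

local notation "JK" => Pic0 Qb (Lvl.FL (Lvl.GammaH (M * q) (upH M H q)) Qb)

/-- Inertia on torsion prime to `q`: `d (σ - 1)² = 0`.  One `d` serves all places over `q`, all
elements of inertia and all orders `n`, so it cancels in a torsion free module such as a Tate
module. -/
def InertiaStatement : Prop :=
  ∃ d : ℕ, d ≠ 0 ∧ ∀ A : ValuationSubring Qb, A.LiesOverPrime q →
    ∀ σ ∈ A.inertiaSubgroupIn ℚ, ∀ n : ℕ, ¬ q ∣ n → ∀ z : JK, n • z = 0 →
      d • (σ • (σ • z - z) - (σ • z - z)) = 0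

/-- Frobenius `φ` on the torsion classes of order prime to `q` killed by both pushforwards:
`d (W² φ² + (q + 1) W φ + q) = 0` with the Atkin-Lehner operator `W`, again with one `d` for all
places, Frobenius elements and orders `n`. -/
def FrobeniusStatement : Prop :=
  ∃ d : ℕ, d ≠ 0 ∧ ∀ A : ValuationSubring Qb, A.LiesOverPrime q →
    ∀ φ : Qb ≃ₐ[ℚ] Qb, A.IsFrobeniusAt φ q → ∀ n : ℕ, ¬ q ∣ n → ∀ z : JK, n • z = 0 →
      pushPic (al M q H) z = 0 → pushPic (be M q H) z = 0 →
        d • (atkinAut M q H hq hqM • atkinAut M q H hq hqM • φ • φ • z +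
          (q + 1) • atkinAut M q H hq hqM • φ • z + q • z) = 0

end Fermat.BAD.XH

end
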