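import Fermat.Agent.BAD.XH.Norm
import Fermat.Agent.BAD.XH.TorsionStatement
import Fermat.Agent.BAD.X0.Torsion

/-!
# Torsion of `X_H (M q)` at a decomposition group over `q ∤ M`

`inertiaStatement` and `frobeniusStatement`, the two statements of `TorsionStatement`, from which
`GR/RT` deduces the inputs on new primes `q ≠ p` of modularity lifting and level lowering (in
`Top/Main` for S01, in `Top/Rows/Inputs` for the milestones).  The engine (`Degen.inertia_sq`,
`Degen.frobenius_new`) works with the two components of the reduction of `X_H (M q)` at `q`,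
exchanged by the Atkin-Lehner operator `W`, and needs a level without elliptic points: we pull back
to such a level `M'` (`exists_level`), apply it there and push forward, which multiplies by the
degree `d`.
-/

set_option autoImplicit false

attribute [local instance 10000] SubalgebraClass.toAlgebra HahnSeries.powerSeriesAlgebra

noncomputable section

open ModularCurve AlgebraicCurve

namespace Fermat.BAD.XH

open Fermat.FF Fermat.MC Fermat.JAC Fermat.JAC.XH Fermat.RED

local notation "Qb" => AlgebraicClosure ℚ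

section Generic

/-- For commuting `g` and `W`, the engine relation `d (g + q W⁻¹) (g + W⁻¹) z = 0` gives the one
without inverses, `d (W² g² + (q + 1) W g + q) z = 0`. -/
theorem relation_of_inv {G P : Type*} [Group G] [AddCommGroup P] [DistribMulAction G P] (g W : G)
    (hc : ∀ v : P, W • g • v = g • W • v) (d q : ℕ) (z : P)
    (h : d • (g • (g • z + W⁻¹ • z) + q • W⁻¹ • (g • z + W⁻¹ • z)) = 0) :
    d • (W • W • g • g • z + (q + 1) • W • g • z + q • z) = 0 := by
  have h' : W • W • (d • (g • (g • z + W⁻¹ • z) + q • W⁻¹ • (g • z + W⁻¹ • z))) = 0 := by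
    rw [h, smul_zero, smul_zero]
  rw [smul_comm W d, smul_comm W d] at h'
  refine Eq.trans (congrArg _ ?_) h'
  simp only [smul_add, smul_comm W q, hc, smul_inv_smul, add_smul, one_smul]
  abel

/-- The engine: `(Φ + q W) (Φ + W) x = 0` for `n • D = div y` of class `x`, if `Φ` fixes and `W`
exchanges the two reductions and, for `f = y` and `f = W y` scaled to be primitive at both, the
reduction at `true` times the `Φ`-image of that at `false` is an `n`-th power.

In the hypothesis `hroot`, `X.Prim b g` says that `g` is integral at the component `b` with nonzero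
reduction `X.red b g`, so `t b` scales `f` to be primitive there; `f₀` is the common action of `Φ`
on the two reduced components.  In the application the product is the reduction of the norm of `f`
to level `M`. -/
theorem frobenius_new_of_roots {L : Type*} [Field L] [IsAlgClosed L] {B : ValuationSubring L}
    {k : Type*} [Field k] [IsAlgClosed k] {F : Type*} [Field F] [Algebra L F] {π : B →+* k}
    {ι : Bool → F →+* LaurentSeries L} {K : IntermediateField k (LaurentSeries k)}
    [FF.IsFunctionField L F] [FF.IsFunctionField k K] {X : Fermat.BAD.Degen π ι K}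
    (Φ W : Fermat.BAD.Sym X) (hΦe : ∀ b, Φ.e b = b) (hWe : ∀ b, W.e b = !b)
    (hW1 : W.τ true = 1) (hWb : SemilinearAut.baseAut W.s = 1) (f₀ : SemilinearAut k K)
    (hΦτ : ∀ b, Φ.τ b = f₀) (hpt : ∀ s ∈ X.S, Φ.pt s = W.pt s) {q : ℕ}
    (hΦb : ∀ a, Φ.base a = a ^ q) (hWb' : ∀ a, W.base a = a) {n : ℕ} (hnk : (n : k) ≠ 0)
    {D : Divisor L F} {x : Pic0 L F} (hD : Fermat.BAD.IsCls D x) {y : F} (hy : y ≠ 0)
    (hdiv : divOf L y = n • D)
    (hroot : ∀ (f : F), (f = y ∨ f = W.s • y) → ∀ t : Bool → L, (∀ b, X.Prim b (t b • f)) →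
      ∃ w : K, X.red true (t true • f) * (f₀ • X.red false (t false • f)) = w ^ n) :
    Φ.s • (Φ.s • x + W.s • x) + q • W.s • (Φ.s • x + W.s • x) = 0 := by
  -- scale `y` to be primitive at both components; `W` moves it to the other one
  choose t ht0 ht using fun b => X.exists_smul_prim b hy
  have hWs : ∀ b, W.s • (t b • y) = t b • W.s • y := fun b => by
    rw [W.smul_smul_scalar, hWb, RingAut.one_apply]
  have hWp : ∀ b, X.Prim b (t (!b) • W.s • y) ∧
      X.red b (t (!b) • W.s • y) = W.τ (!b) • X.red (!b) (t (!b) • y) := fun b => by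
    have h1 := W.prim (ht (!b))
    have h2 := W.red_eq (!b) _ (ht (!b)).1
    rw [hWe, Bool.not_not, hWs] at h1 h2
    exact ⟨h1, h2⟩
  -- hence `Φ y * W y` reduces to an `n`-th power at both components
  obtain ⟨w₁, hw₁⟩ := hroot y (Or.inl rfl) t ht
  obtain ⟨w₂, hw₂⟩ := hroot _ (Or.inr rfl) (fun b => t (!b)) fun b => (hWp b).1
  have hpow : ∀ b, ∃ (c : L) (z : K), X.Prim b (c • (Φ.s • y * W.s • y)) ∧
      X.red b (c • (Φ.s • y * W.s • y)) = z ^ n := by
    intro b
    have he : (SemilinearAut.baseAut Φ.s (t b) * t (!b)) • (Φ.s • y * W.s • y) =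
        (Φ.s • (t b • y)) * (t (!b) • W.s • y) := by
      rw [Φ.smul_smul_scalar, Algebra.smul_def, Algebra.smul_def, Algebra.smul_def, map_mul]
      ring
    have h1 := Φ.prim (ht b)
    have h1r := Φ.red_eq b _ (ht b).1
    rw [hΦe] at h1 h1r
    rw [hΦτ] at h1r
    obtain ⟨h2, h2r⟩ := hWp b
    cases b
    · refine ⟨_, w₁, by rw [he]; exact h1.mul h2, ?_⟩
      rw [he, X.red_mul h1.1 h2.1, h1r, h2r, Bool.not_false, hW1, one_smul, mul_comm]
      exact hw₁
    · refine ⟨_, w₂, by rw [he]; exact h1.mul h2, ?_⟩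
      have e2 := (hWp false).2
      simp only [Bool.not_false, Bool.not_true, hW1, one_smul] at e2 hw₂ he h2 ⊢
      rw [e2] at hw₂
      rw [he, X.red_mul h1.1 h2.1, h1r, mul_comm]
      exact hw₂
  exact Degen.frobenius_new Φ W (hΦe true) (by rw [hWe]; exact Bool.false_ne_true) hpt hΦb hWb' hnk
    hD hy hdiv hpow

end Generic

variable (M q : ℕ) [NeZero M] [NeZero q] [Fact q.Prime] (H : Subgroup (ZMod M)ˣ) [Lvl.NegMem H]
variable (hq : q.Prime) (hqM : ¬ q ∣ M)

local notation "JK" => Pic0 Qb (Lvl.FL (Lvl.GammaH (M * q) (upH M H q)) Qb)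

/-- The Galois action commutes with the Atkin-Lehner operator. -/
theorem galAut_atkinAut (σ : Qb ≃ₐ[ℚ] Qb) :
    galAut M q H σ * atkinAut M q H hq hqM = atkinAut M q H hq hqM * galAut M q H σ :=
  semilinearAut_ext (fun f => by
      rw [mul_smul, mul_smul, atkinAut_smul, atkinAut_smul]
      exact (galAut_atkin M q H hq hqM σ f).symm)
    (by rw [SemilinearAut.baseAut_mul, SemilinearAut.baseAut_mul,
      show SemilinearAut.baseAut (atkinAut M q H hq hqM) = 1 from SemilinearAut.baseAut_ofAlgAut _,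
      mul_one, one_mul])

section Engine

variable {A : ValuationSubring (AlgebraicClosure ℚ)} (hA : A.LiesOverPrime q)
  [IsAlgClosed (IsLocalRing.ResidueField A)] [CharP (IsLocalRing.ResidueField A) q]
  [FF.IsFunctionField (IsLocalRing.ResidueField A) (KH M H A)]
variable (hν2 : Lvl.nuTwoG (Lvl.GammaH M H) = 0) (hν3 : Lvl.nuThreeG (Lvl.GammaH M H) = 0)

include hA hν2 hν3 in
/-- At a level without elliptic points: `(φ + q W⁻¹) (φ + W⁻¹) x = 0` for a Frobenius `φ` and
`n • D = div y` of class `x`, if the norms along `α` of `y` and `W⁻¹ y` are constants times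
`n`-th powers. -/
theorem frobenius_of_norms {σ : Qb ≃ₐ[ℚ] Qb} (hσ : A.IsFrobeniusAt σ q) {n : ℕ} (hn : ¬ q ∣ n)
    {D : Divisor Qb (FU M q H)} {x : JK} (hD : Fermat.BAD.IsCls D x) {y : FU M q H} (hy : y ≠ 0)
    (hdiv : divOf Qb y = n • D)
    (hN : ∃ (c : Qb) (h : FH M H), c ≠ 0 ∧ h ≠ 0 ∧
      normAlong (al M q H) y = algebraMap Qb (FH M H) c * h ^ n)
    (hN' : ∃ (c : Qb) (h : FH M H), c ≠ 0 ∧ h ≠ 0 ∧
      normAlong (al M q H) ((atkinAut M q H hq hqM)⁻¹ • y) = algebraMap Qb (FH M H) c * h ^ n) :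
    galAut M q H σ • (galAut M q H σ • x + (atkinAut M q H hq hqM)⁻¹ • x) +
      q • (atkinAut M q H hq hqM)⁻¹ • (galAut M q H σ • x + (atkinAut M q H hq hqM)⁻¹ • x) = 0 := by
  have hn0 : n ≠ 0 := fun h => hn (h ▸ dvd_zero q)
  have hWb : SemilinearAut.baseAut (atkinInvSym M q H hq hqM hA hν2 hν3).s = 1 := by
    rw [atkinInvSym_s, atkinAut, ← map_inv]
    exact SemilinearAut.baseAut_ofAlgAut _
  have h := frobenius_new_of_roots (galSym M q H hq hqM hA hν2 hν3 hσ.mem_decompositionSubgroup)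
    (atkinInvSym M q H hq hqM hA hν2 hν3) (fun _ => rfl)
    (atkinInvSym_e M q H hq hqM hA hν2 hν3) rfl hWb (frobAut M q H hq hA)
    (fun b => by rw [galSym_τ, resAut_eq_frobAut M q H hq hA hσ])
    (fun s hs => pt_frobenius M q H hq hqM hA hν2 hν3 hσ hs) (q := q)
    (fun u => by rw [galSym_base, residueAut_eq_frobenius hσ]; rfl)
    (atkinInvSym_base M q H hq hqM hA hν2 hν3) (n := n)
    (fun h => hn ((CharP.cast_eq_zero_iff _ q n).mp h)) hD hy hdiv (fun f hf t ht => by
      rcases hf with rfl | rfl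
      · obtain ⟨c, h, -, hh, e⟩ := hN
        exact exists_pow_red M q H hq hqM hA hν2 hν3 hn0 hy hh e t ht
      · obtain ⟨c, h, -, hh, e⟩ := hN'
        rw [atkinInvSym_s] at ht ⊢
        exact exists_pow_red M q H hq hqM hA hν2 hν3 hn0
          ((smul_ne_zero_iff_ne _).mpr hy) hh e t ht)
  rwa [galSym_s, atkinInvSym_s] at h

end Engine

section Change

variable {M q H} {M' : ℕ} [NeZero M'] {H' : Subgroup (ZMod M')ˣ} [Lvl.NegMem H']
  (hle : Lvl.GammaH (M' * q) (upH M' H' q) ≤ Lvl.GammaH (M * q) (upH M H q))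
  (hle₀ : Lvl.GammaH M' H' ≤ Lvl.GammaH M H) (hqM' : ¬ q ∣ M')

local notation "π" => inclFL Qb hle

include hle₀ hq hqM hqM' in
/-- The inclusion of level `M q` in level `M' q` commutes with `W⁻¹`. -/
theorem incl_atkinAut_inv (f : FU M q H) :
    (atkinAut M' q H' hq hqM')⁻¹ • π f = π ((atkinAut M q H hq hqM)⁻¹ • f) := by
  rw [inv_smul_eq_iff, atkinAut_smul, incl_atkin hq hqM hle hle₀ hqM', ← atkinAut_smul,
    smul_inv_smul]

omit [Fact (Nat.Prime q)] in
/-- The pullback to level `M' q` commutes with the Galois action. -/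
theorem pullPic_galAut (σ : Qb ≃ₐ[ℚ] Qb) (z : JK) :
    galAut M' q H' σ • pullPic π z = pullPic π (galAut M q H σ • z) :=
  (pullPic_smul (φ := π) (ψ := π) (s := galAut M q H σ) (s' := galAut M' q H' σ)
    (inclFL_smul Qb hle σ) z).symm

include hle₀ in
/-- The pullback to level `M' q` commutes with `W⁻¹`. -/
theorem pullPic_atkinAut_inv (z : JK) :
    (atkinAut M' q H' hq hqM')⁻¹ • pullPic π z = pullPic π ((atkinAut M q H hq hqM)⁻¹ • z) :=
  (pullPic_smul (φ := π) (ψ := π) (s := (atkinAut M q H hq hqM)⁻¹)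
    (s' := (atkinAut M' q H' hq hqM')⁻¹) (incl_atkinAut_inv hq hqM hle hle₀ hqM') z).symm

end Change

include hq hqM in
omit [NeZero q] [Fact (Nat.Prime q)] in
/-- There is a level `M'` prime to `q`, above `M` at both `Γ_H (M)` and `Γ_H (M q)`, without
elliptic points: a multiple of `M` by the auxiliary level of `q`. -/
theorem exists_level : ∃ (M' : ℕ) (_ : NeZero M') (H' : Subgroup (ZMod M')ˣ) (_ : Lvl.NegMem H'),
    ¬ q ∣ M' ∧ Lvl.GammaH (M' * q) (upH M' H' q) ≤ Lvl.GammaH (M * q) (upH M H q) ∧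
      Lvl.GammaH M' H' ≤ Lvl.GammaH M H ∧
      Lvl.nuTwoG (Lvl.GammaH M' H') = 0 ∧ Lvl.nuThreeG (Lvl.GammaH M' H') = 0 := by
  set M' := X0.auxLevel q * M
  have : NeZero M' := ⟨mul_ne_zero (NeZero.ne _) (NeZero.ne M)⟩
  have hd : M ∣ M' := dvd_mul_left M _
  obtain ⟨h2, h3⟩ := nuG_GammaH_eq_zero M' (H.comap (ZMod.unitsMap hd))
    ((X0.auxLevel_spec q).imp (fun h => h.mul_right M) fun h => h.mul_right M)
  refine ⟨M', inferInstance, H.comap (ZMod.unitsMap hd), inferInstance,
    X0.not_dvd_auxLevel_mul hq hqM, ?_, (Lvl.GammaH_inf_Gamma0 hd).ge.trans inf_le_left, h2, h3⟩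
  have hd' : M * q ∣ M' * q := Nat.mul_dvd_mul_right hd q
  refine (Lvl.GammaH_mono (H' := (upH M H q).comap (ZMod.unitsMap hd')) fun u hu => ?_).trans
    ((Lvl.GammaH_inf_Gamma0 hd').ge.trans inf_le_left)
  simp only [upH, Subgroup.mem_comap] at hu ⊢
  rw [← MonoidHom.comp_apply, ZMod.unitsMap_comp] at hu ⊢
  exact hu

include hq hqM in
/-- **Inertia at `q` is unipotent of exponent two, up to one multiple.** -/
theorem inertiaStatement : InertiaStatement M q H := by
  obtain ⟨M', _, H', _, hqM', hle, hle₀, h2, h3⟩ := exists_level M q H hq hqM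
  refine ⟨_, X0.finrankAlong_ne_zero (inclFL Qb hle), fun A hA σ hσ n hn z hz => ?_⟩
  have := Fermat.RED.charP_residue hq hA
  have := Fermat.RED.Model.isAlgClosed_residue A
  have := isFunctionField_KH M' q H' hq hqM' hA
  -- at level `M'` inertia is trivial on both components, so `(σ - 1)² = 0`
  obtain ⟨hd, he⟩ := residueAut_eq_refl hσ
  have h0 := Degen.inertia_sq (galSym M' q H' hq hqM' hA h2 h3 hd) rfl
    (fun b => (galSym_τ M' q H' hq hqM' hA h2 h3 hd b).trans (resAut_eq_one M' H' he)) (n := n)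
    (fun h => hn ((CharP.cast_eq_zero_iff _ q n).mp h))
    (x := pullPic (inclFL Qb hle) z) (by rw [← map_nsmul, hz, map_zero])
  -- push forward
  simp only [galois_smul_pic0_def]
  exact X0.finrank_nsmul_of_pull_sub (inclFL Qb hle) (g := galAut M q H σ)
    (g' := galAut M' q H' σ) (pullPic_galAut hle σ) h0

include hq hqM in
/-- **Frobenius on the classes killed by both pushforwards, up to one multiple.** -/
theorem frobeniusStatement : FrobeniusStatement M q H hq hqM := by
  obtain ⟨M', _, H', _, hqM', hle, hle₀, h2, h3⟩ := exists_level M q H hq hqM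
  refine ⟨_, X0.finrankAlong_ne_zero (inclFL Qb hle), fun A hA σ hσ n hn z hz ha hb => ?_⟩
  have := Fermat.RED.charP_residue hq hA
  have := Fermat.RED.Model.isAlgClosed_residue A
  have := isFunctionField_KH M' q H' hq hqM' hA
  set φ := inclFL Qb hle
  set Wi := (atkinAut M q H hq hqM)⁻¹
  -- `div y = n D`; both norms are constants times `n`-th powers as both pushforwards vanish
  obtain ⟨D, hD⟩ := Fermat.BAD.exists_isCls z
  obtain ⟨y, hy, hdiv⟩ := hD.exists_div hz
  obtain ⟨c₁, h₁, hc₁, hh₁, hN₁⟩ := X0.exists_norm_eq_of_pushPic (al M q H) hD hy hdiv ha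
  obtain ⟨c₂, h₂', hc₂, hh₂, hN₂⟩ := X0.exists_norm_eq_of_pushPic (n := n) (al M q H) (hD.smul Wi)
    (y := Wi • y) ((smul_ne_zero_iff_ne Wi).mpr hy)
    (by rw [Fermat.JAC.divOf_smul, hdiv, smul_comm])
    (by rw [pushPic_al_atkinAut_inv, hb])
  -- the same at level `M'`
  have hnorm : ∀ (c : Qb) (h : FH M H) (f : FU M q H), c ≠ 0 → h ≠ 0 →
      normAlong (al M q H) f = algebraMap Qb (FH M H) c * h ^ n →
      ∃ (c' : Qb) (h' : FH M' H'), c' ≠ 0 ∧ h' ≠ 0 ∧
        normAlong (al M' q H') (φ f) = algebraMap Qb (FH M' H') c' * h' ^ n :=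
    fun c h f hc hh e => ⟨c, inclFL Qb hle₀ h, hc,
      (map_ne_zero_iff _ (inclFL Qb hle₀).injective).mpr hh, by
        rw [normAlong_incl hq hqM hle hle₀ hqM', e, map_mul, map_pow, AlgHom.commutes]⟩
  have h0 := frobenius_of_norms M' q H' hq hqM' hA h2 h3 hσ hn (X0.isCls_pullDiv φ hD)
    (y := φ y) ((map_ne_zero_iff _ φ.injective).mpr hy)
    (by rw [← pullDiv_divOf, hdiv, map_nsmul])
    (hnorm c₁ h₁ y hc₁ hh₁ hN₁)
    (by rw [incl_atkinAut_inv hq hqM hle hle₀ hqM']; exact hnorm c₂ h₂' _ hc₂ hh₂ hN₂)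
  -- push forward and clear the inverses
  have hkey := X0.finrank_nsmul_of_pull_add φ (g := galAut M q H σ) (g' := galAut M' q H' σ)
    (pullPic_galAut hle σ) (w := Wi) (pullPic_atkinAut_inv hq hqM hle hle₀ hqM') h0
  have hg : ∀ v : JK, σ • v = galAut M q H σ • v := fun v => galois_smul_pic0_def _ σ v
  rw [hg, hg]
  exact relation_of_inv (galAut M q H σ) (atkinAut M q H hq hqM) (fun v => by
    rw [← mul_smul, ← mul_smul, galAut_atkinAut M q H hq hqM σ]) _ q z hkey

end Fermat.BAD.XH

end
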