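import Fermat.Agent.BAD.X0.Uniformizer
import Fermat.Agent.BAD.XH.Regular

/-!
# Rational functions separate on the reduced curve of level `M`

`exists_rat_uniformizer`: at a point with finite `j` a function with rational expansion reduces to
a uniformiser plus a constant.
-/

set_option autoImplicit false

attribute [local instance 10000] SubalgebraClass.toAlgebra HahnSeries.powerSeriesAlgebra

noncomputable section

open ModularCurve AlgebraicCurve

namespace Fermat.BAD.XH

open Fermat.FF Fermat.MC Fermat.RED.Model

section Level

variable (M q : ℕ) [NeZero M] [NeZero q] [Fact q.Prime] (H : Subgroup (ZMod M)ˣ) [Lvl.NegMem H]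
variable (hq : q.Prime) (hqM : ¬ q ∣ M)
variable {A : ValuationSubring (AlgebraicClosure ℚ)} (hA : A.LiesOverPrime q)
  [IsAlgClosed (IsLocalRing.ResidueField A)]
  [FF.IsFunctionField (IsLocalRing.ResidueField A) (KH M H A)]

local notation "kA" => IsLocalRing.ResidueField A

include hq hqM hA

/-- At a point of the finite part some rational integral function regular away from the cusps
reduces to a uniformiser plus a constant. -/
theorem exists_rat_uniformizer {s : Place kA (KH M H A)} (hs : OrdGE s (jK M H A) 0) :
    ∃ (t : FH M H) (y : LaurentSeries A) (z : KH M H A) (c : kA),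
      X0.IsRatUniformizer (jM M H) s t y z c := by
  refine X0.exists_rat_uniformizer_of_lift hq hA (transcendental_jM M H)
    (transcendental_jK M q H hq hqM hA) (arithmeticGalois (Lvl.FQ (Lvl.GammaH M H)))
    (fun σ t => coe_arithmeticGalois_smul _ σ t) (fun σ => ?_)
    (fun t => X0.coeff_mem_of_fixed t) (exists_smul_int_level M q H hq hqM hA)
    (redF_mem_K M H) (mem_intClosure_level M q H hq hqM hA) (fun z hz => ?_) hs
  · refine Subtype.ext ?_
    rw [coe_arithmeticGalois_smul, coe_jM, coeffMap_jqModC]
  · obtain ⟨hgm, hnorm, -⟩ := goodModel_FH M q H hq hqM hA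
    obtain ⟨g, hg, hgz⟩ := hnorm z hz
    obtain ⟨y, hy⟩ := hgm.int_chart g hg
    refine ⟨g, mem_intClosure_of_mem_chart hg, y, hy.symm, ?_⟩
    have h := congrArg Subtype.val hgz
    change redF (IsLocalRing.residue A) (FH M H).val.toRingHom g = _ at h
    rw [← h, redF_of_mem (hgm.int_chart g hg),
      ← redHom_coeffMap (IsLocalRing.residue A) y ⟨y, rfl⟩]
    exact congrArg _ (Subtype.ext hy)

end Level

end Fermat.BAD.XH

end
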