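import Fermat.Agent.BAD.XH.Regular
import Fermat.Agent.BAD.X0.Unit

/-!
# The unit of level `q`, on `X_H(M q)`

`un = G (j, j_q) / Φ' (j, j_q)` is regular away from the cusps, its expansions are
`q ^ 12 Δ (q z) / Δ (z)` at `∞` and `Δ (z) / Δ (q z)` at the other cusp.
-/

set_option autoImplicit false

attribute [local instance 10000] SubalgebraClass.toAlgebra HahnSeries.powerSeriesAlgebra

noncomputable section

open ModularCurve

namespace Fermat.BAD.XH

open Fermat.BAD.X0
open Fermat.FF Fermat.MC Fermat.RED Fermat.RED.Model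

local notation "Qb" => AlgebraicClosure ℚ

variable (M q : ℕ) [NeZero M] [NeZero q] (H : Subgroup (ZMod M)ˣ) [Lvl.NegMem H]
variable (hq : q.Prime) (hqM : ¬ q ∣ M)

section Un

variable [Fact q.Prime]

/-- The unit of level `q` in the function field at level `Γ_H(M q)`, from the modular equation. -/
def un : FU M q H :=
  ((levelOne q).G.map (ev (aj M q H))).eval (bj M q H) /
    (Polynomial.derivative ((levelOne q).Φ.map (ev (aj M q H)))).eval (bj M q H)

/-- An expansion sending `(j, j (q z))` to a branch sends `un` to the unit on that branch. -/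
theorem map_un (f : FU M q H →+* LaurentSeries Qb) {ζ : Qbˣ}
    (hζ : IsPrimitiveRoot (ζ : Qb) q) (hf : f (aj M q H) = jb Qb 1 q) (o : Option (Fin q))
    (ho : f (bj M q H) = yRoot Qb q ζ o) : f (un M q H) = uRoot Qb q ζ o := by
  have hid := (levelOne q).identities_of_isPrimitiveRoot (IsPrimitiveRoot.coe_units_iff.mp hζ)
  rw [un, map_div₀, map_eval_ev, Polynomial.derivative_map, map_eval_ev, hf, ho,
    ← Polynomial.derivative_map, show ev (jb Qb 1 q) = evalAt Qb (jb Qb 1 q) from rfl,
    hid.eq_modular, hid.eq_interp]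
  classical
  exact div_eval_interp _ _ (yRoot_injective q hζ) o

/-- The expansion of `un` at `∞`. -/
theorem emb_true_un : emb M q H hq hqM true (un M q H) =
    (q : LaurentSeries Qb) ^ 12 * qExpand Qb q (deltaSeries Qb) * deltaSeriesInv Qb := by
  obtain ⟨ζ, hζ⟩ := exists_zeta q
  refine qExpand_injective q ?_
  have h := map_un M q H ((qExpand Qb q).comp (emb M q H hq hqM true)) hζ
    (by rw [RingHom.comp_apply, emb_true_aj, jb_one]) none
    (by rw [RingHom.comp_apply, emb_true_bj, qExpand_qExpand]; exact (jb_one (q * q)).symm)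
  rw [RingHom.comp_apply] at h
  rw [h]
  simp only [uRoot, map_mul, map_pow, map_natCast, qExpand_qExpand]

/-- The expansion of `un` at `0`. -/
theorem emb_false_un : emb M q H hq hqM false (un M q H) =
    deltaSeries Qb * qExpand Qb q (deltaSeriesInv Qb) := by
  obtain ⟨ζ, hζ⟩ := exists_zeta q
  have h := map_un M q H (emb M q H hq hqM false) hζ
    (by rw [emb_false_aj, jb_one]) (some ⟨0, NeZero.pos q⟩)
    (by rw [emb_false_bj]; simp [yRoot, jb_one, qExpand_one_apply])
  rw [h]
  simp only [uRoot, pow_zero, twist_one_apply]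

/-- The image of `un` under `W`. -/
def wn : FU M q H := atkin M q H hq hqM (un M q H)

/-- `sqW` fixes `un`. -/
theorem sqW_un : sqW M q H hq hqM (un M q H) = un M q H := by
  have h : ∀ (P : Polynomial (Polynomial ℤ)) (x y : FU M q H),
      sqW M q H hq hqM ((P.map (ev x)).eval y) =
        (P.map (ev (sqW M q H hq hqM x))).eval (sqW M q H hq hqM y) := fun P x y =>
    map_eval_ev (sqW M q H hq hqM).toAlgHom.toRingHom x y P
  rw [un, map_div₀, h, Polynomial.derivative_map, h, sqW_aj, sqW_bj]

/-- The expansions of `wn` are those of `un` with the cusps exchanged. -/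
theorem emb_wn (b : Bool) :
    emb M q H hq hqM b (wn M q H hq hqM) = emb M q H hq hqM (!b) (un M q H) := by
  cases b
  · rw [wn, emb_false_atkin, sqW_un]; rfl
  · exact emb_true_atkin M q H hq hqM _

include hq hqM in
/-- The unit of level `q` is regular away from the cusps. -/
theorem un_mem_intClosure : un M q H ∈ intClosure Qb (aj M q H) := by
  obtain ⟨ζ, hζ⟩ := exists_zeta q
  have hid := (levelOne q).identities_of_isPrimitiveRoot (k := Qb)
    (IsPrimitiveRoot.coe_units_iff.mp hζ)
  have h0 : ((levelOne q).Ψ.map (ev (aj M q H))).eval (un M q H) = 0 := by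
    refine ((qExpand Qb q).comp (emb M q H hq hqM true)).injective ?_
    rw [map_zero, map_eval_ev]
    simp only [RingHom.comp_apply]
    rw [emb_true_aj, ← jb_one q,
      show ev (jb Qb 1 q) = evalAt Qb (jb Qb 1 q) from rfl, hid.eq_unit, Polynomial.eval_prod]
    refine Finset.prod_eq_zero (Finset.mem_univ none) ?_
    rw [Polynomial.eval_sub, Polynomial.eval_X, Polynomial.eval_C, sub_eq_zero,
      ← RingHom.comp_apply (qExpand Qb q) (emb M q H hq hqM true) (un M q H),
      map_un M q H _ hζ (by rw [RingHom.comp_apply, emb_true_aj, jb_one]) none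
        (by rw [RingHom.comp_apply, emb_true_bj, qExpand_qExpand]; exact (jb_one (q * q)).symm)]
  have hmem : ∀ P : Polynomial ℤ, ev (aj M q H) P ∈ Algebra.adjoin Qb {aj M q H} := fun P => by
    rw [ev, Polynomial.coe_eval₂RingHom, Polynomial.eval₂_eq_sum]
    exact sum_mem fun i _ => mul_mem (intCast_mem _ _)
      (pow_mem (Algebra.self_mem_adjoin_singleton Qb _) i)
  refine mem_intClosure.mpr ⟨(levelOne q).Ψ.map ((ev (aj M q H)).codRestrict
    (Algebra.adjoin Qb {aj M q H}).toSubring hmem), (levelOne q).monic_Ψ.map _, ?_⟩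
  rw [Polynomial.eval₂_map]
  rw [Polynomial.eval_map] at h0
  exact h0

end Un

section Red

variable [Fact q.Prime]
variable {A : ValuationSubring (AlgebraicClosure ℚ)} (hA : A.LiesOverPrime q)
  [IsAlgClosed (IsLocalRing.ResidueField A)]

/-- The expansions of `wn` are integral. -/
theorem emb_wn_int (b : Bool) : emb M q H hq hqM b (wn M q H hq hqM) ∈ intSeries A := by
  cases b
  · rw [emb_wn, Bool.not_false, emb_true_un]
    refine mul_mem (mul_mem (pow_mem (natCast_mem _ q) 12) ?_) ?_
    · exact ⟨qExpand A q (deltaSeries A), by rw [coeffMap_qExpand, coeffMap_deltaSeries]⟩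
    · exact ⟨deltaSeriesInv A, coeffMap_deltaSeriesInv _ _⟩
  · rw [emb_wn, Bool.not_true, emb_false_un]
    exact ⟨hSer A q, X0.coeffMap_subtype_hSer q⟩

/-- The reduction of `wn` at `∞` is `hSer`. -/
theorem redF_wn :
    redF (IsLocalRing.residue A) (emb M q H hq hqM true) (wn M q H hq hqM) =
      hSer (IsLocalRing.ResidueField A) q := by
  rw [redF_of_mem (emb_wn_int M q H hq hqM true), ← X0.coeffMap_residue_hSer q,
    ← redHom_coeffMap (IsLocalRing.residue A) (hSer A q) ⟨_, rfl⟩]
  refine congrArg _ (Subtype.ext ?_)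
  exact ((emb_wn M q H hq hqM true).trans (emb_false_un M q H hq hqM)).trans
    (X0.coeffMap_subtype_hSer (A := A) q).symm

include hq hqM hA

/-- `hSer` lies in the reduced field of level `M`. -/
theorem hSer_mem : hSer (IsLocalRing.ResidueField A) q ∈
    KH M H A := by
  rw [← redF_wn M q H hq hqM]
  exact redF_mem M q H hq hqM hA true _ (emb_wn_int M q H hq hqM true)

/-- If the expansion at `0` of a regular `g` is divisible by `q ^ 12`, then `hSer` divides the
reduction at `∞`. -/
theorem exists_mul_hSer_eq (g : FU M q H) (hg : g ∈ intClosure Qb (aj M q H))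
    (hinf : emb M q H hq hqM true g ∈ intSeries A) {w : LaurentSeries Qb} (hw : w ∈ intSeries A)
    (h0 : emb M q H hq hqM false g = (q : LaurentSeries Qb) ^ 12 * w) :
    ∃ z : KH M H A,
      z ∈ intClosure (IsLocalRing.ResidueField A) (jK M H A) ∧
      (z : LaurentSeries (IsLocalRing.ResidueField A)) * hSer (IsLocalRing.ResidueField A) q =
        redF (IsLocalRing.residue A) (emb M q H hq hqM true) g :=
  X0.exists_mul_hSer_of_unit q hq hA (emb_algebraMap M q H hq hqM) (emb_true_un M q H hq hqM)
    (emb_false_un M q H hq hqM)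
    (fun y hy hi => ⟨⟨_, redF_mem M q H hq hqM hA true y (hi true)⟩,
      redF_true_mem_intClosure M q H hq hqM hA y hi hy _ rfl, rfl⟩)
    (un_mem_intClosure M q H hq hqM) hg hinf hw h0

end Red

end Fermat.BAD.XH

end
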